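import Mathlib

/-! S16, package UB (arithmetic part): consequences of the trace identity
`N h² + U((Uh)²) = (N+1) a₀² E₄` for `h = u + m K`. Pure integer power series. -/

set_option autoImplicit false

open PowerSeries Finset
open scoped ArithmeticFunction.sigma

namespace FA16

/-- parity of the coefficients of a square -/
lemma conv_parity (f : ℕ → ℤ) (j : ℕ) :
    ∃ s : ℤ, ∑ x ∈ antidiagonal j, f x.1 * f x.2 =
      2 * s + (if Even j then f (j / 2) ^ 2 else 0) := by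
  classical
  refine ⟨∑ x ∈ (antidiagonal j).filter (fun x => x.1 < x.2), f x.1 * f x.2, ?_⟩
  have h1 := (Finset.sum_filter_add_sum_filter_not (antidiagonal j) (fun x => x.1 < x.2)
    (fun x => f x.1 * f x.2)).symm
  have h2 := (Finset.sum_filter_add_sum_filter_not
    ((antidiagonal j).filter (fun x => ¬ x.1 < x.2)) (fun x => x.2 < x.1)
    (fun x => f x.1 * f x.2)).symm
  have h3 : ∑ x ∈ ((antidiagonal j).filter (fun x => ¬ x.1 < x.2)).filter (fun x => x.2 < x.1),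
      f x.1 * f x.2 = ∑ x ∈ (antidiagonal j).filter (fun x => x.1 < x.2), f x.1 * f x.2 := by
    apply Finset.sum_nbij' Prod.swap Prod.swap
    · rintro ⟨a, b⟩ h
      simp only [mem_filter, HasAntidiagonal.mem_antidiagonal, Prod.swap] at h ⊢
      omega
    · rintro ⟨a, b⟩ h
      simp only [mem_filter, HasAntidiagonal.mem_antidiagonal, Prod.swap] at h ⊢
      omega
    · rintro ⟨a, b⟩ _
      rfl
    · rintro ⟨a, b⟩ _
      rfl
    · rintro ⟨a, b⟩ _
      simp only [Prod.swap]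
      ring
  have h4 : ∑ x ∈ ((antidiagonal j).filter (fun x => ¬ x.1 < x.2)).filter (fun x => ¬ x.2 < x.1),
      f x.1 * f x.2 = (if Even j then f (j / 2) ^ 2 else 0) := by
    split_ifs with hj
    · obtain ⟨r, rfl⟩ := hj
      have : ((antidiagonal (r + r)).filter (fun x => ¬ x.1 < x.2)).filter (fun x => ¬ x.2 < x.1)
          = {(r, r)} := by
        ext ⟨a, b⟩
        simp only [mem_filter, HasAntidiagonal.mem_antidiagonal, mem_singleton, Prod.mk.injEq]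
        omega
      rw [this, Finset.sum_singleton]
      have : (r + r) / 2 = r := by omega
      rw [this]
      ring
    · have : ((antidiagonal j).filter (fun x => ¬ x.1 < x.2)).filter (fun x => ¬ x.2 < x.1)
          = ∅ := by
        ext ⟨a, b⟩
        simp only [mem_filter, HasAntidiagonal.mem_antidiagonal, notMem_empty, iff_false]
        rintro ⟨⟨h, h'⟩, h''⟩
        apply hj
        exact ⟨a, by omega⟩
      rw [this, Finset.sum_empty]
  rw [h1, h2, h3, h4]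
  ring

lemma coeff_sq_parity (F : PowerSeries ℤ) (j : ℕ) :
    ∃ s : ℤ, coeff j (F * F) = 2 * s + (if Even j then coeff (j / 2) F ^ 2 else 0) := by
  rw [coeff_mul]
  exact conv_parity (fun i => coeff i F) j

lemma coeff_sq_form (u m : ℤ) (K : PowerSeries ℤ) {j : ℕ} (hj : j ≠ 0) :
    coeff j ((C u + C m * K) * (C u + C m * K)) =
      2 * u * m * coeff j K + m ^ 2 * coeff j (K * K) := by
  have : (C u + C m * K) * (C u + C m * K) =
      C (u * u) + C (2 * u * m) * K + C (m ^ 2) * (K * K) := by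
    simp only [map_mul, map_pow, map_ofNat]
    ring
  rw [this, map_add, map_add, coeff_C_mul, coeff_C_mul, coeff_C, if_neg hj]
  ring

/-- The arithmetic data attached to `h ∈ M₂(Γ₀(N))` with integral `q`-expansion `A`,
`A' =` the `q`-expansion of `U h`. -/
structure WPair (N : ℕ) (u : ℤ) (A A' : PowerSeries ℤ) : Prop where
  hA' : ∀ j, coeff j A' = coeff (N * j) A
  hA : ∀ j, coeff j A = coeff (N * j) A'
  h0 : coeff 0 A = u
  tr : ∀ j, j ≠ 0 → (N : ℤ) * coeff j (A * A) + coeff (N * j) (A' * A') =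
    (N + 1) * u ^ 2 * (240 * (σ 3 j : ℤ))
  tr' : ∀ j, j ≠ 0 → (N : ℤ) * coeff j (A' * A') + coeff (N * j) (A * A) =
    (N + 1) * u ^ 2 * (240 * (σ 3 j : ℤ))

/-- normal form `A = u + m K`, `A' = u + m K'`. -/
lemma WPair.exists_K {N : ℕ} (hN : N ≠ 0) {u : ℤ} {A A' : PowerSeries ℤ} (W : WPair N u A A')
    {m : ℤ} (hm0 : m ≠ 0) (hm : ∀ j, j ≠ 0 → m ∣ coeff j A) :
    ∃ K K' : PowerSeries ℤ, A = C u + C m * K ∧ A' = C u + C m * K' ∧
      coeff 0 K = 0 ∧ coeff 0 K' = 0 ∧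
      (∀ j, coeff j K' = coeff (N * j) K) ∧ (∀ j, coeff j K = coeff (N * j) K') := by
  have hm' : ∀ j, j ≠ 0 → m ∣ coeff j A' := fun j hj => by
    rw [W.hA']
    exact hm _ (Nat.mul_ne_zero hN hj)
  have h0' : coeff 0 A' = u := by
    rw [W.hA', Nat.mul_zero, W.h0]
  let K : PowerSeries ℤ := PowerSeries.mk fun j => if j = 0 then 0 else coeff j A / m
  let K' : PowerSeries ℤ := PowerSeries.mk fun j => if j = 0 then 0 else coeff j A' / m
  have hK : A = C u + C m * K := by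
    ext j
    rw [map_add, coeff_C_mul, coeff_C, coeff_mk]
    by_cases hj : j = 0
    · subst hj
      simp [W.h0]
    · rw [if_neg hj, if_neg hj, Int.mul_ediv_cancel' (hm j hj), zero_add]
  have hK' : A' = C u + C m * K' := by
    ext j
    rw [map_add, coeff_C_mul, coeff_C, coeff_mk]
    by_cases hj : j = 0
    · subst hj
      simp [h0']
    · rw [if_neg hj, if_neg hj, Int.mul_ediv_cancel' (hm' j hj), zero_add]
  refine ⟨K, K', hK, hK', by simp [K], by simp [K'], ?_, ?_⟩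
  · intro j
    simp only [K, K', coeff_mk]
    by_cases hj : j = 0
    · subst hj
      simp
    · rw [if_neg hj, if_neg (Nat.mul_ne_zero hN hj), W.hA']
  · intro j
    simp only [K, K', coeff_mk]
    by_cases hj : j = 0
    · subst hj
      simp
    · rw [if_neg hj, if_neg (Nat.mul_ne_zero hN hj), W.hA]

/-- the fundamental relation `(**)` -/
lemma fund_rel {N : ℕ} (hN : N ≠ 0) {u m : ℤ} {K K' : PowerSeries ℤ}
    (hKK : ∀ j, coeff j K = coeff (N * j) K')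
    {j : ℕ} (hj : j ≠ 0)
    (tr : (N : ℤ) * coeff j ((C u + C m * K) * (C u + C m * K)) +
      coeff (N * j) ((C u + C m * K') * (C u + C m * K')) =
      (N + 1) * u ^ 2 * (240 * (σ 3 j : ℤ))) :
    2 * u * m * (N + 1) * coeff j K +
      m ^ 2 * ((N : ℤ) * coeff j (K * K) + coeff (N * j) (K' * K')) =
      240 * (N + 1) * u ^ 2 * (σ 3 j : ℤ) := by
  rw [coeff_sq_form u m K hj, coeff_sq_form u m K' (Nat.mul_ne_zero hN hj), ← hKK j] at tr
  linear_combination tr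


lemma coeff_one_sq {K : PowerSeries ℤ} (h0 : coeff 0 K = 0) : coeff 1 (K * K) = 0 := by
  simp [coeff_mul, Finset.Nat.antidiagonal_succ, h0]

lemma sigma_three_prime {N : ℕ} (hN : N.Prime) : (σ 3 N : ℤ) = 1 + (N : ℤ) ^ 3 := by
  rw [ArithmeticFunction.sigma_apply, hN.sum_divisors]
  push_cast
  ring

lemma sigma_three_one : (σ 3 1 : ℤ) = 1 := by
  simp [ArithmeticFunction.sigma_apply]

section main

variable {N : ℕ} {u : ℤ} {A A' : PowerSeries ℤ}

/-- (R2): the coefficient of `q¹`. -/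
lemma WPair.R2 (hN : N ≠ 0) (W : WPair N u A A') {m : ℤ} (hm0 : m ≠ 0)
    (hm : ∀ j, j ≠ 0 → m ∣ coeff j A) :
    ∃ x c : ℤ, 2 * u * m * (N + 1) * x + m ^ 2 * c = 240 * (N + 1) * u ^ 2 := by
  obtain ⟨K, K', rfl, rfl, h0, h0', h1, h2⟩ := W.exists_K hN hm0 hm
  have := fund_rel hN h2 one_ne_zero (W.tr 1 one_ne_zero)
  rw [coeff_one_sq h0, sigma_three_one] at this
  exact ⟨coeff 1 K, coeff (N * 1) (K' * K'), by linear_combination this⟩

/-- (R1): index `N` of the first relation minus index `1` of the second. -/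
lemma WPair.R1 (hN : N.Prime) (W : WPair N u A A') {m : ℤ} (hm0 : m ≠ 0)
    (hm : ∀ j, j ≠ 0 → m ∣ coeff j A) :
    ∃ w : ℤ, m ^ 2 * w = 240 * (N + 1) * u ^ 2 * (N : ℤ) ^ 3 ∧ (Odd N → Even w) := by
  obtain ⟨K, K', rfl, rfl, h0, h0', h1, h2⟩ := W.exists_K hN.ne_zero hm0 hm
  have e1 := fund_rel hN.ne_zero h2 hN.ne_zero (W.tr N hN.ne_zero)
  have e2 := fund_rel hN.ne_zero h1 one_ne_zero (W.tr' 1 one_ne_zero)
  rw [coeff_one_sq h0', sigma_three_one, h1 1, Nat.mul_one] at e2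
  rw [sigma_three_prime hN] at e1
  refine ⟨((N : ℤ) - 1) * coeff N (K * K) + coeff (N * N) (K' * K'), by
    linear_combination e1 - e2, ?_⟩
  intro hodd
  apply Even.add
  · apply Even.mul_right
    obtain ⟨r, hr⟩ := hodd
    exact ⟨r, by rw [hr]; push_cast; ring⟩
  · obtain ⟨s, hs⟩ := coeff_sq_parity K' (N * N)
    rw [if_neg (by rw [Nat.not_even_iff_odd]; exact hodd.mul hodd), add_zero] at hs
    rw [hs]
    exact even_two_mul s

/-- (R3): for odd `N` the quadratic term is even. -/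
lemma WPair.R3 (hN : N ≠ 0) (hodd : Odd N) (W : WPair N u A A') {m : ℤ} (hm0 : m ≠ 0)
    (hm : ∀ j, j ≠ 0 → m ∣ coeff j A) (j : ℕ) (hj : j ≠ 0) :
    ∃ x w : ℤ, coeff j A = m * x ∧
      2 * u * m * (N + 1) * x + m ^ 2 * (2 * w) = 240 * (N + 1) * u ^ 2 * (σ 3 j : ℤ) := by
  obtain ⟨K, K', rfl, rfl, h0, h0', h1, h2⟩ := W.exists_K hN hm0 hm
  have e1 := fund_rel hN h2 hj (W.tr j hj)
  obtain ⟨s, hs⟩ := coeff_sq_parity K j
  obtain ⟨s', hs'⟩ := coeff_sq_parity K' (N * j)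
  obtain ⟨r, hr⟩ := hodd
  have hx : coeff j (C u + C m * K) = m * coeff j K := by
    rw [map_add, coeff_C_mul, coeff_C, if_neg hj, zero_add]
  by_cases hev : Even j
  · have hev' : Even (N * j) := hev.mul_left N
    rw [if_pos hev] at hs
    rw [if_pos hev'] at hs'
    obtain ⟨i, rfl⟩ := hev
    have e3 : N * (i + i) / 2 = N * i := by
      rw [← two_mul, Nat.mul_left_comm, Nat.mul_div_cancel_left _ two_pos]
    have e4 : (i + i) / 2 = i := by omega
    rw [e3, ← h2 i] at hs'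
    rw [e4] at hs
    refine ⟨coeff (i + i) K, (N : ℤ) * s + s' + (r + 1) * coeff i K ^ 2, hx, ?_⟩
    rw [hs, hs'] at e1
    have hr' : (N : ℤ) = 2 * r + 1 := by exact_mod_cast hr
    linear_combination e1 - m ^ 2 * coeff i K ^ 2 * hr'
  · have hev' : ¬ Even (N * j) := by
      rw [Nat.not_even_iff_odd] at hev ⊢
      exact (show Odd N from ⟨r, hr⟩).mul hev
    rw [if_neg hev, add_zero] at hs
    rw [if_neg hev', add_zero] at hs'
    refine ⟨coeff j K, (N : ℤ) * s + s', hx, ?_⟩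
    rw [hs, hs'] at e1
    linear_combination e1

end main

lemma not_dvd_aux {l : ℕ} (hl : l.Prime) {N : ℕ} {u : ℤ} (h1 : ¬ (l : ℤ) ∣ (N : ℤ) + 1)
    (h2 : ¬ (l : ℤ) ∣ u) (h3 : ¬ (l : ℤ) ∣ (N : ℤ)) :
    ¬ (l : ℤ) ∣ ((N : ℤ) + 1) * u ^ 2 * (N : ℤ) ^ 3 := by
  have hp : Prime (l : ℤ) := Nat.prime_iff_prime_int.mp hl
  intro h
  rcases hp.dvd_or_dvd h with h | h
  · rcases hp.dvd_or_dvd h with h | h
    · exact h1 h
    · exact h2 (hp.dvd_of_dvd_pow h)
  · exact h3 (hp.dvd_of_dvd_pow h)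


section cases

variable {N : ℕ} {u : ℤ} {A A' : PowerSeries ℤ}

lemma eq_five_of_dvd {l : ℕ} (hl : l.Prime) (h5 : 5 ≤ l) (h : l ∣ 240) : l = 5 := by
  have h1 : l ∣ 2 ^ 4 * (3 * 5) := by norm_num; exact h
  rcases (Nat.Prime.dvd_mul hl).mp h1 with h | h
  · have := Nat.le_of_dvd two_pos (hl.dvd_of_dvd_pow h)
    omega
  · rcases (Nat.Prime.dvd_mul hl).mp h with h | h
    · have := Nat.le_of_dvd (by norm_num) h
      omega
    · have := Nat.le_of_dvd (by norm_num) h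
      omega

/-- `l ≥ 5`, `l ∤ N+1`, `(N,l) ≠ (5,5)`: no form `≡ u mod l`. -/
theorem WPair.T1 (hN : N.Prime) (W : WPair N u A A') {l : ℕ} (hl : l.Prime) (h5 : 5 ≤ l)
    (hu : ¬ (l : ℤ) ∣ u) (hm : ∀ j, j ≠ 0 → (l : ℤ) ∣ coeff j A) (hN1 : ¬ l ∣ N + 1)
    (h55 : ¬ (N = 5 ∧ l = 5)) : False := by
  have hp : Prime (l : ℤ) := Nat.prime_iff_prime_int.mp hl
  have hl0 : (l : ℤ) ≠ 0 := by exact_mod_cast hl.ne_zero
  have hN1' : ¬ (l : ℤ) ∣ (N : ℤ) + 1 := by
    intro h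
    apply hN1
    exact_mod_cast h
  obtain ⟨x, c, h⟩ := W.R2 hN.ne_zero hl0 hm
  have h1 : (l : ℤ) ∣ 240 * ((N : ℤ) + 1) * u ^ 2 :=
    ⟨2 * u * (N + 1) * x + l * c, by rw [← h]; ring⟩
  have h2 : (l : ℤ) ∣ 240 := by
    rcases hp.dvd_or_dvd h1 with h | h
    · rcases hp.dvd_or_dvd h with h | h
      · exact h
      · exact absurd h hN1'
    · exact absurd (hp.dvd_of_dvd_pow h) hu
  have h3 : l = 5 := eq_five_of_dvd hl h5 (by exact_mod_cast h2)
  subst h3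
  have hN5 : N ≠ 5 := fun h => h55 ⟨h, rfl⟩
  have hN' : ¬ ((5 : ℕ) : ℤ) ∣ (N : ℤ) := by
    intro h
    have : 5 ∣ N := by exact_mod_cast h
    exact hN5 ((Nat.prime_dvd_prime_iff_eq hl hN).mp this).symm
  obtain ⟨w, hw, -⟩ := W.R1 hN hl0 hm
  apply not_dvd_aux hl hN1' hu hN'
  have e : 240 * ((N : ℤ) + 1) * u ^ 2 * (N : ℤ) ^ 3 = 240 * (((N : ℤ) + 1) * u ^ 2 * (N : ℤ) ^ 3) := by
    ring
  rw [e] at hw
  generalize ((N : ℤ) + 1) * u ^ 2 * (N : ℤ) ^ 3 = y at hw ⊢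
  push_cast at hw ⊢
  omega

/-- `l = 3`, `N ≡ 1 mod 3`: no form `≡ u mod 3`. -/
theorem WPair.T2 (hN : N.Prime) (W : WPair N u A A')
    (hu : ¬ (3 : ℤ) ∣ u) (hm : ∀ j, j ≠ 0 → (3 : ℤ) ∣ coeff j A) (hN1 : N % 3 = 1) : False := by
  obtain ⟨w, hw, -⟩ := W.R1 hN (by norm_num) hm
  have h1 : ¬ ((3 : ℕ) : ℤ) ∣ (N : ℤ) + 1 := by
    push_cast
    omega
  have h2 : ¬ ((3 : ℕ) : ℤ) ∣ (N : ℤ) := by
    push_cast
    omega
  apply not_dvd_aux Nat.prime_three h1 (by exact_mod_cast hu) h2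
  have e : 240 * ((N : ℤ) + 1) * u ^ 2 * (N : ℤ) ^ 3 = 240 * (((N : ℤ) + 1) * u ^ 2 * (N : ℤ) ^ 3) := by
    ring
  rw [e] at hw
  generalize ((N : ℤ) + 1) * u ^ 2 * (N : ℤ) ^ 3 = y at hw ⊢
  push_cast at hw ⊢
  omega

/-- `l = 3`, `9 ∤ N+1`: no form `≡ u mod 9`. -/
theorem WPair.T3 (hN : N.Prime) (W : WPair N u A A')
    (hu : ¬ (3 : ℤ) ∣ u) (hm : ∀ j, j ≠ 0 → (9 : ℤ) ∣ coeff j A) (hN1 : ¬ 9 ∣ N + 1) : False := by
  have hp : Prime (3 : ℤ) := Int.prime_three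
  have h3 : N % 3 = 0 ∨ N % 3 = 1 ∨ N % 3 = 2 := by omega
  obtain ⟨x, c, h⟩ := W.R2 hN.ne_zero (by norm_num) hm
  rcases h3 with h3 | h3 | h3
  · have : N = 3 :=
      ((Nat.prime_dvd_prime_iff_eq Nat.prime_three hN).mp (Nat.dvd_of_mod_eq_zero h3)).symm
    subst this
    apply hu
    apply hp.dvd_of_dvd_pow (n := 2)
    have e : 2 * u * 9 * (((3 : ℕ) : ℤ) + 1) * x = 72 * (u * x) := by push_cast; ring
    rw [e] at h
    push_cast at h
    generalize u * x = a at h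
    generalize u ^ 2 = b at h ⊢
    omega
  · exact W.T2 hN hu (fun j hj => Dvd.dvd.trans (by norm_num) (hm j hj)) h3
  · obtain ⟨r, hr⟩ : ∃ r : ℕ, N + 1 = 3 * r := ⟨(N + 1) / 3, by omega⟩
    have hr3 : ¬ (3 : ℤ) ∣ (r : ℤ) := by omega
    have hr' : (N : ℤ) + 1 = 3 * r := by exact_mod_cast hr
    rw [hr'] at h
    have : (3 : ℤ) ∣ r * u ^ 2 := by
      have e : 2 * u * 9 * (3 * (r : ℤ)) * x = 54 * (u * r * x) := by ring
      have e' : 240 * (3 * (r : ℤ)) * u ^ 2 = 720 * (r * u ^ 2) := by ring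
      rw [e, e'] at h
      generalize u * r * x = a at h
      generalize (r : ℤ) * u ^ 2 = b at h ⊢
      omega
    rcases hp.dvd_or_dvd this with h | h
    · exact hr3 h
    · exact hu (hp.dvd_of_dvd_pow h)

/-- `l = 2`, `N` odd: a form `≡ u mod 8` forces `8 ∣ N+1`. -/
theorem WPair.T5 (hN : N.Prime) (hodd : Odd N) (W : WPair N u A A')
    (hu : Odd u) (hm : ∀ j, j ≠ 0 → (8 : ℤ) ∣ coeff j A) : 8 ∣ N + 1 := by
  obtain ⟨w, hw, hev⟩ := W.R1 hN (by norm_num) hm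
  obtain ⟨w', rfl⟩ := hev hodd
  have ho : Odd (u ^ 2 * (N : ℤ) ^ 3) := (hu.pow).mul ((by exact_mod_cast hodd : Odd (N : ℤ)).pow)
  obtain ⟨t, ht⟩ := ho
  have hc : IsCoprime (8 : ℤ) (u ^ 2 * (N : ℤ) ^ 3) := by
    have : IsCoprime (2 : ℤ) (u ^ 2 * (N : ℤ) ^ 3) := ⟨-t, 1, by rw [ht]; ring⟩
    have := this.pow_left (m := 3)
    norm_num at this
    exact this
  have h8 : (8 : ℤ) ∣ ((N : ℤ) + 1) * (u ^ 2 * (N : ℤ) ^ 3) := by
    have e : 240 * ((N : ℤ) + 1) * u ^ 2 * (N : ℤ) ^ 3 =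
        240 * (((N : ℤ) + 1) * (u ^ 2 * (N : ℤ) ^ 3)) := by ring
    rw [e] at hw
    generalize ((N : ℤ) + 1) * (u ^ 2 * (N : ℤ) ^ 3) = y at hw ⊢
    omega
  have := hc.dvd_of_dvd_mul_right h8
  exact_mod_cast this

/-- `l = 2`, `N ≡ 1 mod 4`: no form `≡ u mod 4`. -/
theorem WPair.T4 (hN : N.Prime) (W : WPair N u A A')
    (hu : Odd u) (hm : ∀ j, j ≠ 0 → (4 : ℤ) ∣ coeff j A) (hN1 : N % 4 = 1) : False := by
  have hodd : Odd N := Nat.odd_iff.mpr (by omega)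
  have h8 : 8 ∣ N + 1 := by
    apply W.T5 hN hodd hu
    intro j hj
    obtain ⟨x, w, hx, h⟩ := W.R3 hN.ne_zero hodd (by norm_num) hm j hj
    obtain ⟨t, ht⟩ : ∃ t : ℕ, N = 4 * t + 1 := ⟨N / 4, by omega⟩
    have ht' : (N : ℤ) + 1 = 2 * (2 * t + 1) := by rw [ht]; push_cast; ring
    rw [ht'] at h
    have hx2 : Even (u * (2 * (t : ℤ) + 1) * x) := by
      have e : 2 * u * 4 * (2 * (2 * (t : ℤ) + 1)) * x = 16 * (u * (2 * (t : ℤ) + 1) * x) := by ring
      have e' : 240 * (2 * (2 * (t : ℤ) + 1)) * u ^ 2 * (σ 3 j : ℤ) =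
          480 * ((2 * (t : ℤ) + 1) * u ^ 2 * (σ 3 j : ℤ)) := by ring
      rw [e, e'] at h
      generalize u * (2 * (t : ℤ) + 1) * x = a at h ⊢
      generalize (2 * (t : ℤ) + 1) * u ^ 2 * (σ 3 j : ℤ) = b at h
      rw [Int.even_iff]
      omega
    have hx3 : Even x := by
      rcases Int.even_mul.mp hx2 with h | h
      · rcases Int.even_mul.mp h with h | h
        · exact absurd h (Int.not_even_iff_odd.mpr hu)
        · exact absurd h (Int.not_even_iff_odd.mpr ⟨t, rfl⟩)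
      · exact h
    obtain ⟨y, rfl⟩ := hx3
    rw [hx]
    exact ⟨y, by ring⟩
  omega

/-- `l = 2 = N`: no form `≡ u mod 16`. -/
theorem WPair.T6 (W : WPair 2 u A A')
    (hu : Odd u) (hm : ∀ j, j ≠ 0 → (16 : ℤ) ∣ coeff j A) : False := by
  obtain ⟨x, c, h⟩ := W.R2 two_ne_zero (by norm_num) hm
  have : Even (u ^ 2) := by
    have e : 2 * u * 16 * (((2 : ℕ) : ℤ) + 1) * x = 96 * (u * x) := by push_cast; ring
    rw [e] at h
    push_cast at h
    generalize u * x = a at h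
    generalize u ^ 2 = b at h ⊢
    rw [Int.even_iff]
    omega
  exact (Int.not_even_iff_odd.mpr hu.pow) this

end cases

end FA16
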