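import Fermat.Agent.IntStr.TForm
import Fermat.Agent.X0Genus.Laurent

/-! S16, package EIS: the Eisenstein series `N E₂(Nτ) - E₂(τ)` of weight `2` and level `Γ₀(N)`. -/

set_option autoImplicit false

open UpperHalfPlane ModularForm Matrix.SpecialLinearGroup OnePoint CongruenceSubgroup Function
open EisensteinSeries FA_IS
open scoped Manifold MatrixGroups ModularForm Real ArithmeticFunction.sigma

noncomputable section

namespace FA16

local notation "𝕢" => Periodic.qParam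

lemma E2_hasSum (τ : ℍ) :
    HasSum (fun m : ℕ ↦ (if m = 0 then 1 else -24 * (σ 1 m : ℂ) : ℂ) • 𝕢 1 τ ^ m) (E2 τ) := by
  simpa only [Function.Periodic.qParam, Complex.ofReal_one, div_one] using
    hasSum_qExpansion_E2 (z := τ)

lemma E2_eq_of_qParam {τ τ' : ℍ} (h : 𝕢 1 (τ : ℂ) = 𝕢 1 (τ' : ℂ)) : E2 τ = E2 τ' := by
  have h1 := E2_hasSum τ
  rw [h] at h1
  exact h1.unique (E2_hasSum τ')

lemma qParam_add_one (w : ℂ) : 𝕢 1 (w + ((1 : ℝ) : ℂ)) = 𝕢 1 w := by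
  simp only [Periodic.qParam, Complex.ofReal_one, div_one]
  rw [mul_add, mul_one, Complex.exp_add, Complex.exp_two_pi_mul_I, mul_one]

lemma nice_E2 : Nice 1 E2 := by
  refine ⟨?_, E2_mdifferentiable, isBoundedAtImInfty_E2⟩
  intro w
  by_cases hw : 0 < w.im
  · have hw' : 0 < (w + ((1 : ℝ) : ℂ)).im := by simpa using hw
    simp only [comp_apply]
    apply E2_eq_of_qParam
    rw [ofComplex_apply_of_im_pos hw', ofComplex_apply_of_im_pos hw]
    exact qParam_add_one w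
  · have hw1 : w.im ≤ 0 := not_lt.mp hw
    have hw' : (w + ((1 : ℝ) : ℂ)).im ≤ 0 := by simpa using hw1
    simp only [comp_apply]
    rw [ofComplex_apply_eq_of_im_nonpos hw' hw1]

lemma qExpansion_E2_coeff (m : ℕ) :
    (qExpansion 1 E2).coeff m = if m = 0 then 1 else -24 * (σ 1 m : ℂ) :=
  (coeff_unique one_pos (nice_E2.analyticAt one_pos) E2_hasSum m).symm

/-- Hermite normal form of `diag(N,1) γ`, in geometric form. -/
lemma aff_decomp (N : ℕ) [NeZero N] (γ : SL(2, ℤ)) :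
    ∃ (a d : ℕ) (b : ℤ) (γ' : SL(2, ℤ)), 0 < a ∧ 0 < d ∧ a * d = N ∧ (d = 1 ↔ γ ∈ Gamma0 N) ∧
      γ' 1 0 * a = γ 1 0 ∧ ∀ τ : ℍ, denom γ' (affPt a d b τ) = denom γ τ / d ∧
        affPt N 1 0 (γ • τ) = γ' • affPt a d b τ := by
  have hN : 0 < N := Nat.pos_of_ne_zero (NeZero.ne N)
  have hdet : γ 0 0 * γ 1 1 - γ 0 1 * γ 1 0 = 1 := by
    have := γ.det_coe
    rwa [Matrix.det_fin_two] at this
  obtain ⟨a, d, b, p, r, s, u, ha, hd, had, hd1, hdet', h1, h2, h3, h4⟩ :=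
    hermite N (γ 0 0) (γ 0 1) (γ 1 0) (γ 1 1) hdet
  let γ' : SL(2, ℤ) := ⟨!![p, r; s, u], by rw [Matrix.det_fin_two_of]; exact hdet'⟩
  refine ⟨a, d, b, γ', ha, hd, had, ?_, h2, fun τ => ?_⟩
  · rw [hd1, Gamma0_mem, ZMod.intCast_zmod_eq_zero_iff_dvd]
  have hdC : (d : ℂ) ≠ 0 := by exact_mod_cast hd.ne'
  have hden : denom γ τ ≠ 0 := denom_ne_zero _ τ
  have hdenγ : denom γ τ = (γ 1 0 : ℂ) * τ + (γ 1 1 : ℂ) := denom_SL γ τ
  have hden' : denom γ' (affPt a d b τ) = denom γ τ / d := by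
    have e : denom γ' (affPt a d b τ) = (s : ℂ) * (affPt a d b τ : ℂ) + (u : ℂ) :=
      denom_SL γ' _
    rw [e, coe_affPt ha hd, hdenγ, ← h2, ← h3]
    push_cast
    field_simp
    ring
  refine ⟨hden', ?_⟩
  apply UpperHalfPlane.ext
  have hden2 : (s : ℂ) * (affPt a d b τ : ℂ) + (u : ℂ) ≠ 0 := by
    have e : denom γ' (affPt a d b τ) = (s : ℂ) * (affPt a d b τ : ℂ) + (u : ℂ) :=
      denom_SL γ' _
    rw [← e]
    exact denom_ne_zero _ _
  rw [coe_affPt hN one_pos, coe_specialLinearGroup_apply, coe_specialLinearGroup_apply]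
  simp only [γ', algebraMap_int_eq, Int.coe_castRingHom, Complex.ofReal_intCast,
    Matrix.of_apply, Matrix.cons_val', Matrix.cons_val_zero,
    Matrix.cons_val_one, Matrix.cons_val_fin_one]
  rw [hdenγ] at hden
  rw [coe_affPt ha hd] at hden2 ⊢
  have h1' : (p : ℂ) * a = N * (γ 0 0 : ℂ) := by exact_mod_cast h1
  have h2' : (s : ℂ) * a = (γ 1 0 : ℂ) := by exact_mod_cast h2
  have h3' : (s : ℂ) * b + u * d = (γ 1 1 : ℂ) := by exact_mod_cast h3
  have h4' : (p : ℂ) * b + r * d = N * (γ 0 1 : ℂ) := by exact_mod_cast h4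
  have e1 : (p : ℂ) * (((a : ℂ) * τ + b) / d) + r = (N * ((γ 0 0 : ℂ) * τ + (γ 0 1 : ℂ))) / d := by
    field_simp
    linear_combination (τ : ℂ) * h1' + h4'
  have e2 : (s : ℂ) * (((a : ℂ) * τ + b) / d) + u = ((γ 1 0 : ℂ) * τ + (γ 1 1 : ℂ)) / d := by
    field_simp
    linear_combination (τ : ℂ) * h2' + h3'
  rw [e1, e2]
  field_simp
  simp

/-- the function `N E₂(Nτ) - E₂(τ)` -/
def eisFun (N : ℕ) : ℍ → ℂ := (N : ℂ) • compAff E2 N 1 0 - E2

/-- all `SL₂(ℤ)`-translates of `N E₂(Nτ) - E₂(τ)`. -/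
theorem eisFun_slash (N : ℕ) [NeZero N] (γ : SL(2, ℤ)) :
    ∃ (a d : ℕ) (b : ℤ), 0 < a ∧ 0 < d ∧ a * d = N ∧ (d = 1 ↔ γ ∈ Gamma0 N) ∧
      eisFun N ∣[(2 : ℤ)] γ = ((a : ℂ) / d) • compAff E2 a d b - E2 := by
  obtain ⟨a, d, b, γ', ha, hd, had, hd1, h10, hτ⟩ := aff_decomp N γ
  refine ⟨a, d, b, ha, hd, had, hd1, ?_⟩
  ext τ
  obtain ⟨hden', hpt⟩ := hτ τ
  have hdC : (d : ℂ) ≠ 0 := by exact_mod_cast hd.ne'
  have hden : denom γ τ ≠ 0 := denom_ne_zero _ τ
  have hden2 : denom γ' (affPt a d b τ) ≠ 0 := denom_ne_zero _ _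
  have hA := congrFun (E2_slash_action γ') (affPt a d b τ)
  have hB := congrFun (E2_slash_action γ) τ
  rw [SL_slash_apply] at hA hB
  simp only [Pi.sub_apply, Pi.smul_apply, smul_eq_mul, D2] at hA hB
  have hNC : (N : ℂ) = a * d := by exact_mod_cast had.symm
  have h10' : ((γ' 1 0 : ℤ) : ℂ) * a = ((γ 1 0 : ℤ) : ℂ) := by exact_mod_cast h10
  rw [eisFun, SL_slash_apply]
  simp only [Pi.sub_apply, Pi.smul_apply, smul_eq_mul, compAff]
  rw [hpt]
  rw [hden'] at hA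
  set X := E2 (γ' • affPt a d b τ) with hX
  set Y := E2 (γ • τ) with hY
  set Z := E2 (affPt a d b τ) with hZ
  set W := E2 τ with hW
  set D := denom γ τ with hD
  set c := 1 / (2 * riemannZeta 2) with hc
  rw [zpow_neg, zpow_ofNat] at hA hB ⊢
  have hA' : X = (D / d) ^ 2 * (Z - c * (2 * π * Complex.I * ((γ' 1 0 : ℤ) : ℂ) / (D / d))) := by
    rw [← hA]
    field_simp
  have hB' : Y = D ^ 2 * (W - c * (2 * π * Complex.I * ((γ 1 0 : ℤ) : ℂ) / D)) := by
    rw [← hB]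
    field_simp
  rw [hA', hB', hNC, ← h10']
  field_simp
  ring

/-- `N E₂(Nτ) - E₂(τ)` as a modular form of weight `2` on `Γ₀(N)`. -/
def eisN (N : ℕ) [NeZero N] : ModularForm (Gamma0 N) 2 :=
  mkMF (GG N) 2 (eisFun N)
    (by
      rintro _ ⟨γ, hγ, rfl⟩
      obtain ⟨a, d, b, ha, hd, had, hd1, h⟩ := eisFun_slash N γ
      have hd' : d = 1 := hd1.mpr hγ
      subst hd'
      have ha' : a = N := by simpa using had
      subst ha'
      show eisFun a ∣[(2 : ℤ)] γ = _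
      rw [h, compAff_int_shift nice_E2, eisFun]
      simp)
    (((compAff_nice nice_E2 (Nat.pos_of_ne_zero (NeZero.ne N)) one_pos (mul_one N) 0).smul _).hol.sub
      nice_E2.hol)
    (by
      intro γ
      obtain ⟨a, d, b, ha, hd, had, hd1, h⟩ := eisFun_slash N γ
      rw [h]
      exact ((compAff_nice nice_E2 ha hd had b).smul _).bdd.sub nice_E2.bdd)

lemma coe_eisN (N : ℕ) [NeZero N] : ⇑(eisN N) = eisFun N := rfl

lemma eisN_apply (N : ℕ) [NeZero N] (τ : ℍ) :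
    eisN N τ = (N : ℂ) * E2 (affPt N 1 0 τ) - E2 τ := rfl

/-- the translates of `eisN` -/
theorem eisN_slash (N : ℕ) [NeZero N] (γ : SL(2, ℤ)) :
    ∃ (a d : ℕ) (b : ℤ), 0 < a ∧ 0 < d ∧ a * d = N ∧ (d = 1 ↔ γ ∈ Gamma0 N) ∧
      ⇑(eisN N) ∣[(2 : ℤ)] γ = ((a : ℂ) / d) • compAff E2 a d b - E2 :=
  eisFun_slash N γ

theorem qExpansion_eisN (N : ℕ) [NeZero N] :
    qExpansion 1 (eisN N) =
      (N : ℂ) • PowerSeries.expand N (NeZero.ne N) (qExpansion 1 E2) - qExpansion 1 E2 := by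
  rw [coe_eisN, eisFun, ((FA24.compAff_nice_one nice_E2 N).smul _).qExpansion_sub nice_E2 one_pos,
    (FA24.compAff_nice_one nice_E2 N).qExpansion_smul one_pos, FA24.qExpansion_compAff_one nice_E2]

theorem qExpansion_eisN_coeff_zero (N : ℕ) [NeZero N] :
    (qExpansion 1 (eisN N)).coeff 0 = (N : ℂ) - 1 := by
  rw [qExpansion_eisN, map_sub, PowerSeries.coeff_smul, PowerSeries.coeff_expand,
    if_pos (dvd_zero N), Nat.zero_div, qExpansion_E2_coeff]
  simp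

/-- the general formula for the higher coefficients -/
theorem qExpansion_eisN_coeff (N : ℕ) [NeZero N] {k : ℕ} (hk : k ≠ 0) :
    (qExpansion 1 (eisN N)).coeff k =
      24 * ((σ 1 k : ℂ) - if N ∣ k then (N : ℂ) * (σ 1 (k / N) : ℂ) else 0) := by
  rw [qExpansion_eisN, map_sub, PowerSeries.coeff_smul, PowerSeries.coeff_expand,
    qExpansion_E2_coeff k, if_neg hk]
  split_ifs with h
  · obtain ⟨m, rfl⟩ := h
    have hm : m ≠ 0 := by
      rintro rfl
      simp at hk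
    rw [Nat.mul_div_cancel_left _ (Nat.pos_of_ne_zero (NeZero.ne N)), qExpansion_E2_coeff,
      if_neg hm, smul_eq_mul]
    ring
  · simp

/-- sum of the divisors prime to `N` -/
def sigmaPrime (N k : ℕ) : ℕ := ∑ d ∈ k.divisors with ¬ N ∣ d, d

lemma sigma_eq_sigmaPrime_add {N : ℕ} (hN : N.Prime) (k : ℕ) :
    σ 1 k = sigmaPrime N k + if N ∣ k then N * σ 1 (k / N) else 0 := by
  rw [ArithmeticFunction.sigma_one_apply, sigmaPrime,
    ← Finset.sum_filter_add_sum_filter_not k.divisors (fun d => ¬ N ∣ d)]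
  congr 1
  simp only [not_not]
  split_ifs with h
  · obtain ⟨m, rfl⟩ := h
    rw [Nat.mul_div_cancel_left _ hN.pos, ArithmeticFunction.sigma_one_apply, Finset.mul_sum]
    by_cases hm : m = 0
    · subst hm
      simp
    symm
    apply Finset.sum_bij (fun d _ => N * d)
    · intro d hd
      rw [Finset.mem_filter, Nat.mem_divisors]
      rw [Nat.mem_divisors] at hd
      exact ⟨⟨Nat.mul_dvd_mul_left N hd.1, Nat.mul_ne_zero hN.ne_zero hm⟩, dvd_mul_right _ _⟩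
    · intro d _ d' _ h
      exact Nat.eq_of_mul_eq_mul_left hN.pos h
    · intro e he
      rw [Finset.mem_filter, Nat.mem_divisors] at he
      obtain ⟨⟨he1, _⟩, d, rfl⟩ := he
      exact ⟨d, Nat.mem_divisors.mpr ⟨Nat.dvd_of_mul_dvd_mul_left hN.pos he1, hm⟩, rfl⟩
    · intro d _
      rfl
  · apply Finset.sum_eq_zero
    intro d hd
    rw [Finset.mem_filter, Nat.mem_divisors] at hd
    exact absurd (hd.2.trans hd.1.1) h

/-- **`q`-expansion of the Eisenstein series of prime level.** -/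
theorem qExpansion_eisN_coeff_prime (N : ℕ) [NeZero N] (hN : N.Prime) {k : ℕ} (hk : k ≠ 0) :
    (qExpansion 1 (eisN N)).coeff k = 24 * (sigmaPrime N k : ℂ) := by
  rw [qExpansion_eisN_coeff N hk, sigma_eq_sigmaPrime_add hN k]
  split_ifs <;> push_cast <;> ring

end FA16
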