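import Fermat.Agent.Eis.Conj
import Fermat.Prelude.Thm_UpperHalfPlane_qCoeff_heckeU
import Fermat.Prelude.Thm_ModularFormClass_qCoeff_heckeU

open UpperHalfPlane ModularForm Matrix.SpecialLinearGroup CongruenceSubgroup Function EisensteinSeries
open scoped Manifold MatrixGroups ModularForm Real

namespace FA16

open FA_IS FAGenus

variable (N : ℕ)

lemma heckeMatrix_smul_eq [NeZero N] (j : ℕ) (τ : ℍ) : heckeMatrix N j • τ = affPt 1 N j τ := by
  have hN0 : N ≠ 0 := NeZero.ne N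
  apply UpperHalfPlane.ext
  rw [coe_heckeMatrix_smul hN0, coe_affPt one_pos (Nat.pos_of_ne_zero hN0)]
  simp

lemma nice_G0 {k : ℤ} (f : ModularForm (Gamma0 N) k) : Nice 1 f :=
  Nice.of_modularForm (Γ := GG N) (k := k) f one_pos (one_mem_strictPeriods_GG N)

lemma nice_heckeU [NeZero N] {k : ℤ} (f : ModularForm (Gamma0 N) k) : Nice 1 (heckeU k N ⇑f) :=
  nice_G0 N (heckeULin k (dvd_refl N) f)

lemma coeff_heckeU [NeZero N] {k : ℤ} {F : ℍ → ℂ} (hF : Nice 1 F) (n : ℕ) :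
    (qExpansion 1 (heckeU k N F)).coeff n = (qExpansion 1 F).coeff (n * N) :=
  UpperHalfPlane.qCoeff_heckeU hF.per hF.hol hF.bdd k (NeZero.ne N) n

/-- the trace of `h^2` -/
theorem trace_sq [hN : Fact N.Prime] (h : ModularForm (Gamma0 N) 2) :
    ∃ c : ℂ, ⇑h ^ 2 + (N : ℂ)⁻¹ • heckeU 4 N ((heckeU 2 N ⇑h) ^ 2) = c • ⇑E₄ := by
  have hN0 : N ≠ 0 := hN.out.ne_zero
  have hNC : (N : ℂ) ≠ 0 := by exact_mod_cast hN0
  let H2 : ModularForm (Gamma0 N) 4 := ModularForm.mcast (by norm_num : (2 : ℤ) + 2 = 4) (h.mul h)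
  have hH2 : ⇑H2 = ⇑h * ⇑h := rfl
  have hE : (E₄ : ModularForm 𝒮ℒ 4) ≠ 0 := by
    intro h0
    have h1 := E_qExpansion_coeff_zero (k := 4) (by norm_num) ⟨2, rfl⟩
    have h2 : (⇑(E₄ : ModularForm 𝒮ℒ 4) : ℍ → ℂ) = 0 := by rw [h0]; rfl
    have h3 : (qExpansion 1 (⇑(E₄ : ModularForm 𝒮ℒ 4) : ℍ → ℂ)).coeff 0 = 1 := h1
    rw [h2, qExpansion_zero] at h3
    simp at h3
  have hr : Module.finrank ℂ (ModularForm 𝒮ℒ 4) = 1 := by
    have := levelOne_weight_four_rank_one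
    exact Module.finrank_eq_of_rank_eq this
  obtain ⟨c, hc⟩ := (finrank_eq_one_iff_of_nonzero' _ hE).mp hr (ModularForm.trace 𝒮ℒ H2)
  refine ⟨c, ?_⟩
  have h1 := coe_trace N H2
  rw [← hc] at h1
  have h2 : ⇑(c • (E₄ : ModularForm 𝒮ℒ 4)) = c • ⇑E₄ := rfl
  rw [h2] at h1
  rw [h1, hH2, sq]
  congr 1
  funext τ
  rw [Finset.sum_apply, Pi.smul_apply, heckeU_apply 4 hN0, Finset.mul_sum, Finset.smul_sum]
  refine Finset.sum_congr rfl fun j _ => ?_
  have h3 := mul_slash_SL2 2 2 ModularGroup.S ⇑h ⇑h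
  have h4 : ((⇑h * ⇑h) ∣[(4 : ℤ)] ModularGroup.S) = (⇑h * ⇑h) ∣[(2 : ℤ) + 2] ModularGroup.S := rfl
  rw [slash_T_zpow, h4, h3, slash_S, heckeMatrix_smul_eq]
  simp only [Pi.mul_apply, Pi.smul_apply, compAff, smul_eq_mul, Pi.pow_apply, affPt_T_zpow]
  ring

/-- (C5) = identity (*) of the blueprint, coefficientwise -/
theorem trace_sq_coeff [hN : Fact N.Prime] (h : ModularForm (Gamma0 N) 2) (n : ℕ) :
    ((qExpansion 1 h) ^ 2).coeff n + (N : ℂ)⁻¹ * ((qExpansion 1 (heckeU 2 N ⇑h)) ^ 2).coeff (n * N)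
      = (1 + (N : ℂ)⁻¹) * ((qExpansion 1 h).coeff 0) ^ 2 * (qExpansion 1 E₄).coeff n := by
  obtain ⟨c, hc⟩ := trace_sq N h
  have hh := nice_G0 N h
  have hU := nice_heckeU N h
  have hE := nice_levelOne 4 E₄
  have hU2 : Nice 1 (heckeU 4 N ((heckeU 2 N ⇑h) ^ 2)) := by
    let H2 : ModularForm (Gamma0 N) 4 := ModularForm.mcast (by norm_num : (2 : ℤ) + 2 = 4)
      ((heckeULin 2 (dvd_refl N) h).mul (heckeULin 2 (dvd_refl N) h))
    have : ⇑H2 = (heckeU 2 N ⇑h) ^ 2 := by rw [sq]; rfl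
    rw [← this]
    exact nice_heckeU N H2
  have key : ∀ m : ℕ, ((qExpansion 1 h) ^ 2).coeff m +
      (N : ℂ)⁻¹ * ((qExpansion 1 (heckeU 2 N ⇑h)) ^ 2).coeff (m * N) = c * (qExpansion 1 E₄).coeff m := by
    intro m
    have h1 := congrArg (fun F => (qExpansion 1 F).coeff m) hc
    beta_reduce at h1
    rw [(hh.pow 2).qExpansion_add (hU2.smul _) one_pos, hU2.qExpansion_smul one_pos,
      hE.qExpansion_smul one_pos, hh.qExpansion_pow one_pos, map_add, PowerSeries.coeff_smul,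
      PowerSeries.coeff_smul, coeff_heckeU N (hU.pow 2), hU.qExpansion_pow one_pos] at h1
    simpa using h1
  have h0 := key 0
  have hE0 : (qExpansion 1 E₄).coeff 0 = 1 := E_qExpansion_coeff_zero (k := 4) (by norm_num) ⟨2, rfl⟩
  have hU0 : (qExpansion 1 (heckeU 2 N ⇑h)).coeff 0 = (qExpansion 1 h).coeff 0 := by
    rw [coeff_heckeU N hh, zero_mul]
  rw [hE0, mul_one, zero_mul] at h0
  simp only [PowerSeries.coeff_zero_eq_constantCoeff, map_pow] at h0 hU0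
  rw [key n, ← h0, hU0]
  simp only [PowerSeries.coeff_zero_eq_constantCoeff]
  ring

/-- (C5), function level, with the explicit constant -/
theorem trace_sq_fun [hN : Fact N.Prime] (h : ModularForm (Gamma0 N) 2) :
    ⇑h ^ 2 + (N : ℂ)⁻¹ • heckeU 4 N ((heckeU 2 N ⇑h) ^ 2) =
      ((1 + (N : ℂ)⁻¹) * (qExpansion 1 h).coeff 0 ^ 2) • ⇑E₄ := by
  obtain ⟨c, hc⟩ := trace_sq N h
  rw [hc]
  congr 1
  have hh := nice_G0 N h
  have hU := nice_heckeU N h
  have hE := nice_levelOne 4 E₄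
  have hU2 : Nice 1 (heckeU 4 N ((heckeU 2 N ⇑h) ^ 2)) := by
    let H2 : ModularForm (Gamma0 N) 4 := ModularForm.mcast (by norm_num : (2 : ℤ) + 2 = 4)
      ((heckeULin 2 (dvd_refl N) h).mul (heckeULin 2 (dvd_refl N) h))
    have : ⇑H2 = (heckeU 2 N ⇑h) ^ 2 := by rw [sq]; rfl
    rw [← this]
    exact nice_heckeU N H2
  have h1 := congrArg (fun F => (qExpansion 1 F).coeff 0) hc
  beta_reduce at h1
  rw [(hh.pow 2).qExpansion_add (hU2.smul _) one_pos, hU2.qExpansion_smul one_pos,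
    hE.qExpansion_smul one_pos, hh.qExpansion_pow one_pos, map_add, PowerSeries.coeff_smul,
    PowerSeries.coeff_smul, coeff_heckeU N (hU.pow 2), hU.qExpansion_pow one_pos] at h1
  have hE0 : (qExpansion 1 E₄).coeff 0 = 1 := E_qExpansion_coeff_zero (k := 4) (by norm_num) ⟨2, rfl⟩
  have hU0 : (qExpansion 1 (heckeU 2 N ⇑h)).coeff 0 = (qExpansion 1 h).coeff 0 := by
    rw [coeff_heckeU N hh, zero_mul]
  rw [hE0, zero_mul] at h1
  simp only [PowerSeries.coeff_zero_eq_constantCoeff, map_pow, smul_eq_mul, mul_one] at h1 hU0 ⊢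
  rw [← h1, hU0]
  ring

end FA16
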