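import Fermat.Agent.Eis.Arith
import Fermat.Agent.Eis.EisForm
import Fermat.Agent.Eis.TraceSq
import Fermat.Agent.IntStr.LevelOne

/-! S16, package UB: from the `W`-structure (package CONJ: `heckeU_heckeU`, `trace_sq_coeff`)
to the arithmetic data `WPair`. -/

set_option autoImplicit false

open UpperHalfPlane ModularForm CongruenceSubgroup ModularFormClass
open EisensteinSeries FA_IS FA_IS_L1
open scoped MatrixGroups ModularForm ArithmeticFunction.sigma

noncomputable section

namespace FA16

variable {N : ℕ}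

lemma coeff_E4 {j : ℕ} (hj : j ≠ 0) : (qExpansion 1 E₄).coeff j = 240 * (σ 3 j : ℂ) := by
  rw [qExp_E4, PowerSeries.coeff_map, map_add, PowerSeries.coeff_one, if_neg hj, zero_add]
  have : (240 : PowerSeries ℤ) = PowerSeries.C 240 := by
    simp
  rw [this, PowerSeries.coeff_C_mul, sA, PowerSeries.coeff_mk, if_neg hj]
  simp

lemma trace_coeff [Fact N.Prime] (f g : ModularForm (Gamma0 N) 2) (hg : ⇑g = heckeU 2 N ⇑f)
    {j : ℕ} (hj : j ≠ 0) :
    (N : ℂ) * (qExpansion 1 f * qExpansion 1 f).coeff j +
      (qExpansion 1 g * qExpansion 1 g).coeff (N * j) =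
      ((N : ℂ) + 1) * (qExpansion 1 f).coeff 0 ^ 2 * (240 * (σ 3 j : ℂ)) := by
  have hN : (N : ℂ) ≠ 0 := by exact_mod_cast (Fact.out : N.Prime).ne_zero
  have h6 := trace_sq_coeff N f j
  rw [← hg, coeff_E4 hj, pow_two, pow_two, mul_comm j N] at h6
  field_simp at h6
  linear_combination h6

/-- **Bridge.** -/
theorem wpair_of [Fact N.Prime] (h : ModularForm (Gamma0 N) 2)
    (A : PowerSeries ℤ) (hA : qExpansion 1 h = PowerSeries.map (Int.castRingHom ℂ) A) :
    WPair N (PowerSeries.coeff 0 A) A (PowerSeries.mk fun j => PowerSeries.coeff (N * j) A) := by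
  haveI : NeZero N := ⟨(Fact.out : N.Prime).ne_zero⟩
  set A' : PowerSeries ℤ := PowerSeries.mk fun j => PowerSeries.coeff (N * j) A with hA'def
  let g : ModularForm (Gamma0 N) 2 := ModularForm.heckeULin 2 (dvd_refl N) h
  have hg : ⇑g = heckeU 2 N ⇑h := rfl
  have hgq : qExpansion 1 g = PowerSeries.map (Int.castRingHom ℂ) A' := by
    ext j
    rw [hg, coeff_heckeU N (nice_G0 N h), hA, PowerSeries.coeff_map, PowerSeries.coeff_map, hA'def,
      PowerSeries.coeff_mk, mul_comm j N]
  have hh : ⇑h = heckeU 2 N ⇑g := by rw [hg, heckeU_heckeU]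
  have hAA : ∀ j, PowerSeries.coeff j A = PowerSeries.coeff (N * j) A' := by
    intro j
    have h1 : (qExpansion 1 h).coeff j = (qExpansion 1 g).coeff (N * j) := by
      conv_lhs => rw [hh]
      rw [coeff_heckeU N (nice_G0 N g), mul_comm j N]
    rw [hA, hgq, PowerSeries.coeff_map, PowerSeries.coeff_map] at h1
    simp only [eq_intCast] at h1
    exact_mod_cast h1
  have h0 : PowerSeries.coeff 0 A' = PowerSeries.coeff 0 A := by
    rw [hA'def, PowerSeries.coeff_mk, Nat.mul_zero]
  refine ⟨fun j => by rw [hA'def, PowerSeries.coeff_mk], hAA, rfl, ?_, ?_⟩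
  · intro j hj
    have := trace_coeff h g hg hj
    rw [hA, hgq, ← map_mul, ← map_mul, PowerSeries.coeff_map, PowerSeries.coeff_map,
      PowerSeries.coeff_map] at this
    simp only [eq_intCast] at this
    exact_mod_cast this
  · intro j hj
    have := trace_coeff g h hh hj
    rw [hA, hgq, ← map_mul, ← map_mul, PowerSeries.coeff_map, PowerSeries.coeff_map,
      PowerSeries.coeff_map, h0] at this
    simp only [eq_intCast] at this
    exact_mod_cast this

end FA16
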