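import Fermat.Agent.Genus.Bridge
import Fermat.Agent.IntStr.TForm
import Fermat.Prelude.Def_ModularForm_HeckeOperatorForms

open UpperHalfPlane ModularForm Matrix.SpecialLinearGroup CongruenceSubgroup Function
open scoped Manifold MatrixGroups ModularForm Real

namespace FA16

open FA_IS FAGenus

variable (N : ℕ)

lemma dedekindPsi_prime (hN : N.Prime) : ModularCurve.dedekindPsi N = N + 1 := by
  rw [ModularCurve.dedekindPsi, hN.divisors, Finset.filter_true_of_mem, Finset.sum_pair hN.one_lt.ne]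
  · rw [Nat.div_one, Nat.div_self hN.pos]
  · intro d hd
    simp only [Finset.mem_insert, Finset.mem_singleton] at hd
    rcases hd with rfl | rfl
    · exact squarefree_one
    · exact hN.squarefree

/-- coset representatives -/
noncomputable def rep : Option (Fin N) → SL(2, ℤ)
  | none => 1
  | some j => (ModularGroup.S * ModularGroup.T ^ ((j : ℕ) : ℤ))⁻¹

lemma sl_smul_q0_eq_iff (γ δ : SL(2, ℤ)) :
    sl γ • q0 (GG N) = sl δ • q0 (GG N) ↔ δ⁻¹ * γ ∈ Gamma0 N := by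
  rw [← inv_smul_eq_iff, smul_smul, ← map_inv, ← map_mul, sl_smul_q0, mk_eq_q0_iff, inv_mem_iff]

lemma S_T_mul_entry (j : ℤ) (γ : SL(2, ℤ)) :
    (ModularGroup.S * ModularGroup.T ^ j * γ) 1 0 = γ 0 0 + j * γ 1 0 := by
  rw [Matrix.SpecialLinearGroup.coe_mul, Matrix.SpecialLinearGroup.coe_mul,
    ModularGroup.coe_T_zpow, ModularGroup.coe_S]
  simp [Matrix.mul_apply, Fin.sum_univ_two]

lemma exists_j (hN : N.Prime) (a c : ℤ) (h : ¬ (N : ℤ) ∣ c) :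
    ∃ j : ℕ, j < N ∧ (N : ℤ) ∣ a + j * c := by
  have hcop : IsCoprime c (N : ℤ) := by
    rw [isCoprime_comm]
    exact (Nat.prime_iff_prime_int.mp hN).coprime_iff_not_dvd.mpr h
  obtain ⟨x, y, hxy⟩ := hcop
  have hj0nn : 0 ≤ (-a * x) % N := Int.emod_nonneg _ (by exact_mod_cast hN.ne_zero)
  have hj0lt : (-a * x) % N < N := Int.emod_lt_of_pos _ (by exact_mod_cast hN.pos)
  refine ⟨((-a * x) % N).toNat, by omega, ?_⟩
  rw [Int.toNat_of_nonneg hj0nn]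
  have h1 : (-a * x) % N = -a * x - N * ((-a * x) / N) := by
    have := Int.emod_add_mul_ediv (-a * x) N
    linarith
  rw [h1]
  refine ⟨a * y - ((-a * x) / N) * c, ?_⟩
  linear_combination (-a) * hxy

lemma exists_rep (hN : N.Prime) (γ : SL(2, ℤ)) :
    ∃ x : Option (Fin N), sl (rep N x) • q0 (GG N) = sl γ • q0 (GG N) := by
  by_cases h : (N : ℤ) ∣ γ 1 0
  · refine ⟨none, ?_⟩
    rw [sl_smul_q0_eq_iff, rep, mul_one, inv_mem_iff, mem_Gamma0_iff_dvd]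
    exact h
  · obtain ⟨j, hj, hd⟩ := exists_j N hN (γ 0 0) (γ 1 0) h
    refine ⟨some ⟨j, hj⟩, ?_⟩
    rw [sl_smul_q0_eq_iff, ← inv_mem_iff, mul_inv_rev, inv_inv, rep, inv_inv, mem_Gamma0_iff_dvd,
      S_T_mul_entry]
    exact hd

lemma rep_bijective (hN : N.Prime) :
    Function.Bijective (fun x : Option (Fin N) => sl (rep N x) • q0 (GG N)) := by
  have : NeZero N := ⟨hN.ne_zero⟩
  rw [Fintype.bijective_iff_surjective_and_card]
  constructor
  · intro q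
    obtain ⟨γ, rfl⟩ := exists_sl q
    exact exists_rep N hN γ
  · rw [card_Q, dedekindPsi_prime N hN]
    simp

/-- (C1) explicit trace -/
theorem coe_trace [hN : Fact N.Prime] {k : ℤ} (f : ModularForm (Gamma0 N) k) :
    ⇑(ModularForm.trace 𝒮ℒ f) = ⇑f + ∑ j ∈ Finset.range N,
      (⇑f ∣[k] ModularGroup.S) ∣[k] (ModularGroup.T ^ (j : ℤ)) := by
  rw [ModularForm.coe_trace]
  have h1 : (∑ q : Q (GG N), tr f q) = ∑ x : Option (Fin N), tr f (sl (rep N x) • q0 (GG N)) :=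
    ((Equiv.ofBijective _ (rep_bijective N hN.out)).sum_comp (fun q => tr f q)).symm
  have h2 : ∀ x : Option (Fin N), tr f (sl (rep N x) • q0 (GG N)) = ⇑f ∣[k] (rep N x)⁻¹ :=
    fun x => tr_sl f _
  simp only [h2] at h1
  rw [Fintype.sum_option] at h1
  simp only [rep, inv_one, inv_inv, SlashAction.slash_one] at h1
  rw [Finset.sum_range]
  convert h1 using 3
  exact (SlashAction.slash_mul ..).symm


/-- weight two: the trace vanishes -/
theorem add_sum_eq_zero [hN : Fact N.Prime] (f : ModularForm (Gamma0 N) 2) :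
    ⇑f + ∑ j ∈ Finset.range N,
      (⇑f ∣[(2 : ℤ)] ModularGroup.S) ∣[(2 : ℤ)] (ModularGroup.T ^ (j : ℤ)) = 0 := by
  rw [← coe_trace]
  have : ModularForm.trace 𝒮ℒ f = 0 := rank_zero_iff_forall_zero.mp levelOne_weight_two_rank_zero _
  rw [this]
  rfl

/-- the Fricke matrix identity -/
lemma fricke_conj [NeZero N] (γ : SL(2, ℤ)) (hγ : γ ∈ Gamma0 N) :
    ∃ γ' ∈ Gamma0 N, (mapGL ℝ ModularGroup.S) * heckeDiagMatrix N * (mapGL ℝ γ) =
      (mapGL ℝ γ') * ((mapGL ℝ ModularGroup.S) * heckeDiagMatrix N) := by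
  rw [mem_Gamma0_iff_dvd] at hγ
  obtain ⟨c', hc'⟩ := hγ
  have hdet : γ 0 0 * γ 1 1 - γ 0 1 * γ 1 0 = 1 := by
    have := γ.det_coe
    rwa [Matrix.det_fin_two] at this
  refine ⟨⟨!![γ 1 1, -c'; -N * γ 0 1, γ 0 0], ?_⟩, ?_, ?_⟩
  · rw [Matrix.det_fin_two_of]; rw [hc'] at hdet; linarith
  · rw [mem_Gamma0_iff_dvd]
    simp
  · ext i j
    have hN0 : N ≠ 0 := NeZero.ne N
    simp only [Matrix.GeneralLinearGroup.coe_mul, val_heckeDiagMatrix hN0, Matrix.mul_apply, Fin.sum_univ_two]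
    fin_cases i <;> fin_cases j <;> simp [ModularGroup.coe_S]
    · rw [hc']; push_cast; ring
    · ring


/-- the Fricke matrix -/
noncomputable def WW : GL (Fin 2) ℝ := mapGL ℝ ModularGroup.S * heckeDiagMatrix N

/-- the Fricke transform -/
noncomputable def fr [NeZero N] {k : ℤ} (h : ModularForm (Gamma0 N) k) :
    ModularForm (Gamma0 N) k where
  toFun := ⇑h ∣[k] WW N
  slash_action_eq' := by
    rintro _ ⟨γ, hγ, rfl⟩
    obtain ⟨γ', hγ', e⟩ := fricke_conj N γ hγ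
    have h1 : ⇑h ∣[k] (mapGL ℝ γ') = ⇑h :=
      SlashInvariantFormClass.slash_action_eq h _ (Subgroup.mem_map_of_mem _ hγ')
    rw [← SlashAction.slash_mul, WW, e, SlashAction.slash_mul, h1]
  holo' := (ModularFormClass.holo h).slash k _
  bdd_at_cusps' := fun hc => (translate h (WW N)).bdd_at_cusps' (hc.mono (by
    rintro _ ⟨γ, hγ, rfl⟩
    obtain ⟨γ', hγ', e⟩ := fricke_conj N γ hγ
    rw [Subgroup.mem_pointwise_smul_iff_inv_smul_mem, ← map_inv, inv_inv, ConjAct.toConjAct_smul]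
    refine ⟨γ', hγ', ?_⟩
    rw [WW, e]
    group))

lemma coe_fr [NeZero N] {k : ℤ} (h : ModularForm (Gamma0 N) k) : ⇑(fr N h) = ⇑h ∣[k] WW N := rfl


lemma WW_S_T [NeZero N] (j : ℕ) :
    WW N * mapGL ℝ ModularGroup.S * mapGL ℝ (ModularGroup.T ^ (j : ℤ)) =
      mapGL ℝ (-1 : SL(2, ℤ)) * heckeMatrix N j := by
  have hT : ((mapGL ℝ (ModularGroup.T ^ (j : ℤ)) : GL (Fin 2) ℝ) : Matrix (Fin 2) (Fin 2) ℝ)
      = !![1, (j : ℝ); 0, 1] := by
    rw [mapGL_coe_matrix, Matrix.SpecialLinearGroup.map_apply_coe, ModularGroup.coe_T_zpow]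
    ext a b
    fin_cases a <;> fin_cases b <;> simp
  ext a b
  have hN0 : N ≠ 0 := NeZero.ne N
  simp only [WW, Matrix.GeneralLinearGroup.coe_mul, val_heckeDiagMatrix hN0, val_heckeMatrix hN0,
    Matrix.mul_apply, Fin.sum_univ_two, hT]
  fin_cases a <;> fin_cases b <;> simp [ModularGroup.coe_S]

lemma neg_one_mem_Gamma0 : (-1 : SL(2, ℤ)) ∈ Gamma0 N := by
  rw [mem_Gamma0_iff_dvd]
  simp

lemma fr_slash_S_T [NeZero N] {k : ℤ} (h : ModularForm (Gamma0 N) k) (j : ℕ) :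
    (⇑(fr N h) ∣[k] ModularGroup.S) ∣[k] (ModularGroup.T ^ (j : ℤ)) = ⇑h ∣[k] heckeMatrix N j := by
  have h1 : ⇑h ∣[k] (mapGL ℝ (-1 : SL(2, ℤ))) = ⇑h :=
    SlashInvariantFormClass.slash_action_eq h _ (Subgroup.mem_map_of_mem _ (neg_one_mem_Gamma0 N))
  have e1 : ∀ (F : ℍ → ℂ) (γ : SL(2, ℤ)), F ∣[k] γ = F ∣[k] (mapGL ℝ γ) := fun F γ => rfl
  rw [coe_fr, e1, e1, ← SlashAction.slash_mul, ← SlashAction.slash_mul, ← mul_assoc, WW_S_T,
    SlashAction.slash_mul, h1]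

/-- `h|W = - U h` in weight two -/
theorem fr_eq_neg_heckeU [hN : Fact N.Prime] (h : ModularForm (Gamma0 N) 2) :
    ⇑(fr N h) = - heckeU 2 N ⇑h := by
  have h1 := add_sum_eq_zero N (fr N h)
  simp only [fr_slash_S_T] at h1
  rw [← heckeU_def] at h1
  exact eq_neg_of_add_eq_zero_left h1


lemma heckeDiag_smul_affPt [NeZero N] (τ : ℍ) : heckeDiagMatrix N • affPt 1 N 0 τ = τ := by
  have hN0 : N ≠ 0 := NeZero.ne N
  have hNC : (N : ℂ) ≠ 0 := by exact_mod_cast hN0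
  apply UpperHalfPlane.ext
  rw [coe_heckeDiagMatrix_smul hN0, coe_affPt one_pos (Nat.pos_of_ne_zero hN0)]
  field_simp
  simp

/-- (C2) -/
theorem slash_S [hN : Fact N.Prime] (h : ModularForm (Gamma0 N) 2) :
    ⇑h ∣[(2 : ℤ)] ModularGroup.S = (-(N : ℂ)⁻¹) • compAff (heckeU 2 N ⇑h) 1 N 0 := by
  have hN0 : N ≠ 0 := hN.out.ne_zero
  have hNC : (N : ℂ) ≠ 0 := by exact_mod_cast hN0
  funext τ
  have h1 := congrFun (fr_eq_neg_heckeU N h) (affPt 1 N 0 τ)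
  have e1 : ∀ (F : ℍ → ℂ) (γ : SL(2, ℤ)), F ∣[(2 : ℤ)] γ = F ∣[(2 : ℤ)] (mapGL ℝ γ) := fun F γ => rfl
  rw [coe_fr, WW, SlashAction.slash_mul, slash_heckeDiagMatrix_apply 2 hN0,
    heckeDiag_smul_affPt, ← e1] at h1
  simp only [Pi.smul_apply, Pi.neg_apply, compAff, smul_eq_mul] at h1 ⊢
  have h2 : ((N : ℂ) ^ ((2 : ℤ) - 1)) = N := by norm_num
  rw [h2] at h1
  field_simp
  linear_combination h1

lemma slash_T_zpow (F : ℍ → ℂ) (k : ℤ) (j : ℤ) (τ : ℍ) :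
    (F ∣[k] (ModularGroup.T ^ j)) τ = F (ModularGroup.T ^ j • τ) := by
  rw [SL_slash_apply, denom_SL, ModularGroup.coe_T_zpow]
  simp

lemma affPt_T_zpow [NeZero N] (j : ℤ) (τ : ℍ) :
    affPt 1 N 0 (ModularGroup.T ^ j • τ) = affPt 1 N j τ := by
  have hN0 : 0 < N := Nat.pos_of_ne_zero (NeZero.ne N)
  apply UpperHalfPlane.ext
  rw [coe_affPt one_pos hN0, coe_affPt one_pos hN0, ModularGroup.coe_T_zpow_smul_eq]
  simp

/-- (C3) -/
theorem slash_cases [hN : Fact N.Prime] (h : ModularForm (Gamma0 N) 2) (γ : SL(2, ℤ)) :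
    ⇑h ∣[(2 : ℤ)] γ = ⇑h ∨
      ∃ j : ℤ, ⇑h ∣[(2 : ℤ)] γ = (-(N : ℂ)⁻¹) • compAff (heckeU 2 N ⇑h) 1 N j := by
  obtain ⟨x, hx⟩ := exists_rep N hN.out γ⁻¹
  have h1 := congrArg (tr h) hx
  rw [tr_sl, tr_sl, inv_inv] at h1
  rw [← h1]
  rcases x with _ | j
  · left
    simp [rep]
  · right
    refine ⟨(j : ℕ), ?_⟩
    simp only [rep, inv_inv]
    rw [SlashAction.slash_mul, slash_S]
    funext τ
    rw [slash_T_zpow]
    simp only [Pi.smul_apply, compAff, affPt_T_zpow]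


lemma fr_fr [NeZero N] (h : ModularForm (Gamma0 N) 2) : ⇑(fr N (fr N h)) = ⇑h := by
  have hN0 : N ≠ 0 := NeZero.ne N
  have hNC : (N : ℂ) ≠ 0 := by exact_mod_cast hN0
  have h0 := fr_slash_S_T N h 0
  have e1 : ∀ (F : ℍ → ℂ) (γ : SL(2, ℤ)), F ∣[(2 : ℤ)] γ = F ∣[(2 : ℤ)] (mapGL ℝ γ) := fun F γ => rfl
  simp only [Nat.cast_zero, zpow_zero, SlashAction.slash_one] at h0
  rw [coe_fr, WW, SlashAction.slash_mul, ← e1, h0]
  funext τ
  rw [slash_heckeDiagMatrix_apply 2 hN0, slash_heckeMatrix_apply 2 hN0]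
  have h2 : ((N : ℂ) ^ ((2 : ℤ) - 1)) = N := by norm_num
  have h3 : heckeMatrix N 0 • heckeDiagMatrix N • τ = τ := by
    apply UpperHalfPlane.ext
    rw [coe_heckeMatrix_smul hN0, coe_heckeDiagMatrix_smul hN0]
    field_simp
    simp
  rw [h2, h3]
  field_simp

/-- (C4) -/
theorem heckeU_heckeU [hN : Fact N.Prime] (h : ModularForm (Gamma0 N) 2) :
    heckeU 2 N (heckeU 2 N ⇑h) = ⇑h := by
  have h1 := fr_eq_neg_heckeU N (fr N h)
  rw [fr_fr, fr_eq_neg_heckeU, heckeU_neg, neg_neg] at h1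
  exact h1.symm

end FA16
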