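import Fermat.Agent.Eis.ExcAlg

namespace FA16

open FA_IS_L1

variable {Γ₀ : Type*} [LinearOrderedCommGroupWithZero Γ₀] {v : Valuation ℂ Γ₀}

lemma VInt.ofNat (hZ : ∀ z : ℤ, v (z : ℂ) ≤ 1) (n : ℕ) [n.AtLeastTwo] :
    VInt v (OfNat.ofNat n : PowerSeries ℂ) := by
  rw [← map_ofNat (PowerSeries.C) n]
  refine VInt.C ?_
  have := hZ (OfNat.ofNat n)
  simpa using this

lemma VSmall.C_mul {c : ℂ} (hc : v c < 1) {A : PowerSeries ℂ} (hA : VInt v A) :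
    VSmall v (PowerSeries.C c * A) := by
  rw [← PowerSeries.smul_eq_C_mul]; exact VSmall.smul hc hA

/-- `X ≡ u mod m` -/
def Cong (v : Valuation ℂ Γ₀) (u m : ℂ) (X : PowerSeries ℂ) : Prop :=
  ∃ Y, VInt v Y ∧ X = PowerSeries.C u + PowerSeries.C m * Y

lemma cong_of_coeff {u m : ℂ} {X : PowerSeries ℂ}
    (h : ∀ n, ∃ y, v y ≤ 1 ∧ X.coeff n = (if n = 0 then u else 0) + m * y) : Cong v u m X := by
  choose y hy using h
  refine ⟨PowerSeries.mk y, fun n => by rw [PowerSeries.coeff_mk]; exact (hy n).1, ?_⟩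
  ext n
  rw [map_add, PowerSeries.coeff_C, PowerSeries.coeff_C_mul, PowerSeries.coeff_mk, (hy n).2]

/-- `E₄(q^N)`, `E₆(q^N)` as power series -/
noncomputable def e4N (N : ℕ) (hN0 : N ≠ 0) : PowerSeries ℂ :=
  PowerSeries.expand N hN0 (PowerSeries.map (Int.castRingHom ℂ) (1 + 240 * sA))
noncomputable def e6N (N : ℕ) (hN0 : N ≠ 0) : PowerSeries ℂ :=
  PowerSeries.expand N hN0 (PowerSeries.map (Int.castRingHom ℂ) (1 - 504 * sB))

/-- abbreviation -/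
noncomputable def exN (N : ℕ) (hN0 : N ≠ 0) (Z : PowerSeries ℤ) : PowerSeries ℂ :=
  PowerSeries.expand N hN0 (PowerSeries.map (Int.castRingHom ℂ) Z)

lemma exN_int (hZ : ∀ z : ℤ, v (z : ℂ) ≤ 1) (N : ℕ) (hN0 : N ≠ 0) (Z : PowerSeries ℤ) :
    VInt v (exN N hN0 Z) := (VInt.map_int hZ Z).expand N hN0

lemma e4N_eq (N : ℕ) (hN0 : N ≠ 0) : e4N N hN0 = 1 + 240 * exN N hN0 sA := by
  simp only [e4N, exN, map_add, map_mul, map_one, map_ofNat]

lemma e6N_eq (N : ℕ) (hN0 : N ≠ 0) : e6N N hN0 = 1 - 504 * exN N hN0 sB := by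
  simp only [e6N, exN, map_sub, map_mul, map_one, map_ofNat]

theorem ord_case5 {l : ℕ} (hv : IsLVal l v) (hl : l.Prime) (h5 : 5 ≤ l) {u : ℤ}
    (hu : ¬ (l : ℤ) ∣ u) (N : ℕ) (hN0 : N ≠ 0) {X : PowerSeries ℂ} (hX : Cong v u l X) :
    VOrd v ((4 : ℂ) • X ^ 3 - (3 * (u : ℂ) ^ 2) • (e4N N hN0 * X) - ((u : ℂ) ^ 3) • e6N N hN0) N := by
  obtain ⟨Y, hY, rfl⟩ := hX
  have hZ := hv.int
  simp only [PowerSeries.smul_eq_C_mul, map_mul, map_pow, map_ofNat, e4N_eq, e6N_eq]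
  rw [Q2_gen]
  have hU : VInt v (PowerSeries.C (u : ℂ)) := VInt.C (hZ u)
  have hm : VInt v (PowerSeries.C (l : ℂ)) := VInt.C hv.lt.le
  have hA := exN_int hZ N hN0 sA
  have hmain : PowerSeries.C (u : ℂ) ^ 3 * (504 * exN N hN0 sB - 720 * exN N hN0 sA) =
      PowerSeries.C ((u : ℂ) ^ 3) * PowerSeries.expand N hN0 (PowerSeries.map (Int.castRingHom ℂ) Z5) := by
    simp only [Z5, exN, map_sub, map_mul, map_pow, map_ofNat]
  rw [hmain]
  refine (VOrd.main hZ ?_ Z5 Z5_zero ?_ N hN0).add_small (VSmall.C_mul hv.lt ?_)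
  · rw [map_pow, hv.unit hl hu, one_pow]
  · rw [Z5_one]
    refine hv.unit hl ?_
    intro hd
    have h1 : l ∣ 6 ^ 3 := by
      have : (l : ℤ) ∣ 216 := by simpa using hd
      exact_mod_cast this
    have h2 := hl.dvd_of_dvd_pow h1
    have h3 := Nat.le_of_dvd (by norm_num) h2
    interval_cases l <;> first | omega | exact absurd hl (by norm_num)
  · exact (((hY.mul (hU.pow 2)).mul ((VInt.ofNat hZ 9).sub ((VInt.ofNat hZ 720).mul hA))).add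
      ((((VInt.ofNat hZ 12).mul hm).mul (hY.pow 2)).mul hU)).add
      (((VInt.ofNat hZ 4).mul (hm.pow 2)).mul (hY.pow 3))

theorem ord_case3 (hv : IsLVal 3 v) {u : ℤ}
    (hu : ¬ ((3 : ℕ) : ℤ) ∣ u) (N : ℕ) (hN0 : N ≠ 0) {X : PowerSeries ℂ} (hX : Cong v u 9 X) :
    VOrd v ((27 : ℂ)⁻¹ • ((4 : ℂ) • X ^ 3 - (3 * (u : ℂ) ^ 2) • (e4N N hN0 * X)
      - ((u : ℂ) ^ 3) • e6N N hN0)) N := by
  obtain ⟨Y, hY, rfl⟩ := hX
  have hZ := hv.int
  have hl : Nat.Prime 3 := by norm_num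
  have h3 : 3 * exN N hN0 sC3 = 7 * exN N hN0 sB - 10 * exN N hN0 sA := by
    have := congrArg (exN N hN0) three_mul_sC3
    simpa only [exN, map_sub, map_mul, map_ofNat] using this
  simp only [PowerSeries.smul_eq_C_mul, map_mul, map_pow, map_ofNat, e4N_eq, e6N_eq]
  rw [Q2_nine _ _ _ _ _ h3, ← mul_assoc]
  have h27 : PowerSeries.C ((27 : ℂ)⁻¹) * (27 : PowerSeries ℂ) = 1 := by
    rw [← map_ofNat (PowerSeries.C) 27, ← map_mul]
    norm_num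
  rw [h27, one_mul]
  have hU : VInt v (PowerSeries.C (u : ℂ)) := VInt.C (hZ u)
  have hA := exN_int hZ N hN0 sA
  have hmain : PowerSeries.C (u : ℂ) ^ 3 * (8 * exN N hN0 sC3) =
      PowerSeries.C ((u : ℂ) ^ 3) * PowerSeries.expand N hN0 (PowerSeries.map (Int.castRingHom ℂ) Z3) := by
    simp only [Z3, exN, map_mul, map_pow, map_ofNat]
  rw [hmain, ← map_ofNat (PowerSeries.C) 3]
  refine (VOrd.main hZ ?_ Z3 Z3_zero ?_ N hN0).add_small (VSmall.C_mul (by simpa using hv.lt) ?_)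
  · rw [map_pow, hv.unit hl hu, one_pow]
  · rw [Z3_one]
    exact hv.unit hl (by norm_num)
  · exact (((hY.mul (hU.pow 2)).mul (VInt.one.sub ((VInt.ofNat hZ 80).mul hA))).add
      (((VInt.ofNat hZ 12).mul (hY.pow 2)).mul hU)).add ((VInt.ofNat hZ 36).mul (hY.pow 3))

theorem ord_case2 (hv : IsLVal 2 v) {u : ℤ}
    (hu : ¬ ((2 : ℕ) : ℤ) ∣ u) (N : ℕ) (hN0 : N ≠ 0) {X : PowerSeries ℂ} (hX : Cong v u 8 X) :
    VOrd v ((256 : ℂ)⁻¹ • ((27 : ℂ) • X ^ 4 - (18 * (u : ℂ) ^ 2) • (e4N N hN0 * X ^ 2)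
      - (8 * (u : ℂ) ^ 3) • (e6N N hN0 * X) - ((u : ℂ) ^ 4) • (e4N N hN0) ^ 2)) N := by
  obtain ⟨Y, hY, rfl⟩ := hX
  have hZ := hv.int
  have hl : Nat.Prime 2 := by norm_num
  have h4 : 4 * exN N hN0 sC4 = 21 * exN N hN0 sB - 25 * exN N hN0 sA := by
    have := congrArg (exN N hN0) four_mul_sC4
    simpa only [exN, map_sub, map_mul, map_ofNat] using this
  simp only [PowerSeries.smul_eq_C_mul, map_mul, map_pow, map_ofNat, e4N_eq, e6N_eq]
  rw [Q3_eight _ _ _ _ _ h4, ← mul_assoc]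
  have h256 : PowerSeries.C ((256 : ℂ)⁻¹) * (256 : PowerSeries ℂ) = 1 := by
    rw [← map_ofNat (PowerSeries.C) 256, ← map_mul]
    norm_num
  rw [h256, one_mul]
  have hU : VInt v (PowerSeries.C (u : ℂ)) := VInt.C (hZ u)
  have hA := exN_int hZ N hN0 sA
  have hB := exN_int hZ N hN0 sB
  have hmain : PowerSeries.C (u : ℂ) ^ 4 * (3 * exN N hN0 sC4 - 225 * exN N hN0 sA ^ 2) =
      PowerSeries.C ((u : ℂ) ^ 4) * PowerSeries.expand N hN0 (PowerSeries.map (Int.castRingHom ℂ) Z2) := by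
    simp only [Z2, exN, map_sub, map_mul, map_pow, map_ofNat]
  rw [hmain, ← map_ofNat (PowerSeries.C) 2]
  refine (VOrd.main hZ ?_ Z2 Z2_zero ?_ N hN0).add_small (VSmall.C_mul (by simpa using hv.lt) ?_)
  · rw [map_pow, hv.unit hl hu, one_pow]
  · rw [Z2_one]
    exact hv.unit hl (by norm_num)
  · exact (((((hU.pow 3).mul hY).mul ((VInt.one.sub ((VInt.ofNat hZ 135).mul hA)).add
      ((VInt.ofNat hZ 63).mul hB))).add
      (((hU.pow 2).mul (hY.pow 2)).mul ((VInt.ofNat hZ 18).sub ((VInt.ofNat hZ 540).mul hA)))).add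
      (((VInt.ofNat hZ 108).mul hU).mul (hY.pow 3))).add ((VInt.ofNat hZ 216).mul (hY.pow 4))

end FA16
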