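import Fermat.Agent.Eis.Sturm1
import Fermat.Agent.Eis.TraceSq
import Fermat.Agent.Eis.ExcOrd

/-! S16, exceptional cases of the upper bound: no `h ∈ M₂(Γ₀(N))` is congruent to a unit constant
modulo `l` (`l ≥ 5`), `9`, `8` when this modulus divides `N + 1`. -/

open UpperHalfPlane ModularForm Matrix.SpecialLinearGroup CongruenceSubgroup Function EisensteinSeries
open scoped Manifold MatrixGroups ModularForm Real

namespace FA16

open FA_IS FAGenus FA_IS_L1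

/-- the `2`-division polynomial evaluated at a function of weight two -/
noncomputable def Q2fun (u : ℂ) (x : ℍ → ℂ) : ℍ → ℂ :=
  (4 : ℂ) • x ^ 3 - (3 * u ^ 2) • (⇑E₄ * x) - (u ^ 3) • ⇑E₆

/-- the `3`-division polynomial evaluated at a function of weight two -/
noncomputable def Q3fun (u : ℂ) (x : ℍ → ℂ) : ℍ → ℂ :=
  (27 : ℂ) • x ^ 4 - (18 * u ^ 2) • (⇑E₄ * x ^ 2) - (8 * u ^ 3) • (⇑E₆ * x) - (u ^ 4) • (⇑E₄ ^ 2)

lemma levelOne_apply_smul {k : ℤ} (f : ModularForm 𝒮ℒ k) (γ : SL(2, ℤ)) (τ : ℍ) :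
    f τ = f (γ • τ) * denom γ τ ^ (-k) := by
  rw [← SL_slash_apply]
  have : (⇑f ∣[k] γ) = ⇑f := SlashInvariantFormClass.slash_action_eq f (mapGL ℝ γ) ⟨γ, rfl⟩
  rw [this]

lemma Q2fun_slash (u : ℂ) (x : ℍ → ℂ) (γ : SL(2, ℤ)) :
    Q2fun u x ∣[(6 : ℤ)] γ = Q2fun u (x ∣[(2 : ℤ)] γ) := by
  funext τ
  have h4 := levelOne_apply_smul E₄ γ τ
  have h6 := levelOne_apply_smul E₆ γ τ
  simp only [Q2fun, SL_slash_apply, Pi.sub_apply, Pi.smul_apply, Pi.mul_apply, Pi.pow_apply,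
    smul_eq_mul]
  rw [h4, h6]
  simp only [zpow_neg, ← inv_zpow]
  generalize (denom γ τ)⁻¹ = e
  have e2 : e ^ (2 : ℤ) = e ^ 2 := zpow_ofNat e 2
  have e4 : e ^ (4 : ℤ) = e ^ 4 := zpow_ofNat e 4
  have e6 : e ^ (6 : ℤ) = e ^ 6 := zpow_ofNat e 6
  rw [e2, e4, e6]
  ring

lemma Q3fun_slash (u : ℂ) (x : ℍ → ℂ) (γ : SL(2, ℤ)) :
    Q3fun u x ∣[(8 : ℤ)] γ = Q3fun u (x ∣[(2 : ℤ)] γ) := by
  funext τ
  have h4 := levelOne_apply_smul E₄ γ τ
  have h6 := levelOne_apply_smul E₆ γ τ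
  simp only [Q3fun, SL_slash_apply, Pi.sub_apply, Pi.smul_apply, Pi.mul_apply, Pi.pow_apply,
    smul_eq_mul]
  rw [h4, h6]
  simp only [zpow_neg, ← inv_zpow]
  generalize (denom γ τ)⁻¹ = e
  have e2 : e ^ (2 : ℤ) = e ^ 2 := zpow_ofNat e 2
  have e4 : e ^ (4 : ℤ) = e ^ 4 := zpow_ofNat e 4
  have e6 : e ^ (6 : ℤ) = e ^ 6 := zpow_ofNat e 6
  have e8 : e ^ (8 : ℤ) = e ^ 8 := zpow_ofNat e 8
  rw [e2, e4, e6, e8]
  ring

variable {h : ℝ}

lemma nice_E4 (hh : ∃ M : ℕ, h = M * 1) : Nice h ⇑E₄ := by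
  obtain ⟨M, rfl⟩ := hh
  exact (nice_levelOne 4 E₄).nat_mul M

lemma nice_E6 (hh : ∃ M : ℕ, h = M * 1) : Nice h ⇑E₆ := by
  obtain ⟨M, rfl⟩ := hh
  exact (nice_levelOne 6 E₆).nat_mul M

lemma Q2fun_nice (hh : ∃ M : ℕ, h = M * 1) (u : ℂ) {x : ℍ → ℂ} (hx : Nice h x) :
    Nice h (Q2fun u x) :=
  (((hx.pow 3).smul _).sub (((nice_E4 hh).mul hx).smul _)).sub ((nice_E6 hh).smul _)

lemma Q3fun_nice (hh : ∃ M : ℕ, h = M * 1) (u : ℂ) {x : ℍ → ℂ} (hx : Nice h x) :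
    Nice h (Q3fun u x) :=
  ((((hx.pow 4).smul _).sub (((nice_E4 hh).mul (hx.pow 2)).smul _)).sub
    (((nice_E6 hh).mul hx).smul _)).sub (((nice_E4 hh).pow 2).smul _)

lemma Q2fun_qExp (hh : ∃ M : ℕ, h = M * 1) (hpos : 0 < h) (u : ℂ) {x : ℍ → ℂ} (hx : Nice h x) :
    qExpansion h (Q2fun u x) = (4 : ℂ) • (qExpansion h x) ^ 3
      - (3 * u ^ 2) • (qExpansion h E₄ * qExpansion h x) - (u ^ 3) • qExpansion h E₆ := by
  have h4 := nice_E4 hh
  have h6 := nice_E6 hh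
  rw [Q2fun, (((hx.pow 3).smul _).sub ((h4.mul hx).smul _)).qExpansion_sub (h6.smul _) hpos,
    ((hx.pow 3).smul _).qExpansion_sub ((h4.mul hx).smul _) hpos,
    (hx.pow 3).qExpansion_smul hpos, (h4.mul hx).qExpansion_smul hpos, h6.qExpansion_smul hpos,
    hx.qExpansion_pow hpos, h4.qExpansion_mul hx hpos]

lemma Q3fun_qExp (hh : ∃ M : ℕ, h = M * 1) (hpos : 0 < h) (u : ℂ) {x : ℍ → ℂ} (hx : Nice h x) :
    qExpansion h (Q3fun u x) = (27 : ℂ) • (qExpansion h x) ^ 4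
      - (18 * u ^ 2) • (qExpansion h E₄ * (qExpansion h x) ^ 2)
      - (8 * u ^ 3) • (qExpansion h E₆ * qExpansion h x) - (u ^ 4) • (qExpansion h E₄) ^ 2 := by
  have h4 := nice_E4 hh
  have h6 := nice_E6 hh
  rw [Q3fun, ((((hx.pow 4).smul _).sub ((h4.mul (hx.pow 2)).smul _)).sub
      ((h6.mul hx).smul _)).qExpansion_sub ((h4.pow 2).smul _) hpos,
    (((hx.pow 4).smul _).sub ((h4.mul (hx.pow 2)).smul _)).qExpansion_sub ((h6.mul hx).smul _) hpos,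
    ((hx.pow 4).smul _).qExpansion_sub ((h4.mul (hx.pow 2)).smul _) hpos,
    (hx.pow 4).qExpansion_smul hpos, (h4.mul (hx.pow 2)).qExpansion_smul hpos,
    (h6.mul hx).qExpansion_smul hpos, (h4.pow 2).qExpansion_smul hpos,
    hx.qExpansion_pow hpos, h4.qExpansion_mul (hx.pow 2) hpos, hx.qExpansion_pow hpos,
    h6.qExpansion_mul hx hpos, h4.qExpansion_pow hpos]


variable (N : ℕ) {Γ₀ : Type*} [LinearOrderedCommGroupWithZero Γ₀] {v : Valuation ℂ Γ₀}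

/-- too many zeros at the cusps -/
theorem norm_contra [hN : Fact N.Prime] (hZ : ∀ z : ℤ, v (z : ℂ) ≤ 1) {w : ℤ} (hw : w < 12)
    (Ψ : ModularForm (Gamma0 N) w)
    (hnice : ∀ γ : SL(2, ℤ), Nice (N : ℝ) (⇑Ψ ∣[w] γ))
    (hconj : ∀ γ : SL(2, ℤ), VOrd v (qExpansion N (⇑Ψ ∣[w] γ)) N) : False := by
  have hN0 : N ≠ 0 := hN.out.ne_zero
  have hNR : (0 : ℝ) < N := by exact_mod_cast hN.out.pos
  set F := ModularForm.norm 𝒮ℒ Ψ with hF
  have hcard : Nat.card (Q (GG N)) = N + 1 := by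
    rw [Nat.card_eq_fintype_card, card_Q, dedekindPsi_prime N hN.out]
  have hnq : ∀ q : Q (GG N), Nice (N : ℝ) (tr Ψ q) := fun q => by
    obtain ⟨γ, -, h⟩ := exists_tr_eq Ψ q
    rw [h]; exact hnice _
  have hoq : ∀ q : Q (GG N), VOrd v (qExpansion N (tr Ψ q)) N := fun q => by
    obtain ⟨γ, -, h⟩ := exists_tr_eq Ψ q
    rw [h]; exact hconj _
  have hprod : qExpansion N F = ∏ q : Q (GG N), qExpansion N (tr Ψ q) := by
    rw [hF, ModularForm.coe_norm]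
    convert Nice.qExpansion_prod Finset.univ (fun q _ => hnq q) hNR
  have hord : VOrd v (qExpansion N F) ((N + 1) * N) := by
    rw [hprod]
    have := VOrd.prod (v := v) Finset.univ (fun q : Q (GG N) => qExpansion N (tr Ψ q)) (fun _ => N)
      (fun q _ => hoq q)
    rwa [Finset.sum_const, Finset.card_univ, ← Nat.card_eq_fintype_card, hcard, smul_eq_mul] at this
  have hF1 : Nice 1 F := nice_levelOne _ F
  have hexp : qExpansion N F = PowerSeries.expand N hN0 (qExpansion 1 F) := by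
    have := hF1.qExpansion_nat_mul one_pos hN0
    rwa [mul_one] at this
  have hco : ∀ n, (qExpansion 1 F).coeff n = (qExpansion N F).coeff (n * N) := fun n => by
    rw [hexp, PowerSeries.coeff_expand, if_pos (Dvd.intro_left n rfl),
      Nat.mul_div_cancel _ hN.out.pos]
  have hsmall := sturm_val hZ F (fun n => by rw [hco]; exact hord.int _) (fun n hn => by
    rw [hco]
    refine hord.lt _ (Nat.mul_lt_mul_of_pos_right ?_ hN.out.pos)
    rw [hcard] at hn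
    push_cast at hn
    have h1 : (0 : ℤ) < (N : ℤ) + 1 := by positivity
    have h2 : w * ((N : ℤ) + 1) < 12 * ((N : ℤ) + 1) := mul_lt_mul_of_pos_right hw h1
    have h3 : (n : ℤ) < (N : ℤ) + 1 := by nlinarith
    exact_mod_cast h3)
  have := hsmall (N + 1)
  rw [hco, hord.eq] at this
  exact lt_irrefl _ this


section Conj

variable [hN : Fact N.Prime] (h : ModularForm (Gamma0 N) 2)

lemma slash_nice (γ : SL(2, ℤ)) : Nice (N : ℝ) (⇑h ∣[(2 : ℤ)] γ) := by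
  rcases slash_cases N h γ with e | ⟨j, e⟩
  · rw [e]
    have := (nice_G0 N h).nat_mul N
    rwa [mul_one] at this
  · rw [e]
    exact (compAff_nice (nice_heckeU N h) one_pos hN.out.pos (one_mul N) j).smul _

lemma slash_cong {l : ℕ} (hv : IsLVal l v) (hl : l.Prime) (m : ℕ) (hlm : l ∣ m) (u : ℤ)
    (h0 : (qExpansion 1 h).coeff 0 = u)
    (hn : ∀ n ≥ 1, ∃ c : ℤ, (qExpansion 1 h).coeff n = (m : ℂ) * c) (hmN : m ∣ N + 1)
    (γ : SL(2, ℤ)) : Cong v u m (qExpansion N (⇑h ∣[(2 : ℤ)] γ)) := by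
  have hN0 : N ≠ 0 := hN.out.ne_zero
  have hNR : (0 : ℝ) < N := by exact_mod_cast hN.out.pos
  have hZ := hv.int
  rcases slash_cases N h γ with e | ⟨j, e⟩
  · rw [e]
    have h1 := (nice_G0 N h).qExpansion_nat_mul one_pos hN0
    rw [mul_one] at h1
    rw [h1]
    refine cong_of_coeff fun n => ?_
    rw [PowerSeries.coeff_expand]
    by_cases hn0 : n = 0
    · subst hn0
      exact ⟨0, by simp, by simp [h0]⟩
    · rw [if_neg hn0]
      by_cases hd : N ∣ n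
      · rw [if_pos hd]
        obtain ⟨c, hc⟩ := hn (n / N) (Nat.div_pos (Nat.le_of_dvd (Nat.pos_of_ne_zero hn0) hd) hN.out.pos)
        exact ⟨c, hZ c, by rw [hc, zero_add]⟩
      · rw [if_neg hd]
        exact ⟨0, by simp, by simp⟩
  · rw [e, (compAff_nice (nice_heckeU N h) one_pos hN.out.pos (one_mul N) j).qExpansion_smul hNR,
      qExpansion_compAff (nice_heckeU N h) one_pos hN.out.pos (one_mul N) j]
    have hlN : ¬ l ∣ N := by
      intro hd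
      have h1 : l ∣ N + 1 := hlm.trans hmN
      have h2 : l ∣ 1 := (Nat.dvd_add_right hd).mp h1
      exact hl.one_lt.ne' (Nat.dvd_one.mp h2)
    have hvN : v ((N : ℂ)⁻¹) = 1 := by rw [map_inv₀, hv.unit_nat hl hlN, inv_one]
    have hvz : v (zetaAff N j) = 1 := val_eq_one_of_pow_eq_one hN0 (zetaAff_pow N hN.out.pos j)
    have hNC : (N : ℂ) ≠ 0 := by exact_mod_cast hN0
    obtain ⟨r, hr⟩ := hmN
    have hrC : (N : ℂ) + 1 = m * r := by exact_mod_cast hr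
    refine cong_of_coeff fun n => ?_
    rw [PowerSeries.coeff_smul, PowerSeries.coeff_expand, if_pos (by simp), one_pow, Nat.div_one,
      PowerSeries.coeff_rescale, coeff_heckeU N (nice_G0 N h)]
    by_cases hn0 : n = 0
    · subst hn0
      refine ⟨-(u : ℂ) * r * (N : ℂ)⁻¹, ?_, ?_⟩
      · rw [map_mul, map_mul, hvN, mul_one, Valuation.map_neg]
        exact mul_le_one' (hZ u) (hv.nat r)
      · rw [zero_mul, h0, if_pos rfl]
        simp only [pow_zero, one_mul, smul_eq_mul]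
        field_simp
        linear_combination (-(u : ℂ)) * hrC
    · rw [if_neg hn0]
      obtain ⟨c, hc⟩ := hn (n * N) (Nat.mul_pos (Nat.pos_of_ne_zero hn0) hN.out.pos)
      refine ⟨-(N : ℂ)⁻¹ * zetaAff N j ^ n * c, ?_, ?_⟩
      · rw [map_mul, map_mul, Valuation.map_neg, hvN, map_pow, hvz, one_pow, one_mul, one_mul]
        exact hZ c
      · rw [hc, smul_eq_mul]
        ring

/-- general shape of the argument -/
theorem contra_of (hZ : ∀ z : ℤ, v (z : ℂ) ≤ 1) {w : ℤ} (hw : w < 12)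
    (Qf : (ℍ → ℂ) → (ℍ → ℂ))
    (hslash : ∀ (x : ℍ → ℂ) (γ : SL(2, ℤ)), Qf x ∣[w] γ = Qf (x ∣[(2 : ℤ)] γ))
    (hnice : ∀ (M : ℕ) (x : ℍ → ℂ), Nice ((M : ℝ) * 1) x → Nice ((M : ℝ) * 1) (Qf x))
    (hord : ∀ γ : SL(2, ℤ), VOrd v (qExpansion N (Qf (⇑h ∣[(2 : ℤ)] γ))) N) : False := by
  have hn1 : Nice 1 (Qf ⇑h) := by
    have := hnice 1 ⇑h (by simpa using nice_G0 N h)
    simpa using this
  have hnN : ∀ γ : SL(2, ℤ), Nice (N : ℝ) (Qf (⇑h ∣[(2 : ℤ)] γ)) := fun γ => by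
    have := hnice N (⇑h ∣[(2 : ℤ)] γ) (by simpa using slash_nice N h γ)
    simpa using this
  let Ψ : ModularForm (Gamma0 N) w := mkMF (GG N) w (Qf ⇑h)
    (by
      rintro _ ⟨γ, hγ, rfl⟩
      have h1 : ⇑h ∣[(2 : ℤ)] γ = ⇑h :=
        SlashInvariantFormClass.slash_action_eq h _ (Subgroup.mem_map_of_mem _ hγ)
      have h2 := hslash ⇑h γ
      rw [h1] at h2
      exact h2)
    hn1.hol
    (fun γ => by rw [hslash]; exact (hnN γ).bdd)
  have hΨ : ⇑Ψ = Qf ⇑h := rfl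
  refine norm_contra N hZ hw Ψ (fun γ => ?_) (fun γ => ?_)
  · rw [hΨ, hslash]; exact hnN γ
  · rw [hΨ, hslash]; exact hord γ

lemma qExp_E4_N : qExpansion (N : ℝ) E₄ = e4N N hN.out.ne_zero := by
  have h1 := (nice_levelOne 4 E₄).qExpansion_nat_mul one_pos hN.out.ne_zero
  rw [mul_one] at h1
  rw [h1, qExp_E4, e4N]

lemma qExp_E6_N : qExpansion (N : ℝ) E₆ = e6N N hN.out.ne_zero := by
  have h1 := (nice_levelOne 6 E₆).qExpansion_nat_mul one_pos hN.out.ne_zero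
  rw [mul_one] at h1
  rw [h1, qExp_E6, e6N]

end Conj

/-- **EXC**: the exceptional cases of the upper bound. -/
theorem exc (N : ℕ) [hN : Fact N.Prime] (h : ModularForm (Gamma0 N) 2) (l m : ℕ) (hl : l.Prime)
    (u : ℤ) (hu : ¬ (l : ℤ) ∣ u) (h0 : (qExpansion 1 h).coeff 0 = u)
    (hn : ∀ n ≥ 1, ∃ c : ℤ, (qExpansion 1 h).coeff n = (m : ℂ) * c) (hmN : m ∣ N + 1)
    (hcase : (5 ≤ l ∧ m = l) ∨ (l = 3 ∧ m = 9) ∨ (l = 2 ∧ m = 8)) : False := by
  obtain ⟨V, hv⟩ := exists_isLVal l hl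
  have hN0 : N ≠ 0 := hN.out.ne_zero
  have hNR : (0 : ℝ) < N := by exact_mod_cast hN.out.pos
  have hNM : ∃ M : ℕ, (N : ℝ) = M * 1 := ⟨N, by simp⟩
  have hlm : l ∣ m := by
    rcases hcase with ⟨-, rfl⟩ | ⟨rfl, rfl⟩ | ⟨rfl, rfl⟩ <;> norm_num
  have hcong := slash_cong N h hv hl m hlm u h0 hn hmN
  rcases hcase with ⟨h5, rfl⟩ | ⟨rfl, rfl⟩ | ⟨rfl, rfl⟩
  · refine contra_of N h hv.int (w := 6) (by norm_num) (Q2fun u) (Q2fun_slash u)
      (fun M x hx => Q2fun_nice ⟨M, rfl⟩ u hx) (fun γ => ?_)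
    rw [Q2fun_qExp hNM hNR u (slash_nice N h γ), qExp_E4_N, qExp_E6_N]
    exact ord_case5 hv hl h5 hu N hN0 (hcong γ)
  · refine contra_of N h hv.int (w := 6) (by norm_num) (fun x => (27 : ℂ)⁻¹ • Q2fun u x)
      (fun x γ => by rw [SL_smul_slash, Q2fun_slash])
      (fun M x hx => (Q2fun_nice ⟨M, rfl⟩ u hx).smul _) (fun γ => ?_)
    rw [(Q2fun_nice hNM u (slash_nice N h γ)).qExpansion_smul hNR,
      Q2fun_qExp hNM hNR u (slash_nice N h γ), qExp_E4_N, qExp_E6_N]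
    exact ord_case3 hv hu N hN0 (by simpa using hcong γ)
  · refine contra_of N h hv.int (w := 8) (by norm_num) (fun x => (256 : ℂ)⁻¹ • Q3fun u x)
      (fun x γ => by rw [SL_smul_slash, Q3fun_slash])
      (fun M x hx => (Q3fun_nice ⟨M, rfl⟩ u hx).smul _) (fun γ => ?_)
    rw [(Q3fun_nice hNM u (slash_nice N h γ)).qExpansion_smul hNR,
      Q3fun_qExp hNM hNR u (slash_nice N h γ), qExp_E4_N, qExp_E6_N]
    exact ord_case2 hv hu N hN0 (by simpa using hcong γ)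

end FA16
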