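import Fermat.Agent.Eis.LamOrd
import Fermat.Agent.IntStr.LevelOne

open scoped ArithmeticFunction.sigma

namespace FA16

open FA_IS_L1

section Alg
variable {R : Type*} [CommRing R]

lemma Q2_gen (U Y A B m : R) :
    4 * (U + m * Y) ^ 3 - 3 * U ^ 2 * ((1 + 240 * A) * (U + m * Y)) - U ^ 3 * (1 - 504 * B) =
      U ^ 3 * (504 * B - 720 * A) +
        m * (Y * U ^ 2 * (9 - 720 * A) + 12 * m * Y ^ 2 * U + 4 * m ^ 2 * Y ^ 3) := by ring

lemma Q2_nine (U Y A B C' : R) (h : 3 * C' = 7 * B - 10 * A) :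
    4 * (U + 9 * Y) ^ 3 - 3 * U ^ 2 * ((1 + 240 * A) * (U + 9 * Y)) - U ^ 3 * (1 - 504 * B) =
      27 * (U ^ 3 * (8 * C') + 3 * (Y * U ^ 2 * (1 - 80 * A) + 12 * Y ^ 2 * U + 36 * Y ^ 3)) := by
  linear_combination (-72 * U ^ 3) * h

lemma Q3_eight (U Y A B C' : R) (h : 4 * C' = 21 * B - 25 * A) :
    27 * (U + 8 * Y) ^ 4 - 18 * U ^ 2 * ((1 + 240 * A) * (U + 8 * Y) ^ 2)
        - 8 * U ^ 3 * ((1 - 504 * B) * (U + 8 * Y)) - U ^ 4 * (1 + 240 * A) ^ 2 =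
      256 * (U ^ 4 * (3 * C' - 225 * A ^ 2) + 2 * (U ^ 3 * Y * (1 - 135 * A + 63 * B)
        + U ^ 2 * Y ^ 2 * (18 - 540 * A) + 108 * U * Y ^ 3 + 216 * Y ^ 4)) := by
  linear_combination (-192 * U ^ 4) * h

end Alg

/-- `∑ (7σ_5(n) - 10σ_3(n))/3 q^n` -/
noncomputable def sC3 : PowerSeries ℤ :=
  PowerSeries.mk fun n => if n = 0 then 0 else (7 * (σ 5 n : ℤ) - 10 * (σ 3 n : ℤ)) / 3

/-- `∑ (21σ_5(n) - 25σ_3(n))/4 q^n` -/
noncomputable def sC4 : PowerSeries ℤ :=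
  PowerSeries.mk fun n => if n = 0 then 0 else (21 * (σ 5 n : ℤ) - 25 * (σ 3 n : ℤ)) / 4

lemma three_dvd_pow (d : ℤ) : (3 : ℤ) ∣ 7 * d ^ 5 - 10 * d ^ 3 := by
  have h : ∀ x : ZMod 3, 7 * x ^ 5 - 10 * x ^ 3 = 0 := by decide
  have := h (d : ZMod 3)
  have h2 := (ZMod.intCast_zmod_eq_zero_iff_dvd (7 * d ^ 5 - 10 * d ^ 3) 3).mp (by push_cast; exact this)
  exact_mod_cast h2

lemma four_dvd_pow (d : ℤ) : (4 : ℤ) ∣ 21 * d ^ 5 - 25 * d ^ 3 := by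
  have h : ∀ x : ZMod 4, 21 * x ^ 5 - 25 * x ^ 3 = 0 := by decide
  have := h (d : ZMod 4)
  have h2 := (ZMod.intCast_zmod_eq_zero_iff_dvd (21 * d ^ 5 - 25 * d ^ 3) 4).mp (by push_cast; exact this)
  exact_mod_cast h2

lemma three_dvd_sigma (n : ℕ) : (3 : ℤ) ∣ 7 * (σ 5 n : ℤ) - 10 * (σ 3 n : ℤ) := by
  rw [ArithmeticFunction.sigma_apply, ArithmeticFunction.sigma_apply]
  push_cast
  rw [Finset.mul_sum, Finset.mul_sum, ← Finset.sum_sub_distrib]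
  exact Finset.dvd_sum fun d _ => three_dvd_pow d

lemma four_dvd_sigma (n : ℕ) : (4 : ℤ) ∣ 21 * (σ 5 n : ℤ) - 25 * (σ 3 n : ℤ) := by
  rw [ArithmeticFunction.sigma_apply, ArithmeticFunction.sigma_apply]
  push_cast
  rw [Finset.mul_sum, Finset.mul_sum, ← Finset.sum_sub_distrib]
  exact Finset.dvd_sum fun d _ => four_dvd_pow d

lemma ofNat_eq_C (n : ℕ) [n.AtLeastTwo] : (OfNat.ofNat n : PowerSeries ℤ) = PowerSeries.C (OfNat.ofNat n : ℤ) :=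
  (map_ofNat (PowerSeries.C) n).symm

lemma three_mul_sC3 : 3 * sC3 = 7 * sB - 10 * sA := by
  ext n
  rw [map_sub, ofNat_eq_C 3, ofNat_eq_C 7, ofNat_eq_C 10, PowerSeries.coeff_C_mul,
    PowerSeries.coeff_C_mul, PowerSeries.coeff_C_mul]
  simp only [sA, sB, sC3, PowerSeries.coeff_mk]
  split_ifs with h
  · simp
  · rw [Int.mul_ediv_cancel' (three_dvd_sigma n)]

lemma four_mul_sC4 : 4 * sC4 = 21 * sB - 25 * sA := by
  ext n
  rw [map_sub, ofNat_eq_C 4, ofNat_eq_C 21, ofNat_eq_C 25, PowerSeries.coeff_C_mul,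
    PowerSeries.coeff_C_mul, PowerSeries.coeff_C_mul]
  simp only [sA, sB, sC4, PowerSeries.coeff_mk]
  split_ifs with h
  · simp
  · rw [Int.mul_ediv_cancel' (four_dvd_sigma n)]

lemma sA_zero : sA.coeff 0 = 0 := by simp [sA]
lemma sB_zero : sB.coeff 0 = 0 := by simp [sB]
lemma sA_one : sA.coeff 1 = 1 := by simp [sA]
lemma sB_one : sB.coeff 1 = 1 := by simp [sB]
lemma sC3_zero : sC3.coeff 0 = 0 := by simp [sC3]
lemma sC4_zero : sC4.coeff 0 = 0 := by simp [sC4]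
lemma sC3_one : sC3.coeff 1 = -1 := by simp [sC3]
lemma sC4_one : sC4.coeff 1 = -1 := by simp [sC4]

/-- main terms -/
noncomputable def Z5 : PowerSeries ℤ := 504 * sB - 720 * sA
noncomputable def Z3 : PowerSeries ℤ := 8 * sC3
noncomputable def Z2 : PowerSeries ℤ := 3 * sC4 - 225 * sA ^ 2

lemma Z5_zero : Z5.coeff 0 = 0 := by
  rw [Z5, map_sub, ofNat_eq_C 504, ofNat_eq_C 720, PowerSeries.coeff_C_mul,
    PowerSeries.coeff_C_mul, sA_zero, sB_zero]; simp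
lemma Z5_one : Z5.coeff 1 = -216 := by
  rw [Z5, map_sub, ofNat_eq_C 504, ofNat_eq_C 720, PowerSeries.coeff_C_mul,
    PowerSeries.coeff_C_mul, sA_one, sB_one]; norm_num
lemma Z3_zero : Z3.coeff 0 = 0 := by
  rw [Z3, ofNat_eq_C 8, PowerSeries.coeff_C_mul, sC3_zero]; simp
lemma Z3_one : Z3.coeff 1 = -8 := by
  rw [Z3, ofNat_eq_C 8, PowerSeries.coeff_C_mul, sC3_one]; norm_num
lemma sA_sq_zero : (sA ^ 2).coeff 0 = 0 := by
  rw [sq, PowerSeries.coeff_mul]; simp [sA_zero]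
lemma sA_sq_one : (sA ^ 2).coeff 1 = 0 := by
  rw [sq, PowerSeries.coeff_mul, Finset.Nat.antidiagonal_succ]
  simp [sA_zero]
lemma Z2_zero : Z2.coeff 0 = 0 := by
  rw [Z2, map_sub, ofNat_eq_C 3, ofNat_eq_C 225, PowerSeries.coeff_C_mul,
    PowerSeries.coeff_C_mul, sC4_zero, sA_sq_zero]; simp
lemma Z2_one : Z2.coeff 1 = -3 := by
  rw [Z2, map_sub, ofNat_eq_C 3, ofNat_eq_C 225, PowerSeries.coeff_C_mul,
    PowerSeries.coeff_C_mul, sC4_one, sA_sq_one]; norm_num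

variable {Γ₀ : Type*} [LinearOrderedCommGroupWithZero Γ₀] {v : Valuation ℂ Γ₀}

/-- the order of the main term -/
lemma VOrd.main (hZ : ∀ z : ℤ, v (z : ℂ) ≤ 1) {c : ℂ} (hc : v c = 1) (Z : PowerSeries ℤ)
    (h0 : Z.coeff 0 = 0) (h1 : v ((Z.coeff 1 : ℤ) : ℂ) = 1) (N : ℕ) (hN0 : N ≠ 0) :
    VOrd v (PowerSeries.C c * PowerSeries.expand N hN0 (PowerSeries.map (Int.castRingHom ℂ) Z)) N := by
  refine ⟨(VInt.C hc.le).mul ((VInt.map_int hZ Z).expand N hN0), fun n hn => ?_, ?_⟩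
  · rw [PowerSeries.coeff_C_mul, PowerSeries.coeff_expand]
    split_ifs with hd
    · have : n = 0 := Nat.eq_zero_of_dvd_of_lt hd hn
      subst this
      simp [h0]
    · simp
  · rw [PowerSeries.coeff_C_mul, PowerSeries.coeff_expand, if_pos dvd_rfl,
      Nat.div_self (Nat.pos_of_ne_zero hN0), map_mul, hc, one_mul, PowerSeries.coeff_map]
    exact h1

end FA16
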