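import Mathlib

/-!
# Permutation modules over an arbitrary field: orbit sums

Characteristic free version of the linear algebra behind the bound for parabolic cohomology.
-/

set_option autoImplicit false

open Module

namespace FA16.Lift

section Abstract

variable {G : Type*} [Group G] {X : Type*} [MulAction G X] (k : Type*) [CommRing k]

/-- pull-back of functions along the action of `g` -/
noncomputable def pb (g : G) : Module.End k (X → k) := LinearMap.funLeft k k (fun x => g • x)

variable {k}

@[simp] lemma pb_apply (g : G) (v : X → k) (x : X) : pb k g v x = v (g • x) := rfl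

lemma pb_mul (g h : G) : (pb k (g * h) : Module.End k (X → k)) = pb k h * pb k g := by
  refine LinearMap.ext fun v => funext fun x => ?_
  simp [mul_smul]

lemma pb_one : (pb k (1 : G) : Module.End k (X → k)) = 1 := by
  refine LinearMap.ext fun v => funext fun x => ?_
  simp

variable (k)

/-- the orbits of the cyclic group generated by `g` -/
abbrev Orb (X : Type*) [MulAction G X] (g : G) : Type _ :=
  MulAction.orbitRel.Quotient (Subgroup.zpowers g) X

/-- the class of a point in the orbit space -/
def orbMk (g : G) (x : X) : Orb X g := Quotient.mk _ x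

variable {k}

lemma orbMk_smul (g : G) (x : X) : orbMk g (g • x) = orbMk g x := by
  apply Quotient.sound
  show MulAction.orbitRel _ _ _ _
  rw [MulAction.orbitRel_apply]
  exact ⟨⟨g, Subgroup.mem_zpowers g⟩, rfl⟩

lemma orbMk_eq_iff (g : G) (x y : X) : orbMk g x = orbMk g y ↔ ∃ n : ℤ, g ^ n • y = x := by
  unfold orbMk
  rw [Quotient.eq]
  show MulAction.orbitRel _ _ _ _ ↔ _
  rw [MulAction.orbitRel_apply, MulAction.mem_orbit_iff]
  constructor
  · rintro ⟨⟨_, n, rfl⟩, h⟩
    exact ⟨n, h⟩
  · rintro ⟨n, h⟩
    exact ⟨⟨g ^ n, n, rfl⟩, h⟩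

lemma orbMk_surjective (g : G) : Function.Surjective (orbMk g : X → Orb X g) :=
  Quotient.mk_surjective

variable (k)

open Classical in
/-- the sums of a function over the orbits of `g` -/
noncomputable def orbSum [Fintype X] (g : G) : (X → k) →ₗ[k] (Orb X g → k) where
  toFun c ω := ∑ x, if orbMk g x = ω then c x else 0
  map_add' c c' := by
    funext ω
    simp only [Pi.add_apply, ← Finset.sum_add_distrib]
    refine Finset.sum_congr rfl fun x _ => ?_
    split_ifs <;> simp
  map_smul' a c := by
    funext ω
    simp only [Pi.smul_apply, smul_eq_mul, RingHom.id_apply, Finset.mul_sum]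
    refine Finset.sum_congr rfl fun x _ => ?_
    split_ifs <;> simp

/-- functions all of whose orbit sums vanish -/
noncomputable def W [Fintype X] (g : G) : Submodule k (X → k) := LinearMap.ker (orbSum k g)

variable {k}

open Classical in
lemma orbSum_apply [Fintype X] (g : G) (c : X → k) (ω : Orb X g) :
    orbSum k g c ω = ∑ x, if orbMk g x = ω then c x else 0 := rfl

lemma orbSum_pb [Fintype X] (g : G) (c : X → k) : orbSum k g (pb k g c) = orbSum k g c := by
  classical
  funext ω
  rw [orbSum_apply, orbSum_apply]
  refine Fintype.sum_equiv (MulAction.toPerm g) _ _ fun x => ?_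
  simp [orbMk_smul]

lemma pb_sub_mem_W [Fintype X] (g : G) (c : X → k) : pb k g c - c ∈ W k g := by
  rw [W, LinearMap.mem_ker, map_sub, orbSum_pb, sub_self]

lemma orbSum_single [Fintype X] [DecidableEq X] (g : G) [DecidableEq (Orb X g)] (x : X) (a : k) :
    orbSum k g (Pi.single x a) = Pi.single (M := fun _ => k) (orbMk g x) a := by
  funext ω
  rw [orbSum_apply]
  simp only [Pi.single_apply]
  rw [Finset.sum_eq_single x]
  · by_cases h : orbMk g x = ω
    · simp [h]
    · simp [h, Ne.symm h]
  · intro y _ hy
    simp [hy]
  · simp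

lemma single_sub_mem_W [Fintype X] [DecidableEq X] (g : G) (x : X) :
    (Pi.single (g • x) (1 : k) - Pi.single x 1 : X → k) ∈ W k g := by
  classical
  rw [W, LinearMap.mem_ker, map_sub, orbSum_single, orbSum_single, orbMk_smul, sub_self]

lemma orbSum_surjective [Fintype X] (g : G) :
    Function.Surjective (orbSum k g : (X → k) → (Orb X g → k)) := by
  classical
  intro f
  have : Fintype (Orb X g) := Fintype.ofFinite _
  refine ⟨∑ ω, Pi.single (Function.surjInv (orbMk_surjective g) ω) (f ω), ?_⟩
  rw [map_sum]
  simp only [orbSum_single, Function.surjInv_eq]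
  funext ω
  simp [Finset.sum_apply, Pi.single_apply]

/-- orbit sums as sums along the orbit -/
lemma orbSum_orbMk [Fintype X] (g : G) (c : X → k) (x : X) :
    orbSum k g c (orbMk g x) =
      ∑ i ∈ Finset.range (Function.minimalPeriod (g • ·) x), c (g ^ i • x) := by
  classical
  rw [orbSum_apply, ← Finset.sum_filter]
  symm
  have hpos : 0 < Function.minimalPeriod (g • ·) x := by
    apply Function.IsPeriodicPt.minimalPeriod_pos (n := orderOf (MulAction.toPerm g : Equiv.Perm X))
    · exact orderOf_pos _
    · show (g • ·)^[_] x = x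
      rw [smul_iterate]
      have h1 := pow_orderOf_eq_one (MulAction.toPerm g : Equiv.Perm X)
      have h2 : (MulAction.toPerm g : Equiv.Perm X) ^ orderOf (MulAction.toPerm g : Equiv.Perm X)
          = MulAction.toPerm (g ^ orderOf (MulAction.toPerm g : Equiv.Perm X)) :=
        (map_pow (MulAction.toPermHom G X) g _).symm
      rw [h2] at h1
      exact congrArg (fun f : Equiv.Perm X => f x) h1
  refine Finset.sum_bij (fun i _ => g ^ i • x) ?_ ?_ ?_ ?_
  · intro i _
    rw [Finset.mem_filter]
    refine ⟨Finset.mem_univ _, ?_⟩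
    rw [orbMk_eq_iff]
    exact ⟨i, by simp⟩
  · intro i hi j hj hij
    rw [Finset.mem_range] at hi hj
    have := Function.iterate_injOn_Iio_minimalPeriod (f := (g • ·)) (x := x) hi hj
    apply this
    simpa [smul_iterate] using hij
  · intro y hy
    rw [Finset.mem_filter, orbMk_eq_iff] at hy
    obtain ⟨n, hn⟩ := hy.2
    refine ⟨(n % (Function.minimalPeriod (g • ·) x : ℤ)).toNat, ?_, ?_⟩
    · rw [Finset.mem_range]
      have h1 := Int.emod_nonneg n (b := (Function.minimalPeriod (g • ·) x : ℤ)) (by positivity)
      have h2 := Int.emod_lt_of_pos n (b := (Function.minimalPeriod (g • ·) x : ℤ))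
        (by exact_mod_cast hpos)
      omega
    · have h1 := Int.emod_nonneg n (b := (Function.minimalPeriod (g • ·) x : ℤ)) (by positivity)
      rw [← hn, ← MulAction.zpow_smul_mod_minimalPeriod g x n, ← zpow_natCast, Int.toNat_of_nonneg h1]
  · intro i _
    rfl

end Abstract

section Field

variable {G : Type*} [Group G] {X : Type*} [MulAction G X] [Fintype X] {k : Type*} [Field k]

lemma finrank_W_add_card (g : G) :
    finrank k (W k g : Submodule k (X → k)) + Nat.card (Orb X g) = Fintype.card X := by
  classical
  have : Fintype (Orb X g) := Fintype.ofFinite _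
  have h1 := LinearMap.finrank_range_add_finrank_ker (orbSum k g : (X → k) →ₗ[k] (Orb X g → k))
  rw [LinearMap.range_eq_top.2 (orbSum_surjective g), finrank_top,
    Module.finrank_fintype_fun_eq_card, Module.finrank_fintype_fun_eq_card] at h1
  rw [Nat.card_eq_fintype_card, W]
  omega

lemma card_le_finrank_sup_add_one [MulAction.IsPretransitive G X] (x0 : X) {S R : G}
    (hgen : Subgroup.closure {S, R} = ⊤) :
    Fintype.card X ≤ finrank k (W k S ⊔ W k R : Submodule k (X → k)) + 1 := by
  classical
  set M : Submodule k (X → k) := W k S ⊔ W k R with hM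
  let H : Subgroup G :=
    { carrier := {g | ∀ x : X, (Pi.single (g • x) (1 : k) - Pi.single x 1 : X → k) ∈ M}
      mul_mem' := by
        intro a b ha hb x
        have := M.add_mem (ha (b • x)) (hb x)
        rw [sub_add_sub_cancel, ← mul_smul] at this
        exact this
      one_mem' := by
        intro x
        simp
      inv_mem' := by
        intro a ha x
        have := M.neg_mem (ha (a⁻¹ • x))
        rw [neg_sub, smul_inv_smul] at this
        exact this }
  have hH : H = ⊤ := by
    rw [eq_top_iff, ← hgen, Subgroup.closure_le]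
    rintro g (rfl | rfl)
    · exact fun x => Submodule.mem_sup_left (single_sub_mem_W _ x)
    · exact fun x => Submodule.mem_sup_right (single_sub_mem_W _ x)
  have htop : (⊤ : Submodule k (X → k)) ≤ M ⊔ Submodule.span k {(Pi.single x0 (1 : k) : X → k)} := by
    intro v _
    rw [pi_eq_sum_univ v]
    refine Submodule.sum_mem _ fun x _ => Submodule.smul_mem _ _ ?_
    obtain ⟨g, rfl⟩ := MulAction.exists_smul_eq G x0 x
    have hg : g ∈ H := hH ▸ Subgroup.mem_top g
    have h1 := Submodule.add_mem _ (Submodule.mem_sup_left
      (T := Submodule.span k {(Pi.single x0 (1 : k) : X → k)}) (hg x0))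
      (Submodule.mem_sup_right (S := M) (Submodule.mem_span_singleton_self _))
    rw [sub_add_cancel] at h1
    convert h1 using 1
    funext y
    simp [Pi.single_apply, eq_comm]
  have h1 := Submodule.finrank_mono htop
  rw [finrank_top, Module.finrank_fintype_fun_eq_card] at h1
  have h2 := Submodule.finrank_add_le_finrank_add_finrank M
    (Submodule.span k {(Pi.single x0 (1 : k) : X → k)})
  have h3 : finrank k (Submodule.span k {(Pi.single x0 (1 : k) : X → k)}) ≤ 1 := by
    refine (finrank_span_le_card _).trans ?_
    simp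
  omega

end Field

section LemmaP

variable {k : Type*} [Field k] {V : Type*} [AddCommGroup V] [Module k V] [FiniteDimensional k V]

/-- the space of pairs `(a, r)` with `a ∈ A`, `r ∈ B`, `r - a ∈ K` -/
def pairSpace (A B K : Submodule k V) : Submodule k (V × V) :=
  (A.prod B) ⊓ K.comap (LinearMap.snd k V V - LinearMap.fst k V V)

omit [FiniteDimensional k V] in
lemma mem_pairSpace {A B K : Submodule k V} {p : V × V} :
    p ∈ pairSpace A B K ↔ p.1 ∈ A ∧ p.2 ∈ B ∧ p.2 - p.1 ∈ K := by
  simp [pairSpace, and_assoc]

lemma finrank_pairSpace_le (A B K : Submodule k V) :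
    finrank k (pairSpace A B K) + finrank k (A ⊔ B : Submodule k V) ≤
      finrank k A + finrank k B + finrank k K := by
  set W := pairSpace A B K with hW
  let f : W →ₗ[k] V := (LinearMap.snd k V V - LinearMap.fst k V V) ∘ₗ W.subtype
  have h1 := LinearMap.finrank_range_add_finrank_ker f
  have h2 : LinearMap.range f ≤ K := by
    rintro _ ⟨w, rfl⟩
    exact (mem_pairSpace.1 w.2).2.2
  have h3 := Submodule.finrank_mono h2
  let g : LinearMap.ker f →ₗ[k] (A ⊓ B : Submodule k V) :=
    LinearMap.codRestrict _ (LinearMap.fst k V V ∘ₗ W.subtype ∘ₗ (LinearMap.ker f).subtype) (by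
      intro w
      have hw : w.1.1.2 - w.1.1.1 = 0 := w.2
      have hw' := mem_pairSpace.1 w.1.2
      refine ⟨hw'.1, ?_⟩
      have : w.1.1.1 = w.1.1.2 := (sub_eq_zero.1 hw).symm
      show w.1.1.1 ∈ B
      rw [this]
      exact hw'.2.1)
  have hg : Function.Injective g := by
    intro w w' hww
    have h : w.1.1.1 = w'.1.1.1 := congrArg Subtype.val hww
    have hw : w.1.1.2 - w.1.1.1 = 0 := w.2
    have hw' : w'.1.1.2 - w'.1.1.1 = 0 := w'.2
    apply Subtype.ext
    apply Subtype.ext
    refine Prod.ext h ?_
    rw [sub_eq_zero.1 hw, sub_eq_zero.1 hw', h]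
  have h4 := LinearMap.finrank_le_finrank_of_injective hg
  have h5 := Submodule.finrank_sup_add_finrank_inf_eq A B
  omega

end LemmaP

end FA16.Lift
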