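import Mathlib
import Fermat.Agent.Eis.LiftLin

/-!
# Homomorphisms of a finite index subgroup as cocycles (arbitrary coefficient field)
-/

set_option autoImplicit false

open Module

namespace FA16.Lift

section Coc

variable {G : Type*} [Group G] {X : Type*} [MulAction G X] {k : Type*} [CommRing k]

/-- `1`-cocycles of `G` with values in the functions on `X` -/
def IsCoc (y : G → X → k) : Prop := ∀ g h, y (g * h) = pb k h (y g) + y h

lemma IsCoc.one {y : G → X → k} (hy : IsCoc y) : y 1 = 0 := by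
  have := hy 1 1
  rw [mul_one, pb_one, Module.End.one_apply] at this
  simpa using this

lemma IsCoc.pow_apply {y : G → X → k} (hy : IsCoc y) (g : G) (n : ℕ) (x : X) :
    y (g ^ n) x = ∑ i ∈ Finset.range n, y g (g ^ i • x) := by
  induction n with
  | zero => simp [hy.one]
  | succ n ih =>
    rw [pow_succ', hy, Finset.sum_range_succ, Pi.add_apply, pb_apply, ih, add_comm]

lemma IsCoc.add {y y' : G → X → k} (hy : IsCoc y) (hy' : IsCoc y') :
    IsCoc (fun g => y g + y' g) := by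
  intro g h
  simp only [hy g h, hy' g h, map_add]
  abel

lemma isCoc_cob (v : X → k) : IsCoc (fun g : G => pb k g v - v) := by
  intro g h
  simp only [pb_mul, Module.End.mul_apply, map_sub]
  abel

lemma IsCoc.eq_zero {y : G → X → k} (hy : IsCoc y) {S R : G}
    (hgen : Subgroup.closure {S, R} = ⊤) (hS : y S = 0) (hR : y R = 0) (g : G) : y g = 0 := by
  let H : Subgroup G :=
    { carrier := {g | y g = 0}
      mul_mem' := by
        intro a b ha hb
        show y (a * b) = 0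
        rw [hy, show y a = 0 from ha, show y b = 0 from hb, map_zero, add_zero]
      one_mem' := hy.one
      inv_mem' := by
        intro a ha
        have := hy a a⁻¹
        rw [mul_inv_cancel, hy.one, show y a = 0 from ha, map_zero, zero_add] at this
        exact this.symm }
  have hH : H = ⊤ := by
    rw [eq_top_iff, ← hgen, Subgroup.closure_le]
    rintro g (rfl | rfl)
    · exact hS
    · exact hR
  exact (hH ▸ Subgroup.mem_top g : g ∈ H)

/-- a cocycle whose values at the stabilisers of the powers of `g` vanish has `y g ∈ W g` -/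
lemma IsCoc.mem_W [Fintype X] {y : G → X → k} (hy : IsCoc y) (g : G)
    (h : ∀ (n : ℕ) (x : X), g ^ n • x = x → y (g ^ n) x = 0) : y g ∈ W k g := by
  rw [W, LinearMap.mem_ker]
  funext ω
  obtain ⟨x, rfl⟩ := orbMk_surjective g ω
  rw [orbSum_orbMk, ← hy.pow_apply, Pi.zero_apply]
  apply h
  exact MulAction.pow_smul_eq_iff_minimalPeriod_dvd.2 dvd_rfl

end Coc

section Quot

variable {G : Type*} [Group G] (Γ : Subgroup G) {k : Type*} [CommRing k]

lemma out_mem (g : G) (x : G ⧸ Γ) : (g • x).out⁻¹ * g * x.out ∈ Γ := by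
  rw [mul_assoc, ← QuotientGroup.eq, QuotientGroup.out_eq']
  conv_lhs => rw [← QuotientGroup.out_eq' x]
  rfl

/-- additive functions on `Γ` -/
def IsAdd (φ : Γ → k) : Prop := ∀ a b, φ (a * b) = φ a + φ b

variable {Γ} in
lemma IsAdd.one {φ : Γ → k} (h : IsAdd Γ φ) : φ 1 = 0 := by
  have := h 1 1
  rw [mul_one] at this
  simpa using this

variable {Γ} in
lemma IsAdd.inv {φ : Γ → k} (h : IsAdd Γ φ) (a : Γ) : φ a⁻¹ = - φ a := by
  have := h a⁻¹ a
  rw [inv_mul_cancel, h.one] at this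
  exact eq_neg_of_add_eq_zero_left this.symm

/-- the cocycle attached to a function on `Γ` -/
noncomputable def zc (g : G) : (Γ → k) →ₗ[k] (G ⧸ Γ → k) where
  toFun φ x := φ ⟨(g • x).out⁻¹ * g * x.out, out_mem Γ g x⟩
  map_add' := fun _ _ => rfl
  map_smul' := fun _ _ => rfl

lemma zc_apply (g : G) (φ : Γ → k) (x : G ⧸ Γ) :
    zc Γ g φ x = φ ⟨(g • x).out⁻¹ * g * x.out, out_mem Γ g x⟩ := rfl

lemma isCoc_zc {φ : Γ → k} (hφ : IsAdd Γ φ) : IsCoc (fun g => zc Γ g φ) := by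
  intro g h
  funext x
  simp only [Pi.add_apply, pb_apply, zc_apply]
  rw [← hφ]
  congr 1
  apply Subtype.ext
  simp [mul_smul, mul_assoc]

lemma zc_apply_base {φ : Γ → k} (hφ : IsAdd Γ φ) (γ : Γ) :
    zc Γ (γ : G) φ ((1 : G) : G ⧸ Γ) = φ γ := by
  set x0 : G ⧸ Γ := ((1 : G) : G ⧸ Γ) with hx0
  have ht : x0.out ∈ Γ := by
    have h1 : ((x0.out : G) : G ⧸ Γ) = ((1 : G) : G ⧸ Γ) := QuotientGroup.out_eq' x0
    rw [QuotientGroup.eq, mul_one] at h1
    exact (Subgroup.inv_mem_iff Γ).1 h1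
  have hx : (γ : G) • x0 = x0 := by
    show (((γ : G) * 1 : G) : G ⧸ Γ) = ((1 : G) : G ⧸ Γ)
    rw [QuotientGroup.eq]
    simp
  have h2 : (⟨((γ : G) • x0).out⁻¹ * γ * x0.out, out_mem Γ γ x0⟩ : Γ)
      = (⟨x0.out, ht⟩ : Γ)⁻¹ * γ * ⟨x0.out, ht⟩ := by
    apply Subtype.ext
    simp [hx]
  rw [zc_apply, h2, hφ, hφ, hφ.inv]
  ring

lemma zc_apply_eq_zero_of_bad {Bad : G → Prop} (hconj : ∀ g h, Bad g → Bad (h⁻¹ * g * h))
    {φ : Γ → k} (hφ : ∀ γ : Γ, Bad γ → φ γ = 0) {g : G} (hg : Bad g)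
    {x : G ⧸ Γ} (hfix : g • x = x) : zc Γ g φ x = 0 := by
  apply hφ
  show Bad ((g • x).out⁻¹ * g * x.out)
  rw [hfix]
  exact hconj _ _ hg

/-- the cocycle attached to a pair (homomorphism, function) -/
noncomputable def yc (φ : Γ → k) (v : G ⧸ Γ → k) (g : G) : G ⧸ Γ → k :=
  zc Γ g φ + (pb k g v - v)

lemma isCoc_yc {φ : Γ → k} (hφ : IsAdd Γ φ) (v : G ⧸ Γ → k) : IsCoc (yc Γ φ v) :=
  (isCoc_zc Γ hφ).add (isCoc_cob v)

lemma yc_apply_eq_zero_of_bad {Bad : G → Prop} (hconj : ∀ g h, Bad g → Bad (h⁻¹ * g * h))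
    {φ : Γ → k} (hφ : ∀ γ : Γ, Bad γ → φ γ = 0) (v : G ⧸ Γ → k)
    {g : G} (hg : Bad g) {x : G ⧸ Γ} (hfix : g • x = x) : yc Γ φ v g x = 0 := by
  rw [yc, Pi.add_apply, zc_apply_eq_zero_of_bad Γ hconj hφ hg hfix, Pi.sub_apply, pb_apply, hfix]
  simp

lemma yc_mem_W [Fintype (G ⧸ Γ)] {Bad : G → Prop} (hconj : ∀ g h, Bad g → Bad (h⁻¹ * g * h))
    {φ : Γ → k} (ha : IsAdd Γ φ) (hφ : ∀ γ : Γ, Bad γ → φ γ = 0) (v : G ⧸ Γ → k)
    {g : G} (hg : ∀ n : ℕ, Bad (g ^ n)) : yc Γ φ v g ∈ W k g :=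
  (isCoc_yc Γ ha v).mem_W g fun n _ hx => yc_apply_eq_zero_of_bad Γ hconj hφ v (hg n) hx

/-- the evaluation map `(φ, v) ↦ (y_S, y_R)` -/
noncomputable def evSR (PH : Submodule k (Γ → k)) (S R : G) :
    (PH × (G ⧸ Γ → k)) →ₗ[k] ((G ⧸ Γ → k) × (G ⧸ Γ → k)) :=
  LinearMap.prod
    ((zc Γ S ∘ₗ PH.subtype) ∘ₗ LinearMap.fst k _ _ + (pb k S - 1) ∘ₗ LinearMap.snd k _ _)
    ((zc Γ R ∘ₗ PH.subtype) ∘ₗ LinearMap.fst k _ _ + (pb k R - 1) ∘ₗ LinearMap.snd k _ _)

lemma evSR_apply (PH : Submodule k (Γ → k)) (S R : G) (p : PH × (G ⧸ Γ → k)) :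
    evSR Γ PH S R p = (yc Γ p.1 p.2 S, yc Γ p.1 p.2 R) := rfl

lemma eq_zero_of_yc_eq_zero {φ : Γ → k} (ha : IsAdd Γ φ) {v : G ⧸ Γ → k}
    (h : ∀ g, yc Γ φ v g = 0) : φ = 0 ∧ ∀ x, v x = v ((1 : G) : G ⧸ Γ) := by
  have hφ : φ = 0 := by
    funext γ
    have h1 := congrFun (h (γ : G)) ((1 : G) : G ⧸ Γ)
    have hx : (γ : G) • (((1 : G) : G ⧸ Γ)) = ((1 : G) : G ⧸ Γ) := by
      show (((γ : G) * 1 : G) : G ⧸ Γ) = ((1 : G) : G ⧸ Γ)
      rw [QuotientGroup.eq]
      simp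
    simp only [yc, Pi.add_apply, Pi.sub_apply, pb_apply, zc_apply_base Γ ha, hx, sub_self,
      add_zero, Pi.zero_apply] at h1
    simpa using h1
  refine ⟨hφ, fun x => ?_⟩
  obtain ⟨g, rfl⟩ := QuotientGroup.mk_surjective x
  have h1 := congrFun (h g) ((1 : G) : G ⧸ Γ)
  subst hφ
  simp only [yc, map_zero, zero_add, Pi.sub_apply, pb_apply, Pi.zero_apply, sub_eq_zero] at h1
  rw [← h1]
  show v ((g : G) : G ⧸ Γ) = v (((g * 1 : G)) : G ⧸ Γ)
  rw [mul_one]

end Quot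

section Main

variable {G : Type*} [Group G] (Γ : Subgroup G) {k : Type*} [Field k]

/-- **Euler characteristic bound**, valid over every field. -/
theorem finrank_add_orbits_le [Fintype (G ⧸ Γ)] {S T : G} (hgen : Subgroup.closure {S, T} = ⊤)
    {Bad : G → Prop} (hconj : ∀ g h, Bad g → Bad (h⁻¹ * g * h))
    (PH : Submodule k (Γ → k)) (hadd : ∀ φ ∈ PH, IsAdd Γ φ)
    (hPH : ∀ φ ∈ PH, ∀ γ : Γ, Bad γ → φ γ = 0)
    (bS : ∀ n : ℕ, Bad (S ^ n)) (bR : ∀ n : ℕ, Bad ((S * T) ^ n)) (bT : ∀ n : ℕ, Bad (T ^ n)) :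
    Module.Finite k PH ∧ finrank k PH + Nat.card (Orb (G ⧸ Γ) S) + Nat.card (Orb (G ⧸ Γ) (S * T))
      + Nat.card (Orb (G ⧸ Γ) T) ≤ Fintype.card (G ⧸ Γ) + 2 := by
  have hgen' : Subgroup.closure {S, S * T} = ⊤ := by
    rw [eq_top_iff, ← hgen, Subgroup.closure_le]
    have h1 : S ∈ Subgroup.closure {S, S * T} := Subgroup.subset_closure (by simp)
    have h2 : S * T ∈ Subgroup.closure {S, S * T} := Subgroup.subset_closure (by simp)
    rintro g (hg | hg)
    · rw [hg]; exact h1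
    · rw [Set.mem_singleton_iff.1 hg]
      have := Subgroup.mul_mem _ (Subgroup.inv_mem _ h1) h2
      rwa [inv_mul_cancel_left] at this
  set A : Submodule k (G ⧸ Γ → k) := W k S with hA
  set B : Submodule k (G ⧸ Γ → k) := W k (S * T) with hB
  set K : Submodule k (G ⧸ Γ → k) := W k T with hK
  set E := evSR Γ PH S (S * T) with hE
  -- the kernel
  have hker : LinearMap.ker E ≤ Submodule.span k {((0 : PH), (fun _ => 1 : G ⧸ Γ → k))} := by
    intro p hp
    rw [LinearMap.mem_ker, hE, evSR_apply, Prod.mk_eq_zero] at hp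
    have h0 := (isCoc_yc Γ (hadd _ p.1.2) p.2).eq_zero hgen' hp.1 hp.2
    obtain ⟨h1, h2⟩ := eq_zero_of_yc_eq_zero Γ (hadd _ p.1.2) h0
    rw [Submodule.mem_span_singleton]
    refine ⟨p.2 ((1 : G) : G ⧸ Γ), ?_⟩
    refine Prod.ext ?_ ?_
    · apply Subtype.ext
      simp [h1]
    · funext x
      simp [h2 x]
  -- the range
  have hrange : LinearMap.range E ≤ pairSpace A B K := by
    rintro _ ⟨p, rfl⟩
    have hφ := hPH p.1 p.1.2
    have ha := hadd p.1 p.1.2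
    have hy := isCoc_yc Γ ha p.2
    rw [hE, evSR_apply, mem_pairSpace]
    refine ⟨yc_mem_W Γ hconj ha hφ _ bS, yc_mem_W Γ hconj ha hφ _ bR, ?_⟩
    show yc Γ (p.1 : Γ → k) p.2 (S * T) - yc Γ (p.1 : Γ → k) p.2 S ∈ K
    rw [hy S T, add_sub_right_comm]
    exact K.add_mem (pb_sub_mem_W _ _) (yc_mem_W Γ hconj ha hφ _ bT)
  -- finiteness
  have hfin : Module.Finite k PH := by
    let E1 : PH →ₗ[k] ((G ⧸ Γ → k) × (G ⧸ Γ → k)) := E ∘ₗ LinearMap.inl k _ _
    refine Module.Finite.of_injective E1 ?_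
    rw [← LinearMap.ker_eq_bot, LinearMap.ker_eq_bot']
    intro φ hφ
    have h1 : ((φ, 0) : PH × (G ⧸ Γ → k)) ∈ LinearMap.ker E := hφ
    obtain ⟨c, hc⟩ := Submodule.mem_span_singleton.1 (hker h1)
    have := congrArg Prod.fst hc
    simpa using this.symm
  refine ⟨hfin, ?_⟩
  have h1 := LinearMap.finrank_range_add_finrank_ker E
  rw [Module.finrank_prod, Module.finrank_fintype_fun_eq_card] at h1
  have h2 := Submodule.finrank_mono hrange
  have h3 : finrank k (LinearMap.ker E) ≤ 1 := by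
    refine (Submodule.finrank_mono hker).trans ((finrank_span_le_card _).trans ?_)
    simp
  have h4 := finrank_pairSpace_le A B K
  have h5 : Fintype.card (G ⧸ Γ) ≤ finrank k (A ⊔ B : Submodule k (G ⧸ Γ → k)) + 1 :=
    card_le_finrank_sup_add_one (k := k) (((1 : G) : G ⧸ Γ)) hgen'
  have h6 : finrank k A + _ = _ := finrank_W_add_card (k := k) (X := G ⧸ Γ) S
  have h7 : finrank k B + _ = _ := finrank_W_add_card (k := k) (X := G ⧸ Γ) (S * T)
  have h8 : finrank k K + _ = _ := finrank_W_add_card (k := k) (X := G ⧸ Γ) T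
  omega

end Main

end FA16.Lift
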