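import Mathlib
import Fermat.Agent.ES.CohBound
import Fermat.Agent.Eis.LiftGrp

/-!
# `dim_k Hom_{par,ell}(Γ₀(N), k) ≤ 2 g(X₀(N))` for every field `k`
-/

set_option autoImplicit false

open scoped MatrixGroups
open Module CongruenceSubgroup ModularGroup

namespace FA16.Lift

section Orbits

variable {G : Type} [Group G] {X : Type} [MulAction G X] [Fintype X]

omit [Fintype X] in
lemma sum_range_mul_eq_zero {g : G} {m : ℕ} {x : X} (hx : g ^ m • x = x) (c : X → ℂ)
    (h : ∑ i ∈ Finset.range m, c (g ^ i • x) = 0) (t : ℕ) :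
    ∑ i ∈ Finset.range (m * t), c (g ^ i • x) = 0 := by
  induction t with
  | zero => simp
  | succ t ih =>
    rw [Nat.mul_succ, Finset.sum_range_add, ih, zero_add, ← h]
    refine Finset.sum_congr rfl fun i _ => ?_
    have h1 : g ^ (m * t) • x = x := by
      rw [pow_mul]
      clear ih
      induction t with
      | zero => simp
      | succ t ih => rw [pow_succ, mul_smul, hx, ih]
    rw [add_comm, pow_add, mul_smul, h1]

lemma W_le_ker_gs (g : G) {n : ℕ} (h : ∀ x : X, g ^ n • x = x) :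
    (W ℂ g : Submodule ℂ (X → ℂ)) ≤ LinearMap.ker (FAES.gs g n : Module.End ℂ (X → ℂ)) := by
  intro c hc
  rw [LinearMap.mem_ker]
  funext x
  have h1 : orbSum ℂ g c (orbMk g x) = 0 := by
    rw [W, LinearMap.mem_ker] at hc
    rw [hc]; rfl
  rw [orbSum_orbMk] at h1
  obtain ⟨t, ht⟩ := MulAction.pow_smul_eq_iff_minimalPeriod_dvd.1 (h x)
  have h2 := sum_range_mul_eq_zero (MulAction.pow_smul_eq_iff_minimalPeriod_dvd.2 dvd_rfl) c h1 t
  rw [← ht] at h2
  rw [FAES.gs, LinearMap.sum_apply, Finset.sum_apply, Pi.zero_apply, ← h2]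
  refine Finset.sum_congr rfl fun i _ => ?_
  rw [← FAES.pb_pow, FAES.pb_apply]

lemma card_add_fixed_le_two {g : G} (h : ∀ x : X, g ^ 2 • x = x) :
    Fintype.card X + Nat.card (MulAction.fixedBy X g) ≤ 2 * Nat.card (Orb X g) := by
  have h1 := FAES.finrank_ker_gs_two h
  have h2 := Submodule.finrank_mono (W_le_ker_gs g h)
  have h3 := finrank_W_add_card (k := ℂ) (X := X) g
  omega

lemma card_add_fixed_le_three {g : G} (h : ∀ x : X, g ^ 3 • x = x) :
    Fintype.card X + 2 * Nat.card (MulAction.fixedBy X g) ≤ 3 * Nat.card (Orb X g) := by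
  have h1 := FAES.finrank_ker_gs_three h
  have h2 := Submodule.finrank_mono (W_le_ker_gs g h)
  have h3 := finrank_W_add_card (k := ℂ) (X := X) g
  omega

end Orbits

/-- parabolic or of order dividing `12` -/
def Bad (g : SL(2, ℤ)) : Prop := FAES.Par g ∨ g ^ 12 = 1

lemma bad_conj (g h : SL(2, ℤ)) (hg : Bad g) : Bad (h⁻¹ * g * h) := by
  rcases hg with hg | hg
  · exact Or.inl (FAES.par_conj g h hg)
  · right
    have : h⁻¹ * g * h = h⁻¹ * g * h⁻¹⁻¹ := by rw [inv_inv]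
    rw [this, conj_pow, hg]
    simp

lemma bad_S_pow (n : ℕ) : Bad (S ^ n) := by
  right
  rw [← pow_mul, mul_comm, pow_mul, show 12 = 2 * 6 from rfl, pow_mul, FAES.S_sq_eq,
    Even.neg_one_pow (by decide), one_pow]

lemma bad_ST_pow (n : ℕ) : Bad ((S * T) ^ n) := by
  right
  rw [← pow_mul, mul_comm, pow_mul, show 12 = 3 * 4 from rfl, pow_mul, FAES.ST_cube_eq,
    Even.neg_one_pow (by decide), one_pow]

lemma bad_T_pow (n : ℕ) : Bad (T ^ n) := Or.inl (FAES.par_T_pow n)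

/-- the bound by twice the genus, over an arbitrary field -/
theorem finite_and_finrank_le (N : ℕ) [NeZero N] {k : Type*} [Field k]
    (PH : Submodule k (Gamma0 N → k)) (hadd : ∀ φ ∈ PH, IsAdd (Gamma0 N) φ)
    (hPH : ∀ φ ∈ PH, ∀ γ : Gamma0 N, Bad γ → φ γ = 0) :
    Module.Finite k PH ∧ (finrank k PH : ℚ) ≤ 2 * ModularCurve.genusFormula N := by
  classical
  have : Fintype (SL(2, ℤ) ⧸ Gamma0 N) := Fintype.ofFinite _
  have hS : ∀ x : SL(2, ℤ) ⧸ Gamma0 N, (S : SL(2, ℤ)) ^ 2 • x = x := by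
    intro x; rw [FAES.S_sq_eq, FAES.neg_one_smul_coset]
  have hR : ∀ x : SL(2, ℤ) ⧸ Gamma0 N, (S * T : SL(2, ℤ)) ^ 3 • x = x := by
    intro x; rw [FAES.ST_cube_eq, FAES.neg_one_smul_coset]
  have hgen : Subgroup.closure {S, T} = (⊤ : Subgroup SL(2, ℤ)) :=
    SpecialLinearGroup.SL2Z_generators
  obtain ⟨hfin, h1⟩ := finrank_add_orbits_le (Gamma0 N) hgen bad_conj PH hadd hPH
    bad_S_pow bad_ST_pow bad_T_pow
  refine ⟨hfin, ?_⟩
  have h4 := card_add_fixed_le_two hS
  have h5 := card_add_fixed_le_three hR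
  rw [FAGenus.card_fixedBy_S] at h4
  rw [FAGenus.card_fixedBy_ST] at h5
  have h6 : Nat.card (Orb (SL(2, ℤ) ⧸ Gamma0 N) T) = ModularCurve.cuspCount N :=
    FAGenus.card_orbits_T N
  have h7 : Fintype.card (SL(2, ℤ) ⧸ Gamma0 N) = ModularCurve.dedekindPsi N := by
    rw [← Nat.card_eq_fintype_card, FAGenus.card_coset]
  rw [h7] at h1 h4 h5
  rw [h6] at h1
  unfold ModularCurve.genusFormula
  have h1' := (Nat.cast_le (α := ℚ)).2 h1
  have h4' := (Nat.cast_le (α := ℚ)).2 h4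
  have h5' := (Nat.cast_le (α := ℚ)).2 h5
  push_cast at h1' h4' h5'
  linarith

end FA16.Lift
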