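import Mathlib
import Fermat.Agent.S20
import Fermat.Agent.S21
import Fermat.Agent.Eis.LiftNum

/-!
# Lifting parabolic homomorphisms `Γ₀(N) → ℤ/M` to `ℤ`
-/

set_option autoImplicit false

open scoped MatrixGroups
open Module CongruenceSubgroup ModularGroup ModularCurve ModularCurve.Period

namespace FA16.Lift

section General

variable {G : Type*} [Group G] {Γ : Subgroup G} {k : Type*} [CommRing k]

lemma IsAdd.pow {φ : Γ → k} (h : IsAdd Γ φ) (a : Γ) (n : ℕ) : φ (a ^ n) = n * φ a := by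
  induction n with
  | zero => simp [h.one]
  | succ n ih => rw [pow_succ, h, ih]; push_cast; ring

lemma IsAdd.eq_zero_of_closure {φ : Γ → k} (h : IsAdd Γ φ) {s : Set Γ}
    (hs : Subgroup.closure s = ⊤) (h0 : ∀ x ∈ s, φ x = 0) : φ = 0 := by
  funext γ
  have hγ : γ ∈ Subgroup.closure s := hs ▸ Subgroup.mem_top γ
  induction hγ using Subgroup.closure_induction with
  | mem x hx => exact h0 x hx
  | one => exact h.one
  | mul x y _ _ hx hy => rw [h, hx, hy]; simp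
  | inv x _ hx => rw [h.inv, hx]; simp

end General

variable (N : ℕ) [NeZero N]

instance fg_SL2Z : Group.FG SL(2, ℤ) :=
  Group.fg_iff.2 ⟨{S, T}, SpecialLinearGroup.SL2Z_generators, by simp⟩

instance fg_Gamma0 : Group.FG (Gamma0 N) := Subgroup.fg_of_index_ne_zero _

/-- the integral parabolic homomorphisms -/
def HZ : Submodule ℤ (Gamma0 N → ℤ) where
  carrier := {ψ | IsAdd (Gamma0 N) ψ ∧ ∀ γ : Gamma0 N, FAES.Par γ → ψ γ = 0}
  zero_mem' := ⟨fun _ _ => by simp, fun _ _ => rfl⟩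
  add_mem' := by
    rintro a b ⟨ha, ha'⟩ ⟨hb, hb'⟩
    refine ⟨fun x y => ?_, fun γ hγ => ?_⟩
    · simp only [Pi.add_apply, ha x y, hb x y]; ring
    · simp only [Pi.add_apply, ha' γ hγ, hb' γ hγ, add_zero]
  smul_mem' := by
    rintro c a ⟨ha, ha'⟩
    refine ⟨fun x y => ?_, fun γ hγ => ?_⟩
    · simp only [Pi.smul_apply, ha x y, smul_add]
    · simp only [Pi.smul_apply, ha' γ hγ, smul_zero]

variable {N}

omit [NeZero N] in
lemma HZ_bad {ψ : Gamma0 N → ℤ} (hψ : ψ ∈ HZ N) {γ : Gamma0 N} (hγ : Bad γ) : ψ γ = 0 := by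
  rcases hγ with hγ | hγ
  · exact hψ.2 γ hγ
  · have h1 : γ ^ 12 = 1 := Subtype.ext hγ
    have h2 := hψ.1.pow γ 12
    rw [h1, hψ.1.one] at h2
    exact (mul_eq_zero.1 h2.symm).resolve_left (by norm_num)

variable (N)

instance finite_HZ : Module.Finite ℤ (HZ N) := by
  obtain ⟨s, hs⟩ := (Group.fg_def.1 (fg_Gamma0 N))
  let res : HZ N →ₗ[ℤ] (s → ℤ) :=
    { toFun := fun ψ x => ψ.1 x.1
      map_add' := fun _ _ => rfl
      map_smul' := fun _ _ => rfl }
  refine Module.Finite.of_injective res ?_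
  rw [← LinearMap.ker_eq_bot, LinearMap.ker_eq_bot']
  intro ψ hψ
  apply Subtype.ext
  exact ψ.2.1.eq_zero_of_closure hs fun x hx => congrFun hψ ⟨x, hx⟩

instance free_HZ : Module.Free ℤ (HZ N) := Module.free_of_finite_type_torsion_free'

/-- an integral parabolic homomorphism as a complex one -/
def toC (ψ : HZ N) : Additive (Gamma0 N) →+ ℂ where
  toFun γ := (ψ.1 (Additive.toMul γ) : ℂ)
  map_zero' := by
    show ((ψ.1 1 : ℤ) : ℂ) = 0
    rw [ψ.2.1.one]; simp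
  map_add' a b := by
    show ((ψ.1 (Additive.toMul a * Additive.toMul b) : ℤ) : ℂ) = _
    rw [ψ.2.1]; push_cast; rfl

omit [NeZero N] in
lemma toC_apply (ψ : HZ N) (γ : Additive (Gamma0 N)) :
    toC N ψ γ = (ψ.1 (Additive.toMul γ) : ℂ) := rfl

omit [NeZero N] in
lemma toC_sum {ι : Type*} (s : Finset ι) (a : ι → ℤ) (f : ι → HZ N) :
    toC N (∑ i ∈ s, a i • f i) = ∑ i ∈ s, (a i : ℂ) • toC N (f i) := by
  refine AddMonoidHom.ext fun γ => ?_
  rw [toC_apply, AddMonoidHom.finsetSum_apply]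
  simp only [AddMonoidHom.smul_apply, toC_apply, smul_eq_mul]
  rw [Submodule.coe_sum, Finset.sum_apply]
  push_cast
  refine Finset.sum_congr rfl fun i _ => ?_
  rw [Pi.smul_apply, smul_eq_mul]
  push_cast
  rfl

/-- every complex parabolic homomorphism is a complex combination of integral ones -/
lemma parabolicHoms_le_span :
    parabolicHoms ℂ (Gamma0 N) ℂ ≤ Submodule.span ℂ (Set.range (toC N)) := by
  intro ψ hψ
  -- the group of periods
  let Q : AddSubgroup ℂ := ψ.range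
  have : AddGroup.FG (Additive (Gamma0 N)) := GroupFG.iff_add_fg.1 (fg_Gamma0 N)
  have hQ : AddGroup.FG Q := AddGroup.fg_range ψ
  have : Module.Finite ℤ Q := Module.Finite.iff_addGroup_fg.2 hQ
  have : Module.Free ℤ Q := Module.free_of_finite_type_torsion_free'
  let ω := Module.finBasis ℤ Q
  let ψ' : Additive (Gamma0 N) →+ Q := ψ.rangeRestrict
  have hmem : ∀ j, (fun γ : Gamma0 N => ω.repr (ψ' (Additive.ofMul γ)) j) ∈ HZ N := by
    intro j
    refine ⟨fun a b => ?_, fun γ hγ => ?_⟩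
    · show ω.repr (ψ' (Additive.ofMul (a * b))) j = _
      rw [ofMul_mul, map_add, map_add]
      rfl
    · have h0 : ψ' (Additive.ofMul γ) = 0 := Subtype.ext (hψ γ hγ)
      show ω.repr (ψ' (Additive.ofMul γ)) j = 0
      rw [h0, map_zero]
      rfl
  have key : ψ = ∑ j, ((ω j : Q) : ℂ) • toC N ⟨_, hmem j⟩ := by
    refine AddMonoidHom.ext fun γ => ?_
    rw [AddMonoidHom.finsetSum_apply]
    have h1 := ω.sum_repr (ψ' γ)
    have h2 := congrArg (fun q : Q => (q : ℂ)) h1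
    simp only [AddSubmonoidClass.coe_finsetSum] at h2
    have h3 : ((ψ' γ : Q) : ℂ) = ψ γ := rfl
    rw [← h3, ← h2]
    refine Finset.sum_congr rfl fun j _ => ?_
    rw [AddMonoidHom.smul_apply, toC_apply, smul_eq_mul]
    show ((ω.repr (ψ' γ) j • ω j : Q) : ℂ) = _
    rw [AddSubgroup.coe_zsmul, zsmul_eq_mul, mul_comm]
    rfl
  rw [key]
  exact Submodule.sum_mem _ fun j _ => Submodule.smul_mem _ _ (Submodule.subset_span ⟨_, rfl⟩)

lemma span_range_toC_le :
    Submodule.span ℂ (Set.range (toC N)) ≤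
      Submodule.span ℂ (Set.range fun i => toC N (Module.finBasis ℤ (HZ N) i)) := by
  rw [Submodule.span_le]
  rintro _ ⟨ψ, rfl⟩
  have h1 := (Module.finBasis ℤ (HZ N)).sum_repr ψ
  rw [← h1, toC_sum]
  exact Submodule.sum_mem _ fun j _ => Submodule.smul_mem _ _ (Submodule.subset_span ⟨_, rfl⟩)

lemma finrank_parabolicHoms_le_finrank_HZ :
    finrank ℂ (parabolicHoms ℂ (Gamma0 N) ℂ) ≤ finrank ℤ (HZ N) := by
  have h1 := (parabolicHoms_le_span N).trans (span_range_toC_le N)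
  have : Module.Finite ℂ (Submodule.span ℂ
      (Set.range fun i => toC N (Module.finBasis ℤ (HZ N) i))) :=
    Module.Finite.span_of_finite ℂ (Set.finite_range _)
  have h2 := Submodule.finrank_mono h1
  have h3 := finrank_range_le_card (R := ℂ) fun i => toC N (Module.finBasis ℤ (HZ N) i)
  rw [Fintype.card_fin] at h3
  exact h2.trans h3

lemma finrank_parabolicHoms_eq :
    (finrank ℂ (parabolicHoms ℂ (Gamma0 N) ℂ) : ℚ) = 2 * genusFormula N := by
  obtain ⟨hinj, hrange⟩ := Fermat.Agent.S21.result N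
  have h20 := Fermat.Agent.S20.result N
  have hfin := FAES.finite_parabolicHoms N
  have h1 := FAES.finrank_cuspForm_le N hfin
  have h2 := FAES.finrank_parabolicHoms_le N
  rw [← h20] at h2 ⊢
  have h3 : finrank ℂ (parabolicHoms ℂ (Gamma0 N) ℂ) ≤ 2 * finrank ℂ (CuspForm (Gamma0 N) 2) := by
    exact_mod_cast h2
  have h4 : finrank ℂ (parabolicHoms ℂ (Gamma0 N) ℂ) = 2 * finrank ℂ (CuspForm (Gamma0 N) 2) :=
    le_antisymm h3 h1
  rw [h4]; push_cast; ring

/-! ### reduction modulo a prime -/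

omit [NeZero N] in
lemma exists_eq_smul_of_dvd {ψ : Gamma0 N → ℤ} (hψ : ψ ∈ HZ N) {m : ℤ} (hm : m ≠ 0)
    (h : ∀ γ, m ∣ ψ γ) : ∃ ψ' ∈ HZ N, ψ = m • ψ' := by
  choose ψ' hψ' using h
  refine ⟨ψ', ⟨fun a b => ?_, fun γ hγ => ?_⟩, funext fun γ => ?_⟩
  · apply mul_left_cancel₀ hm
    rw [mul_add, ← hψ', ← hψ', ← hψ', hψ.1]
  · apply mul_left_cancel₀ hm
    rw [← hψ', hψ.2 γ hγ, mul_zero]
  · rw [hψ', Pi.smul_apply, smul_eq_mul]

/-- the homomorphisms to `ℤ/ℓ` killing the parabolic and the elliptic elements -/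
def HL (ℓ : ℕ) : Submodule (ZMod ℓ) (Gamma0 N → ZMod ℓ) where
  carrier := {φ | IsAdd (Gamma0 N) φ ∧ ∀ γ : Gamma0 N, Bad γ → φ γ = 0}
  zero_mem' := ⟨fun _ _ => by simp, fun _ _ => rfl⟩
  add_mem' := by
    rintro a b ⟨ha, ha'⟩ ⟨hb, hb'⟩
    refine ⟨fun x y => ?_, fun γ hγ => ?_⟩
    · simp only [Pi.add_apply, ha x y, hb x y]; ring
    · simp only [Pi.add_apply, ha' γ hγ, hb' γ hγ, add_zero]
  smul_mem' := by
    rintro c a ⟨ha, ha'⟩
    refine ⟨fun x y => ?_, fun γ hγ => ?_⟩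
    · simp only [Pi.smul_apply, ha x y, smul_add]
    · simp only [Pi.smul_apply, ha' γ hγ, smul_zero]

/-- reduction modulo `ℓ` -/
def red (ℓ : ℕ) (ψ : HZ N) : HL N ℓ :=
  ⟨fun γ => (ψ.1 γ : ZMod ℓ), fun a b => by
      show ((ψ.1 (a * b) : ℤ) : ZMod ℓ) = (ψ.1 a : ZMod ℓ) + (ψ.1 b : ZMod ℓ)
      rw [ψ.2.1]; push_cast; rfl,
    fun γ hγ => by
      show ((ψ.1 γ : ℤ) : ZMod ℓ) = 0
      rw [HZ_bad ψ.2 hγ]; simp⟩

omit [NeZero N] in
lemma red_apply (ℓ : ℕ) (ψ : HZ N) (γ : Gamma0 N) : (red N ℓ ψ).1 γ = (ψ.1 γ : ZMod ℓ) := rfl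

omit [NeZero N] in
lemma red_sum (ℓ : ℕ) {ι : Type*} (s : Finset ι) (a : ι → ℤ) (f : ι → HZ N) :
    red N ℓ (∑ i ∈ s, a i • f i) = ∑ i ∈ s, (a i : ZMod ℓ) • red N ℓ (f i) := by
  apply Subtype.ext
  funext γ
  rw [red_apply, Submodule.coe_sum, Submodule.coe_sum, Finset.sum_apply, Finset.sum_apply]
  push_cast
  refine Finset.sum_congr rfl fun i _ => ?_
  rw [Pi.smul_apply, smul_eq_mul, Pi.smul_apply, smul_eq_mul, red_apply]
  push_cast
  rfl

lemma linearIndependent_red (ℓ : ℕ) [Fact ℓ.Prime] :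
    LinearIndependent (ZMod ℓ) fun i => red N ℓ (Module.finBasis ℤ (HZ N) i) := by
  rw [Fintype.linearIndependent_iff]
  intro g hg i
  set b := Module.finBasis ℤ (HZ N) with hb
  have hℓ : (ℓ : ℤ) ≠ 0 := by exact_mod_cast (Fact.out : ℓ.Prime).ne_zero
  let a : Fin (finrank ℤ (HZ N)) → ℤ := fun i => ((g i).val : ℤ)
  have ha : ∀ i, ((a i : ℤ) : ZMod ℓ) = g i := fun i => by simp [a]
  have h1 : red N ℓ (∑ i, a i • b i) = 0 := by
    rw [red_sum, ← hg]
    simp only [ha]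
  have h2 : ∀ γ, (ℓ : ℤ) ∣ (∑ i, a i • b i : HZ N).1 γ := by
    intro γ
    rw [← ZMod.intCast_zmod_eq_zero_iff_dvd, ← red_apply, h1]
    rfl
  obtain ⟨ψ', hψ', h3⟩ := exists_eq_smul_of_dvd N (∑ i, a i • b i : HZ N).2 hℓ h2
  have h4 : (∑ i, a i • b i : HZ N) = (ℓ : ℤ) • (⟨ψ', hψ'⟩ : HZ N) := Subtype.ext h3
  have h5 := congrArg (fun x => b.repr x i) h4
  simp only [b.repr_sum_self, map_smul, Finsupp.smul_apply, smul_eq_mul] at h5
  rw [← ha i, ZMod.intCast_zmod_eq_zero_iff_dvd, h5]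
  exact dvd_mul_right _ _

lemma red_surjective (ℓ : ℕ) [Fact ℓ.Prime] : Function.Surjective (red N ℓ) := by
  have hli := linearIndependent_red N ℓ
  obtain ⟨hfin, h1⟩ := finite_and_finrank_le N (HL N ℓ) (fun φ hφ => hφ.1) (fun φ hφ => hφ.2)
  have h2 := hli.fintype_card_le_finrank
  rw [← finrank_parabolicHoms_eq] at h1
  have h3 : finrank (ZMod ℓ) (HL N ℓ) ≤ finrank ℂ (parabolicHoms ℂ (Gamma0 N) ℂ) := by
    exact_mod_cast h1
  have h4 := finrank_parabolicHoms_le_finrank_HZ N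
  have hcard : Fintype.card (Fin (finrank ℤ (HZ N))) = finrank (ZMod ℓ) (HL N ℓ) := by
    rw [Fintype.card_fin] at h2 ⊢
    omega
  have hspan := hli.span_eq_top_of_card_eq_finrank' hcard
  intro c
  have hc : c ∈ Submodule.span (ZMod ℓ)
      (Set.range fun i => red N ℓ (Module.finBasis ℤ (HZ N) i)) := hspan ▸ Submodule.mem_top
  obtain ⟨g, hg⟩ := (Submodule.mem_span_range_iff_exists_fun _).1 hc
  refine ⟨∑ i, ((g i).val : ℤ) • Module.finBasis ℤ (HZ N) i, ?_⟩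
  rw [red_sum, ← hg]
  simp

/-! ### lifting modulo an arbitrary integer -/

/-- integer valued functions which are parabolic homomorphisms modulo `M` -/
def QH (M : ℕ) (f : Gamma0 N → ℤ) : Prop :=
  (∀ a b, (M : ℤ) ∣ f (a * b) - f a - f b) ∧ ∀ γ : Gamma0 N, Bad γ → (M : ℤ) ∣ f γ

theorem exists_HZ_of_QH (M : ℕ) (hM : 0 < M) (f : Gamma0 N → ℤ) (hf : QH N M f) :
    ∃ ψ ∈ HZ N, ∀ γ, (M : ℤ) ∣ f γ - ψ γ := by
  induction M using Nat.strong_induction_on generalizing f with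
  | _ M ih =>
    rcases Nat.lt_or_ge 1 M with h1 | h1
    · -- a prime factor
      have hp : M.minFac.Prime := Nat.minFac_prime (by omega)
      have : Fact M.minFac.Prime := ⟨hp⟩
      set ℓ := M.minFac with hℓ
      obtain ⟨M', hM'⟩ : ℓ ∣ M := Nat.minFac_dvd M
      have hℓ0 : (ℓ : ℤ) ≠ 0 := by exact_mod_cast hp.ne_zero
      have hM'pos : 0 < M' := by
        rcases Nat.eq_zero_or_pos M' with h | h
        · subst h; omega
        · exact h
      have hM'lt : M' < M := by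
        rw [hM']
        exact lt_mul_of_one_lt_left hM'pos hp.one_lt
      have hdvd : (ℓ : ℤ) ∣ (M : ℤ) := by exact_mod_cast Nat.minFac_dvd M
      -- reduce modulo ℓ
      let c : HL N ℓ := ⟨fun γ => (f γ : ZMod ℓ), fun a b => by
          have := (ZMod.intCast_zmod_eq_zero_iff_dvd _ ℓ).2 (hdvd.trans (hf.1 a b))
          push_cast at this
          linear_combination this,
        fun γ hγ => (ZMod.intCast_zmod_eq_zero_iff_dvd _ ℓ).2 (hdvd.trans (hf.2 γ hγ))⟩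
      obtain ⟨ψ₁, hψ₁⟩ := red_surjective N ℓ c
      have h2 : ∀ γ, (ℓ : ℤ) ∣ f γ - ψ₁.1 γ := by
        intro γ
        rw [← ZMod.intCast_zmod_eq_zero_iff_dvd]
        push_cast
        rw [← red_apply, hψ₁, sub_self]
      choose f' hf' using h2
      have hMM : (M : ℤ) = ℓ * M' := by exact_mod_cast hM'
      have hQ : QH N M' f' := by
        refine ⟨fun a b => ?_, fun γ hγ => ?_⟩
        · apply (mul_dvd_mul_iff_left hℓ0).1
          have h5 : (ℓ : ℤ) * (f' (a * b) - f' a - f' b) = f (a * b) - f a - f b := by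
            rw [mul_sub, mul_sub, ← hf', ← hf', ← hf', ψ₁.2.1]
            ring
          rw [← hMM, h5]
          exact hf.1 a b
        · apply (mul_dvd_mul_iff_left hℓ0).1
          rw [← hMM, ← hf', HZ_bad ψ₁.2 hγ, sub_zero]
          exact hf.2 γ hγ
      obtain ⟨ψ', hψ', h3⟩ := ih M' hM'lt hM'pos f' hQ
      refine ⟨ψ₁.1 + (ℓ : ℤ) • ψ', (HZ N).add_mem ψ₁.2 ((HZ N).smul_mem _ hψ'), fun γ => ?_⟩
      have h4 : f γ - (ψ₁.1 + (ℓ : ℤ) • ψ') γ = ℓ * (f' γ - ψ' γ) := by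
        rw [mul_sub, ← hf', Pi.add_apply, Pi.smul_apply, smul_eq_mul]
        ring
      rw [h4, hMM]
      exact mul_dvd_mul_left _ (h3 γ)
    · have : M = 1 := by omega
      subst this
      exact ⟨0, (HZ N).zero_mem, fun γ => by simp⟩

end FA16.Lift

namespace FA16

open FA16.Lift

/-- **LIFT**: a homomorphism `Γ₀(N) → ℤ/M` killing the parabolic elements and the elements of order
dividing `12` is the reduction of a parabolic homomorphism `Γ₀(N) → ℤ`. -/
theorem lift (N : ℕ) [NeZero N] (M : ℕ) [NeZero M]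
    (c : Additive (Gamma0 N) →+ ZMod M) (hpar : IsParabolicHom (Gamma0 N) c)
    (hfin : ∀ γ : Gamma0 N, γ ^ 12 = 1 → c (Additive.ofMul γ) = 0) :
    ∃ c' : Additive (Gamma0 N) →+ ℤ, IsParabolicHom (Gamma0 N) c' ∧
      ∀ γ, ((c' γ : ℤ) : ZMod M) = c γ := by
  let f : Gamma0 N → ℤ := fun γ => ((c (Additive.ofMul γ)).val : ℤ)
  have hfc : ∀ γ, ((f γ : ℤ) : ZMod M) = c (Additive.ofMul γ) := fun γ => by simp [f]
  have hQ : QH N M f := by
    refine ⟨fun a b => ?_, fun γ hγ => ?_⟩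
    · rw [← ZMod.intCast_zmod_eq_zero_iff_dvd]
      push_cast
      rw [hfc, hfc, hfc, ofMul_mul, map_add]
      ring
    · rw [← ZMod.intCast_zmod_eq_zero_iff_dvd, hfc]
      rcases hγ with hγ | hγ
      · exact hpar γ hγ
      · exact hfin γ (Subtype.ext hγ)
  obtain ⟨ψ, hψ, h1⟩ := exists_HZ_of_QH N M (Nat.pos_of_ne_zero (NeZero.ne M)) f hQ
  refine ⟨{ toFun := fun γ => ψ (Additive.toMul γ)
            map_zero' := hψ.1.one
            map_add' := fun a b => hψ.1 _ _ }, fun γ hγ => hψ.2 γ hγ, fun γ => ?_⟩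
  have h2 := (ZMod.intCast_zmod_eq_zero_iff_dvd _ M).2 (h1 (Additive.toMul γ))
  push_cast at h2
  rw [hfc, sub_eq_zero] at h2
  exact h2.symm

/-- variant of `lift` -/
theorem exists_lift (N : ℕ) [NeZero N] (M : ℕ) [NeZero M]
    (c : Additive (Gamma0 N) →+ ZMod M) (hpar : IsParabolicHom (Gamma0 N) c)
    (hfin : ∀ γ : Gamma0 N, IsOfFinOrder γ → c (Additive.ofMul γ) = 0) :
    ∃ c' : Additive (Gamma0 N) →+ ℤ, IsParabolicHom (Gamma0 N) c' ∧
      ∀ γ, ((c' γ : ℤ) : ZMod M) = c γ :=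
  lift N M c hpar fun γ hγ => hfin γ (isOfFinOrder_iff_pow_eq_one.2 ⟨12, by norm_num, hγ⟩)

end FA16
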