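import Fermat.Agent.Eis.LowerBound
import Fermat.Agent.Eis.Lift

set_option autoImplicit false

open CongruenceSubgroup
open ModularCurve ModularCurve.Period

namespace FA16

lemma eisensteinNumerator_ne_zero (p : ℕ) [Fact p.Prime] : eisensteinNumerator p ≠ 0 := by
  intro h
  have h1 := eisensteinNumerator_dvd p
  rw [h, zero_dvd_iff] at h1
  have := (Fact.out : p.Prime).one_lt
  omega

/-- **S16, lower bound**: a Hecke polynomial acting as zero on `S₂(Γ₀(p))` has Eisenstein value
divisible by the numerator of `(p-1)/12`. -/
theorem lowerBound (p : ℕ) [Fact p.Prime] (P : HeckeAlg) (hP : CuspForm.heckeEvalForms p 2 P = 0) :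
    ((eisensteinNumerator p : ℕ) : ℤ) ∣ MvPolynomial.aeval (eisensteinSystem p) P := by
  have : NeZero (eisensteinNumerator p) := ⟨eisensteinNumerator_ne_zero p⟩
  exact lowerBound_of_lift p
    (lift p (eisensteinNumerator p) (shim p) (shim_parabolic p) (shim_eq_zero_of_pow p)) P hP

end FA16
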