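import Mathlib

/-! Power series over `ℂ` that are integral for a valuation, and their order modulo the
maximal ideal. -/

namespace FA16

variable {Γ₀ : Type*} [LinearOrderedCommGroupWithZero Γ₀] (v : Valuation ℂ Γ₀)

/-- all coefficients are `v`-integral -/
def VInt (A : PowerSeries ℂ) : Prop := ∀ n, v (A.coeff n) ≤ 1

/-- all coefficients are in the maximal ideal -/
def VSmall (A : PowerSeries ℂ) : Prop := ∀ n, v (A.coeff n) < 1

/-- integral, and the order modulo the maximal ideal is exactly `a` -/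
structure VOrd (A : PowerSeries ℂ) (a : ℕ) : Prop where
  int : VInt v A
  lt : ∀ n < a, v (A.coeff n) < 1
  eq : v (A.coeff a) = 1

variable {v}

lemma mul_lt_one_left {x y : Γ₀} (hx : x < 1) (hy : y ≤ 1) : x * y < 1 :=
  (mul_le_mul_right hy x).trans_lt (by simpa using hx)

lemma mul_lt_one_right {x y : Γ₀} (hx : x ≤ 1) (hy : y < 1) : x * y < 1 := by
  rw [mul_comm]; exact mul_lt_one_left hy hx

namespace VInt

variable {A B : PowerSeries ℂ}

lemma add (hA : VInt v A) (hB : VInt v B) : VInt v (A + B) := fun n => by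
  rw [map_add]; exact v.map_add_le (hA n) (hB n)

lemma neg (hA : VInt v A) : VInt v (-A) := fun n => by
  rw [map_neg, Valuation.map_neg]; exact hA n

lemma sub (hA : VInt v A) (hB : VInt v B) : VInt v (A - B) := by
  rw [sub_eq_add_neg]; exact hA.add hB.neg

lemma mul (hA : VInt v A) (hB : VInt v B) : VInt v (A * B) := fun n => by
  rw [PowerSeries.coeff_mul]
  refine v.map_sum_le fun p _ => ?_
  rw [map_mul]
  exact mul_le_one' (hA _) (hB _)

lemma one : VInt v 1 := fun n => by
  rw [PowerSeries.coeff_one]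
  split_ifs <;> simp

lemma zero : VInt v 0 := fun n => by simp

lemma C {c : ℂ} (hc : v c ≤ 1) : VInt v (PowerSeries.C c) := fun n => by
  rw [PowerSeries.coeff_C]
  split_ifs
  · exact hc
  · simp

lemma pow (hA : VInt v A) (n : ℕ) : VInt v (A ^ n) := by
  induction n with
  | zero => simpa using one
  | succ n ih => rw [pow_succ]; exact ih.mul hA

lemma smul {c : ℂ} (hc : v c ≤ 1) (hA : VInt v A) : VInt v (c • A) := fun n => by
  rw [PowerSeries.coeff_smul, smul_eq_mul, map_mul]
  exact mul_le_one' hc (hA n)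

lemma expand (hA : VInt v A) (M : ℕ) (hM : M ≠ 0) : VInt v (PowerSeries.expand M hM A) := fun n => by
  rw [PowerSeries.coeff_expand]
  split_ifs
  · exact hA _
  · simp

lemma rescale (hA : VInt v A) {z : ℂ} (hz : v z ≤ 1) : VInt v (PowerSeries.rescale z A) :=
  fun n => by
    rw [PowerSeries.coeff_rescale, map_mul, map_pow]
    exact mul_le_one' (pow_le_one' hz n) (hA n)

lemma map_int (hZ : ∀ z : ℤ, v (z : ℂ) ≤ 1) (P : PowerSeries ℤ) :
    VInt v (PowerSeries.map (Int.castRingHom ℂ) P) := fun n => by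
  rw [PowerSeries.coeff_map]
  exact hZ _

end VInt

namespace VSmall

variable {A B : PowerSeries ℂ}

lemma add (hA : VSmall v A) (hB : VSmall v B) : VSmall v (A + B) := fun n => by
  rw [map_add]; exact v.map_add_lt (hA n) (hB n)

lemma smul {c : ℂ} (hc : v c < 1) (hA : VInt v A) : VSmall v (c • A) := fun n => by
  rw [PowerSeries.coeff_smul, smul_eq_mul, map_mul]
  exact mul_lt_one_left hc (hA n)

lemma mul_left (hA : VSmall v A) (hB : VInt v B) : VSmall v (A * B) := fun n => by
  rw [PowerSeries.coeff_mul]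
  refine v.map_sum_lt one_ne_zero fun p _ => ?_
  rw [map_mul]
  exact mul_lt_one_left (hA _) (hB _)

end VSmall

namespace VOrd

variable {A B : PowerSeries ℂ} {a b : ℕ}

lemma mul (hA : VOrd v A a) (hB : VOrd v B b) : VOrd v (A * B) (a + b) := by
  refine ⟨hA.int.mul hB.int, ?_, ?_⟩
  · intro n hn
    rw [PowerSeries.coeff_mul]
    refine v.map_sum_lt one_ne_zero fun p hp => ?_
    rw [Finset.HasAntidiagonal.mem_antidiagonal] at hp
    rw [map_mul]
    by_cases h : p.1 < a
    · exact mul_lt_one_left (hA.lt _ h) (hB.int _)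
    · exact mul_lt_one_right (hA.int _) (hB.lt _ (by omega))
  · rw [PowerSeries.coeff_mul,
      ← Finset.add_sum_erase _ _ (Finset.HasAntidiagonal.mem_antidiagonal.mpr rfl : (a, b) ∈ Finset.HasAntidiagonal.antidiagonal (a + b))]
    have h1 : v (A.coeff a * B.coeff b) = 1 := by rw [map_mul, hA.eq, hB.eq, one_mul]
    have h2 : v (∑ p ∈ (Finset.HasAntidiagonal.antidiagonal (a + b)).erase (a, b), A.coeff p.1 * B.coeff p.2) < 1 := by
      refine v.map_sum_lt one_ne_zero fun p hp => ?_
      rw [Finset.mem_erase, Finset.HasAntidiagonal.mem_antidiagonal] at hp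
      rw [map_mul]
      by_cases h : p.1 < a
      · exact mul_lt_one_left (hA.lt _ h) (hB.int _)
      · refine mul_lt_one_right (hA.int _) (hB.lt _ ?_)
        have : p.1 ≠ a := by
          intro h3
          apply hp.1
          ext
          · exact h3
          · simp only; omega
        omega
    rw [v.map_add_eq_of_lt_left (by rw [h1]; exact h2), h1]

lemma one : VOrd v 1 0 := ⟨VInt.one, fun n hn => absurd hn (Nat.not_lt_zero n), by simp⟩

lemma prod {ι : Type*} (s : Finset ι) (A : ι → PowerSeries ℂ) (a : ι → ℕ)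
    (h : ∀ i ∈ s, VOrd v (A i) (a i)) : VOrd v (∏ i ∈ s, A i) (∑ i ∈ s, a i) := by
  classical
  induction s using Finset.induction_on with
  | empty => simpa using one
  | insert i t hi ih =>
    rw [Finset.prod_insert hi, Finset.sum_insert hi]
    exact (h i (Finset.mem_insert_self _ _)).mul (ih fun j hj => h j (Finset.mem_insert_of_mem hj))

/-- adding something small does not change the order -/
lemma add_small (hA : VOrd v A a) (hB : VSmall v B) : VOrd v (A + B) a := by
  refine ⟨hA.int.add (fun n => (hB n).le), fun n hn => ?_, ?_⟩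
  · rw [map_add]; exact v.map_add_lt (hA.lt n hn) (hB n)
  · rw [map_add, v.map_add_eq_of_lt_left (by rw [hA.eq]; exact hB a), hA.eq]

lemma not_small (hA : VOrd v A a) : ¬ VSmall v A := fun h => (h a).ne hA.eq

end VOrd

/-- valuations on `ℂ` extending the `l`-adic one -/
structure IsLVal (l : ℕ) (v : Valuation ℂ Γ₀) : Prop where
  int : ∀ z : ℤ, v (z : ℂ) ≤ 1
  lt : v (l : ℂ) < 1

theorem exists_isLVal (l : ℕ) (hl : l.Prime) :
    ∃ V : ValuationSubring ℂ, IsLVal l V.valuation := by
  have hx : ((l : ℂ)⁻¹) ∉ (integralClosure ℤ ℂ).toSubring := by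
    intro h
    have h1 : IsIntegral ℤ ((l : ℂ)⁻¹) := h
    have h2 : IsIntegral ℤ (((l : ℚ)⁻¹ : ℚ)) := by
      have : ((l : ℂ)⁻¹) = algebraMap ℚ ℂ ((l : ℚ)⁻¹) := by simp
      rw [this] at h1
      exact (isIntegral_algebraMap_iff (algebraMap ℚ ℂ).injective).mp h1
    obtain ⟨z, hz⟩ := IsIntegrallyClosed.isIntegral_iff.mp h2
    have hl0 : (l : ℚ) ≠ 0 := by exact_mod_cast hl.ne_zero
    have h3 : (z : ℚ) * l = 1 := by
      have : (z : ℚ) = (l : ℚ)⁻¹ := by simpa using hz
      rw [this]; field_simp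
    have h4 : z * (l : ℤ) = 1 := by exact_mod_cast h3
    have h5 : IsUnit (l : ℤ) := IsUnit.of_mul_eq_one _ (by rw [mul_comm]; exact h4)
    exact (Nat.prime_iff_prime_int.mp hl).not_isUnit h5
  have : IsIntegrallyClosedIn (integralClosure ℤ ℂ).toSubring ℂ :=
    inferInstanceAs (IsIntegrallyClosedIn (integralClosure ℤ ℂ) ℂ)
  obtain ⟨V, -, hV⟩ := Subring.exists_le_valuationSubring_of_isIntegrallyClosedIn hx
  refine ⟨V, fun z => (V.valuation_le_one_iff _).mpr (intCast_mem V z), ?_⟩
  have h1 : ¬ V.valuation ((l : ℂ)⁻¹) ≤ 1 := fun h => hV ((V.valuation_le_one_iff _).mp h)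
  rw [not_le, map_inv₀] at h1
  have hl0 : V.valuation (l : ℂ) ≠ 0 := by
    rw [Valuation.ne_zero_iff]; exact_mod_cast hl.ne_zero
  exact (one_lt_inv₀ (zero_lt_iff.mpr hl0)).mp h1

namespace IsLVal

variable {l : ℕ}

lemma nat (h : IsLVal l v) (n : ℕ) : v (n : ℂ) ≤ 1 := by
  have := h.int n
  simpa using this

lemma unit (h : IsLVal l v) (hl : l.Prime) {z : ℤ} (hz : ¬ (l : ℤ) ∣ z) : v (z : ℂ) = 1 := by
  refine le_antisymm (h.int z) (not_lt.mp fun hlt => ?_)
  have hcop : IsCoprime (l : ℤ) z := (Nat.prime_iff_prime_int.mp hl).coprime_iff_not_dvd.mpr hz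
  obtain ⟨a, b, hab⟩ := hcop
  have h1 : (a : ℂ) * l + b * z = 1 := by exact_mod_cast hab
  have h2 : v ((a : ℂ) * l + b * z) < 1 := by
    refine v.map_add_lt ?_ ?_
    · rw [map_mul]; exact mul_lt_one_right (h.int a) h.lt
    · rw [map_mul]; exact mul_lt_one_right (h.int b) hlt
  rw [h1, map_one] at h2
  exact lt_irrefl _ h2

lemma unit_nat (h : IsLVal l v) (hl : l.Prime) {n : ℕ} (hn : ¬ l ∣ n) : v (n : ℂ) = 1 := by
  have := h.unit hl (z := n) (by exact_mod_cast hn)
  simpa using this

lemma small_of_dvd (h : IsLVal l v) {z : ℤ} (hz : (l : ℤ) ∣ z) : v (z : ℂ) < 1 := by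
  obtain ⟨c, rfl⟩ := hz
  push_cast
  rw [map_mul]
  exact mul_lt_one_left h.lt (h.int c)

end IsLVal

lemma val_eq_one_of_pow_eq_one {z : ℂ} {d : ℕ} (hd : d ≠ 0) (hz : z ^ d = 1) : v z = 1 := by
  have h1 : v z ^ d = 1 := by rw [← map_pow, hz, map_one]
  exact (pow_eq_one_iff.mp h1).resolve_right hd

end FA16
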