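import Fermat.Agent.Eis.Transfer
import Fermat.Prelude.Def_ModularCurve_ModularUnit

set_option autoImplicit false

open UpperHalfPlane hiding I
open CongruenceSubgroup Matrix.SpecialLinearGroup
open scoped MatrixGroups ModularForm OnePoint
open ModularCurve ModularCurve.Period
open P2MW.S_ModularForm_heckeT_slash_eq_self_of_mem_Gamma0.ModularForm.HeckeSlashInvariance

noncomputable section

namespace FA16

section log

variable (N : ℕ) [Fact N.Prime]

lemma natCard_units : Nat.card (ZMod N)ˣ = N - 1 := by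
  rw [Nat.card_eq_fintype_card, ZMod.card_units]

/-- a discrete logarithm `(ℤ/N)ˣ → ℤ/n`, `n ∣ N - 1` -/
def logU {n : ℕ} (hn : n ∣ N - 1) : Additive (ZMod N)ˣ →+ ZMod n :=
  (ZMod.castHom (show n ∣ Nat.card (ZMod N)ˣ by rw [natCard_units]; exact hn)
    (ZMod n)).toAddMonoidHom.comp
    (MonoidHom.toAdditiveLeft (zmodCyclicMulEquiv (G := (ZMod N)ˣ) inferInstance).symm.toMonoidHom)

lemma logU_surjective {n : ℕ} (hn : n ∣ N - 1) : Function.Surjective (logU N hn) := by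
  intro a
  obtain ⟨b, hb⟩ := ZMod.castHom_surjective
    (show n ∣ Nat.card (ZMod N)ˣ by rw [natCard_units]; exact hn) a
  refine ⟨Additive.ofMul (zmodCyclicMulEquiv (G := (ZMod N)ˣ) inferInstance
    (Multiplicative.ofAdd b)), ?_⟩
  simp [logU, hb]

lemma logU_eq_zero {n : ℕ} (hn : n ∣ N - 1) (h12 : ∀ a : ℕ, N - 1 ∣ 12 * a → n ∣ a)
    (u : (ZMod N)ˣ) (hu : u ^ 12 = 1) : logU N hn (Additive.ofMul u) = 0 := by
  have : NeZero (Nat.card (ZMod N)ˣ) := ⟨Nat.card_pos.ne'⟩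
  set e := (zmodCyclicMulEquiv (G := (ZMod N)ˣ) inferInstance).symm with he
  set a : ZMod (Nat.card (ZMod N)ˣ) := Multiplicative.toAdd (e u) with ha
  have h1 : (12 : ℕ) • a = 0 := by
    have := congrArg (fun v => Multiplicative.toAdd (e v)) hu
    simpa [map_pow] using this
  have h2 : Nat.card (ZMod N)ˣ ∣ 12 * a.val := by
    rw [← ZMod.natCast_eq_zero_iff]
    push_cast
    rw [ZMod.natCast_zmod_val]
    simpa using h1
  have h3 := h12 _ ((natCard_units N) ▸ h2 : N - 1 ∣ 12 * a.val)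
  show (ZMod.castHom (show n ∣ Nat.card (ZMod N)ˣ by rw [natCard_units]; exact hn) (ZMod n)) a = 0
  rw [ZMod.castHom_apply, ZMod.cast_eq_val, ZMod.natCast_eq_zero_iff]
  exact h3

end log

section dU

variable (N : ℕ)

/-- the lower right entry as a homomorphism to `(ℤ/N)ˣ` -/
def dU : Gamma0 N →* (ZMod N)ˣ := (Gamma0Map N).toHomUnits

lemma coe_dU (γ : Gamma0 N) : ((dU N γ : (ZMod N)ˣ) : ZMod N) = (((γ : SL(2, ℤ)) 1 1 : ℤ) : ZMod N) :=
  rfl

lemma exists_dU_eq [NeZero N] (u : (ZMod N)ˣ) : ∃ γ : Gamma0 N, dU N γ = u := by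
  have hc : IsCoprime ((u : ZMod N).val : ℤ) (N : ℤ) := by
    rw [Nat.isCoprime_iff_coprime]
    exact ZMod.val_coe_unit_coprime u
  obtain ⟨a, b, hab⟩ := hc
  have hdet : (!![a, -b; (N : ℤ), ((u : ZMod N).val : ℤ)]).det = 1 := by
    rw [Matrix.det_fin_two_of]
    linear_combination hab
  let g : SL(2, ℤ) := ⟨!![a, -b; (N : ℤ), ((u : ZMod N).val : ℤ)], hdet⟩
  have hg : g ∈ Gamma0 N := by
    rw [Gamma0_mem]
    simp [g]
  refine ⟨⟨g, hg⟩, ?_⟩
  apply Units.ext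
  rw [coe_dU]
  simp [g]

end dU

section entriesT

variable {N : ℕ} {p : ℕ} [Fact p.Prime] (hpN : ¬ p ∣ N)

variable (p) in
/-- lower right entry of `heckeRep` -/
def wT (x : OnePoint (ZMod p)) : ℕ := x.elim 1 (fun _ => p)

lemma heckeRep_entries (x : OnePoint (ZMod p)) :
    (heckeRep p x) 1 0 = 0 ∧ (heckeRep p x) 1 1 = (wT p x : ℝ) ∧
      ∃ b : ℤ, (heckeRep p x) 0 1 = (b : ℝ) := by
  have hp : p ≠ 0 := (Fact.out : p.Prime).ne_zero
  induction x using OnePoint.rec with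
  | infty =>
    refine ⟨?_, ?_, 0, ?_⟩ <;> simp [heckeRep_infty, ModularForm.val_heckeDiagMatrix hp, wT]
  | coe j =>
    refine ⟨?_, ?_, j.val, ?_⟩ <;> simp [heckeRep_coe, ModularForm.val_heckeMatrix hp, wT]

lemma gT_entry (γ : Gamma0 N) (x : OnePoint (ZMod p)) :
    ((wT p x : ℕ) : ZMod N) * (((γ : SL(2, ℤ)) 1 1 : ℤ) : ZMod N) =
      (((gT hpN γ x : SL(2, ℤ)) 1 1 : ℤ) : ZMod N) *
        ((wT p (redMatrix p (γ : SL(2, ℤ)) • x) : ℕ) : ZMod N) := by
  have h := gT_spec hpN γ x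
  set y := redMatrix p (γ : SL(2, ℤ)) • x with hy
  obtain ⟨hx0, hx1, -⟩ := heckeRep_entries (p := p) x
  obtain ⟨-, hy1, b, hyb⟩ := heckeRep_entries (p := p) y
  have h11 := congrArg (fun M : GL (Fin 2) ℝ => (M : Matrix (Fin 2) (Fin 2) ℝ) 1 1) h
  simp only [Matrix.GeneralLinearGroup.coe_mul, Matrix.mul_apply, Fin.sum_univ_two] at h11
  rw [hx0, hx1, hy1, hyb, mapGL_apply, mapGL_apply, mapGL_apply, mapGL_apply] at h11
  have h2 : (wT p x : ℤ) * (γ : SL(2, ℤ)) 1 1 =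
      (gT hpN γ x : SL(2, ℤ)) 1 0 * b + (gT hpN γ x : SL(2, ℤ)) 1 1 * (wT p y : ℤ) := by
    have : ((wT p x : ℤ) : ℝ) * (((γ : SL(2, ℤ)) 1 1 : ℤ) : ℝ) =
        (((gT hpN γ x : SL(2, ℤ)) 1 0 : ℤ) : ℝ) * (b : ℝ) +
          (((gT hpN γ x : SL(2, ℤ)) 1 1 : ℤ) : ℝ) * ((wT p y : ℤ) : ℝ) := by
      push_cast
      linarith
    exact_mod_cast this
  have h3 := congrArg (Int.cast : ℤ → ZMod N) h2
  push_cast at h3
  rw [Gamma0_mem.mp (gT hpN γ x).2, zero_mul, zero_add] at h3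
  exact h3

include hpN in
lemma wT_coprime (x : OnePoint (ZMod p)) : (wT p x).Coprime N := by
  induction x using OnePoint.rec with
  | infty => simp [wT]
  | coe j => exact (Nat.Prime.coprime_iff_not_dvd (Fact.out : p.Prime)).mpr hpN

lemma dU_gT (γ : Gamma0 N) (x : OnePoint (ZMod p)) :
    ZMod.unitOfCoprime _ (wT_coprime hpN x) * dU N γ =
      dU N (gT hpN γ x) * ZMod.unitOfCoprime _ (wT_coprime hpN (redMatrix p (γ : SL(2, ℤ)) • x)) := by
  apply Units.ext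
  simp only [Units.val_mul, ZMod.coe_unitOfCoprime, coe_dU]
  exact gT_entry hpN γ x

/-- Every character of `Γ₀(N)` factoring through `d` is an eigenvector of `τ_p` with eigenvalue
`1 + p`. -/
theorem trfT_comp_dU {A : Type*} [AddCommGroup A] (L : Additive (ZMod N)ˣ →+ A) (γ : Gamma0 N) :
    trfT hpN (fun γ => L (Additive.ofMul (dU N γ))) γ = (1 + p) • L (Additive.ofMul (dU N γ)) := by
  have h1 : ∀ x : OnePoint (ZMod p), L (Additive.ofMul (dU N (gT hpN γ x))) =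
      L (Additive.ofMul (dU N γ)) + (L (Additive.ofMul (ZMod.unitOfCoprime _ (wT_coprime hpN x))) -
        L (Additive.ofMul
          (ZMod.unitOfCoprime _ (wT_coprime hpN (redMatrix p (γ : SL(2, ℤ)) • x))))) := by
    intro x
    have := congrArg (fun u => L (Additive.ofMul u)) (dU_gT hpN γ x)
    simp only [ofMul_mul, map_add] at this
    rw [eq_comm, ← sub_eq_zero]
    rw [← sub_eq_zero] at this
    rw [← this]
    abel
  have h2 : ∑ x : OnePoint (ZMod p), L (Additive.ofMul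
      (ZMod.unitOfCoprime _ (wT_coprime hpN (redMatrix p (γ : SL(2, ℤ)) • x)))) =
      ∑ x : OnePoint (ZMod p), L (Additive.ofMul (ZMod.unitOfCoprime _ (wT_coprime hpN x))) :=
    Equiv.sum_comp (MulAction.toPerm (redMatrix p (γ : SL(2, ℤ))))
      (fun x => L (Additive.ofMul (ZMod.unitOfCoprime _ (wT_coprime hpN x))))
  unfold trfT
  rw [Finset.sum_congr rfl fun x _ => h1 x, Finset.sum_add_distrib, Finset.sum_sub_distrib, h2,
    sub_self, add_zero, Finset.sum_const, Finset.card_univ]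
  congr 1
  show Fintype.card (Option (ZMod p)) = 1 + p
  rw [Fintype.card_option, ZMod.card, add_comm]

end entriesT

section entriesU

variable {N : ℕ} {p : ℕ} [NeZero p] (hpN : p ∣ N)

lemma dU_gU (γ : Gamma0 N) (x : ZMod p) : dU N (gU hpN γ x) = dU N γ := by
  have hp : p ≠ 0 := NeZero.ne p
  have h := gU_spec hpN γ x
  have h00 := congrArg (fun M : GL (Fin 2) ℝ => (M : Matrix (Fin 2) (Fin 2) ℝ) 0 0) h
  simp only [Matrix.GeneralLinearGroup.coe_mul, Matrix.mul_apply, Fin.sum_univ_two,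
    ModularForm.val_heckeMatrix hp] at h00
  rw [mapGL_apply, mapGL_apply, mapGL_apply, mapGL_apply] at h00
  simp only [Matrix.of_apply, Matrix.cons_val_zero, Matrix.cons_val_one, Matrix.cons_val',
    Matrix.cons_val_fin_one, one_mul, mul_one, mul_zero, add_zero] at h00
  have h2 : (γ : SL(2, ℤ)) 0 0 + (x.val : ℤ) * (γ : SL(2, ℤ)) 1 0 = (gU hpN γ x : SL(2, ℤ)) 0 0 := by
    exact_mod_cast h00
  have h3 := congrArg (Int.cast : ℤ → ZMod N) h2
  push_cast at h3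
  rw [Gamma0_mem.mp γ.2, mul_zero, add_zero] at h3
  have h4 := unit_of_apply_one_zero_eq_zero (p := N) (γ : SL(2, ℤ)) (Gamma0_mem.mp γ.2)
  have h5 := unit_of_apply_one_zero_eq_zero (p := N) (gU hpN γ x : SL(2, ℤ))
    (Gamma0_mem.mp (gU hpN γ x).2)
  apply Units.ext
  rw [coe_dU, coe_dU]
  rw [← h3] at h5
  calc (((gU hpN γ x : SL(2, ℤ)) 1 1 : ℤ) : ZMod N)
      = ((((γ : SL(2, ℤ)) 0 0 : ℤ) : ZMod N) * (((γ : SL(2, ℤ)) 1 1 : ℤ) : ZMod N)) *
          (((gU hpN γ x : SL(2, ℤ)) 1 1 : ℤ) : ZMod N) := by rw [h4, one_mul]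
    _ = ((((γ : SL(2, ℤ)) 0 0 : ℤ) : ZMod N) * (((gU hpN γ x : SL(2, ℤ)) 1 1 : ℤ) : ZMod N)) *
          (((γ : SL(2, ℤ)) 1 1 : ℤ) : ZMod N) := by ring
    _ = _ := by rw [h5, one_mul]

theorem trfU_comp_dU {A : Type*} [AddCommGroup A] (L : Additive (ZMod N)ˣ →+ A) (γ : Gamma0 N) :
    trfU hpN (fun γ => L (Additive.ofMul (dU N γ))) γ = p • L (Additive.ofMul (dU N γ)) := by
  unfold trfU
  simp only [dU_gU]
  rw [Finset.sum_const, Finset.card_univ, ZMod.card]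

end entriesU

end FA16
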