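import Fermat.Agent.Eis.Periods
import Fermat.Agent.Eis.Shimura
import Fermat.Agent.S21
import Fermat.Prelude.Def_CuspForm_HeckeEvalForms

set_option autoImplicit false

open UpperHalfPlane hiding I
open CongruenceSubgroup Matrix.SpecialLinearGroup
open scoped MatrixGroups ModularForm OnePoint
open ModularCurve ModularCurve.Period

noncomputable section

namespace FA16

section key

variable (N : ℕ) [NeZero N]

/-- the endomorphism of `S₂(Γ₀(N))` attached to an abstract Hecke polynomial -/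
def evF (P : HeckeAlg) : Module.End ℂ (CuspForm (Gamma0 N) 2) :=
  (CuspForm.heckeEvalForms N 2 P : CuspForm.heckeAlgebra N 2 ∅).1

lemma evF_C (a : ℤ) (f : CuspForm (Gamma0 N) 2) : evF N (MvPolynomial.C a) f = a • f := by
  unfold evF
  rw [CuspForm.heckeEvalForms_C]
  simp

lemma evF_add (P Q : HeckeAlg) (f : CuspForm (Gamma0 N) 2) :
    evF N (P + Q) f = evF N P f + evF N Q f := by
  unfold evF
  rw [map_add]
  rfl

lemma evF_mul (P Q : HeckeAlg) (f : CuspForm (Gamma0 N) 2) :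
    evF N (P * Q) f = evF N P (evF N Q f) := by
  unfold evF
  rw [map_mul]
  rfl

lemma evF_X_of_dvd {q : Nat.Primes} (h : (q : ℕ) ∣ N) (f : CuspForm (Gamma0 N) 2) :
    evF N (MvPolynomial.X q) f = CuspForm.heckeULin 2 h f := by
  unfold evF
  have := CuspForm.heckeEvalForms_heckeGen_of_dvd (N := N) (k := 2) h
  rw [heckeGen] at this
  rw [this]
  rfl

lemma evF_X_of_not_dvd {q : Nat.Primes} (h : ¬ (q : ℕ) ∣ N) (f : CuspForm (Gamma0 N) 2) :
    evF N (MvPolynomial.X q) f = CuspForm.heckeTLin 2 q.2 h f := by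
  unfold evF
  have := CuspForm.heckeEvalForms_heckeGen_of_not_dvd (N := N) (k := 2) h
  rw [heckeGen] at this
  rw [this]
  rfl

/-- The inductive statement: integral parabolic classes congruent to a multiple of an Eisenstein
class `c` modulo `n`. -/
theorem lbKey {n : ℕ} (c : Gamma0 N → ZMod n)
    (hT : ∀ (q : Nat.Primes) (_hq : Fact (q : ℕ).Prime) (hqN : ¬ (q : ℕ) ∣ N) (γ : Gamma0 N),
      trfT hqN c γ = ((eisensteinSystem N q : ℤ) : ZMod n) * c γ)
    (hU : ∀ (q : Nat.Primes) (_hq : NeZero (q : ℕ)) (hqN : (q : ℕ) ∣ N) (γ : Gamma0 N),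
      trfU hqN c γ = ((eisensteinSystem N q : ℤ) : ZMod n) * c γ)
    (P : HeckeAlg) :
    ∀ (x : Gamma0 N → ℤ) (f g : CuspForm (Gamma0 N) 2) (k : ZMod n),
      (∀ γ, (x γ : ℂ) = periodHomPair N (f, g) (Additive.ofMul γ)) →
      (∀ γ, ((x γ : ℤ) : ZMod n) = k * c γ) →
      ∃ y : Gamma0 N → ℤ,
        (∀ γ, (y γ : ℂ) = periodHomPair N (evF N P f, evF N P g) (Additive.ofMul γ)) ∧
        ∀ γ, ((y γ : ℤ) : ZMod n) =
          ((MvPolynomial.aeval (eisensteinSystem N) P : ℤ) : ZMod n) * k * c γ := by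
  induction P using MvPolynomial.induction_on with
  | C a =>
    intro x f g k hx hk
    refine ⟨fun γ => a * x γ, fun γ => ?_, fun γ => ?_⟩
    · rw [evF_C, evF_C, ← Prod.smul_mk, map_zsmul, AddMonoidHom.smul_apply, ← hx γ]
      simp
    · push_cast
      rw [hk γ, MvPolynomial.aeval_C]
      simp [mul_assoc]
  | add P Q hP hQ =>
    intro x f g k hx hk
    obtain ⟨y1, h1, h1'⟩ := hP x f g k hx hk
    obtain ⟨y2, h2, h2'⟩ := hQ x f g k hx hk
    refine ⟨fun γ => y1 γ + y2 γ, fun γ => ?_, fun γ => ?_⟩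
    · rw [evF_add, evF_add, ← Prod.mk_add_mk, map_add, AddMonoidHom.add_apply, ← h1 γ, ← h2 γ]
      push_cast
      ring
    · push_cast
      rw [h1' γ, h2' γ, map_add]
      push_cast
      ring
  | mul_X P q hP =>
    intro x f g k hx hk
    by_cases hqN : (q : ℕ) ∣ N
    · have : NeZero (q : ℕ) := ⟨q.2.ne_zero⟩
      have hx' : ∀ γ, ((trfU hqN x γ : ℤ) : ℂ) = periodHomPair N
          (CuspForm.heckeULin 2 hqN f, CuspForm.heckeULin 2 hqN g) (Additive.ofMul γ) := by
        intro γ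
        rw [← trfU_periodHomPair hqN f g γ]
        unfold trfU
        rw [Int.cast_sum]
        exact Finset.sum_congr rfl fun z _ => hx _
      have hk' : ∀ γ, ((trfU hqN x γ : ℤ) : ZMod n) =
          (k * ((eisensteinSystem N q : ℤ) : ZMod n)) * c γ := by
        intro γ
        rw [mul_assoc, ← hU q this hqN γ]
        unfold trfU
        rw [Int.cast_sum, Finset.mul_sum]
        exact Finset.sum_congr rfl fun z _ => hk _
      obtain ⟨y, h1, h2⟩ := hP (trfU hqN x) (CuspForm.heckeULin 2 hqN f) (CuspForm.heckeULin 2 hqN g)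
        (k * ((eisensteinSystem N q : ℤ) : ZMod n)) hx' hk'
      refine ⟨y, fun γ => ?_, fun γ => ?_⟩
      · rw [evF_mul, evF_mul, evF_X_of_dvd N hqN, evF_X_of_dvd N hqN]
        exact h1 γ
      · rw [h2 γ, map_mul, MvPolynomial.aeval_X]
        push_cast
        ring
    · have : Fact (q : ℕ).Prime := ⟨q.2⟩
      have hx' : ∀ γ, ((trfT hqN x γ : ℤ) : ℂ) = periodHomPair N
          (CuspForm.heckeTLin 2 q.2 hqN f, CuspForm.heckeTLin 2 q.2 hqN g) (Additive.ofMul γ) := by
        intro γ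
        rw [← trfT_periodHomPair q.2 hqN f g γ]
        unfold trfT
        rw [Int.cast_sum]
        exact Finset.sum_congr rfl fun z _ => hx _
      have hk' : ∀ γ, ((trfT hqN x γ : ℤ) : ZMod n) =
          (k * ((eisensteinSystem N q : ℤ) : ZMod n)) * c γ := by
        intro γ
        rw [mul_assoc, ← hT q this hqN γ]
        unfold trfT
        rw [Int.cast_sum, Finset.mul_sum]
        exact Finset.sum_congr rfl fun z _ => hk _
      obtain ⟨y, h1, h2⟩ := hP (trfT hqN x) (CuspForm.heckeTLin 2 q.2 hqN f)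
        (CuspForm.heckeTLin 2 q.2 hqN g) (k * ((eisensteinSystem N q : ℤ) : ZMod n)) hx' hk'
      refine ⟨y, fun γ => ?_, fun γ => ?_⟩
      · rw [evF_mul, evF_mul, evF_X_of_not_dvd N hqN, evF_X_of_not_dvd N hqN]
        exact h1 γ
      · rw [h2 γ, map_mul, MvPolynomial.aeval_X]
        push_cast
        ring

end key

section shimura

variable (N : ℕ) [Fact N.Prime]

lemma numerator_dvd_of_dvd (a : ℕ) (h : N - 1 ∣ 12 * a) : eisensteinNumerator N ∣ a := by
  have hN : 0 < N - 1 := Nat.sub_pos_of_lt (Fact.out : N.Prime).one_lt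
  set g := Nat.gcd (N - 1) 12 with hg
  have hg0 : 0 < g := Nat.gcd_pos_of_pos_left _ hN
  have hcop : ((N - 1) / g).Coprime (12 / g) := Nat.coprime_div_gcd_div_gcd hg0
  have h1 : (N - 1) / g * g = N - 1 := Nat.div_mul_cancel (Nat.gcd_dvd_left _ _)
  have h2 : 12 / g * g = 12 := Nat.div_mul_cancel (Nat.gcd_dvd_right _ _)
  have h3 : (N - 1) / g * g ∣ (12 / g * a) * g := by
    rw [h1]
    calc N - 1 ∣ 12 * a := h
      _ = (12 / g * g) * a := by rw [h2]
      _ = (12 / g * a) * g := by ring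
  have h4 := Nat.dvd_of_mul_dvd_mul_right hg0 h3
  exact hcop.dvd_of_dvd_mul_left h4

/-- The **Shimura class**: `γ ↦ log d(γ)` in `ℤ/n`, `n` the Eisenstein numerator. -/
def shim : Additive (Gamma0 N) →+ ZMod (eisensteinNumerator N) :=
  (logU N (eisensteinNumerator_dvd N)).comp (MonoidHom.toAdditive (dU N))

lemma shim_apply (γ : Gamma0 N) :
    shim N (Additive.ofMul γ) = logU N (eisensteinNumerator_dvd N) (Additive.ofMul (dU N γ)) := rfl

lemma shim_eq_zero_of_pow (γ : Gamma0 N) (h : γ ^ 12 = 1) : shim N (Additive.ofMul γ) = 0 := by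
  rw [shim_apply]
  refine logU_eq_zero N _ (numerator_dvd_of_dvd N) _ ?_
  rw [← map_pow, h, map_one]

lemma shim_parabolic : IsParabolicHom (Gamma0 N) (shim N) := by
  intro γ hγ
  rw [shim_apply]
  refine logU_eq_zero N _ (numerator_dvd_of_dvd N) _ ?_
  have h1 := P2MW.S_ModularForm_heckeT_slash_eq_self_of_mem_Gamma0.ModularForm.HeckeSlashInvariance.unit_of_apply_one_zero_eq_zero
    (p := N) (γ : SL(2, ℤ)) (Gamma0_mem.mp γ.2)
  rw [Matrix.trace_fin_two] at hγ
  have h2 := congrArg (Int.cast : ℤ → ZMod N) hγ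
  push_cast at h2
  set a : ZMod N := (((γ : SL(2, ℤ)) 0 0 : ℤ) : ZMod N) with ha
  set d : ZMod N := (((γ : SL(2, ℤ)) 1 1 : ℤ) : ZMod N) with hd
  have h3 : (a - d) ^ 2 = 0 := by linear_combination h2 - 4 * h1
  have h4 : a = d := sub_eq_zero.mp (pow_eq_zero_iff (two_ne_zero)|>.mp h3)
  have h5 : d ^ 2 = 1 := by rw [← h1, h4]; ring
  have h6 : (dU N γ) ^ 2 = 1 := by
    apply Units.ext
    rw [Units.val_pow_eq_pow_val, coe_dU]
    exact h5
  calc (dU N γ) ^ 12 = ((dU N γ) ^ 2) ^ 6 := by rw [← pow_mul]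
    _ = 1 := by rw [h6, one_pow]

lemma exists_shim_eq_one : ∃ γ : Gamma0 N, shim N (Additive.ofMul γ) = 1 := by
  obtain ⟨u, hu⟩ := logU_surjective N (eisensteinNumerator_dvd N) 1
  obtain ⟨γ, hγ⟩ := exists_dU_eq N (Additive.toMul u)
  refine ⟨γ, ?_⟩
  rw [shim_apply, hγ]
  exact hu

lemma natCast_eq_one : ((N : ℕ) : ZMod (eisensteinNumerator N)) = 1 := by
  have hN : 1 ≤ N := (Fact.out : N.Prime).one_lt.le
  have h : ((N - 1 : ℕ) : ZMod (eisensteinNumerator N)) = 0 :=
    (ZMod.natCast_eq_zero_iff _ _).mpr (eisensteinNumerator_dvd N)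
  rw [Nat.cast_sub hN, Nat.cast_one, sub_eq_zero] at h
  exact h

/-- The lower bound, assuming the lifting statement for the Shimura class. -/
theorem lowerBound_of_lift
    (hlift : ∃ c' : Additive (Gamma0 N) →+ ℤ, IsParabolicHom (Gamma0 N) c' ∧
      ∀ γ, ((c' γ : ℤ) : ZMod (eisensteinNumerator N)) = shim N γ)
    (P : HeckeAlg) (hP : CuspForm.heckeEvalForms N 2 P = 0) :
    ((eisensteinNumerator N : ℕ) : ℤ) ∣ MvPolynomial.aeval (eisensteinSystem N) P := by
  obtain ⟨c', hpar, hc'⟩ := hlift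
  -- the complexification is a period class
  have hmem : (Int.castAddHom ℂ).comp c' ∈ parabolicHoms ℂ (Gamma0 N) ℂ := by
    rw [mem_parabolicHoms_iff]
    intro γ hγ
    show ((c' (Additive.ofMul γ) : ℤ) : ℂ) = 0
    rw [hpar γ hγ, Int.cast_zero]
  rw [← (Fermat.Agent.S21.result N).2] at hmem
  obtain ⟨⟨f, g⟩, hfg⟩ := hmem
  have hT : ∀ (q : Nat.Primes) (_hq : Fact (q : ℕ).Prime) (hqN : ¬ (q : ℕ) ∣ N) (γ : Gamma0 N),
      trfT hqN (fun γ => shim N (Additive.ofMul γ)) γ =
        ((eisensteinSystem N q : ℤ) : ZMod (eisensteinNumerator N)) * shim N (Additive.ofMul γ) := by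
    intro q _ hqN γ
    have := trfT_comp_dU hqN (logU N (eisensteinNumerator_dvd N)) γ
    rw [eisensteinSystem_of_not_dvd hqN]
    simp only [shim_apply]
    rw [this, nsmul_eq_mul]
    push_cast
    ring
  have hU : ∀ (q : Nat.Primes) (_hq : NeZero (q : ℕ)) (hqN : (q : ℕ) ∣ N) (γ : Gamma0 N),
      trfU hqN (fun γ => shim N (Additive.ofMul γ)) γ =
        ((eisensteinSystem N q : ℤ) : ZMod (eisensteinNumerator N)) * shim N (Additive.ofMul γ) := by
    intro q _ hqN γ
    have := trfU_comp_dU hqN (logU N (eisensteinNumerator_dvd N)) γ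
    have hq : (q : ℕ) = N := ((Nat.prime_dvd_prime_iff_eq q.2 Fact.out).mp hqN)
    rw [eisensteinSystem_of_dvd hqN]
    simp only [shim_apply]
    rw [this, nsmul_eq_mul, hq, natCast_eq_one]
    simp
  obtain ⟨y, h1, h2⟩ := lbKey N (fun γ => shim N (Additive.ofMul γ)) hT hU P
    (fun γ => c' (Additive.ofMul γ)) f g 1
    (fun γ => by rw [hfg]; rfl) (fun γ => by rw [hc', one_mul])
  have hev : evF N P = 0 := by
    unfold evF
    rw [hP]
    rfl
  obtain ⟨γ0, hγ0⟩ := exists_shim_eq_one N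
  have hy : y γ0 = 0 := by
    have := h1 γ0
    rw [hev] at this
    simp only [LinearMap.zero_apply] at this
    rw [show ((0 : CuspForm (Gamma0 N) 2), (0 : CuspForm (Gamma0 N) 2)) = 0 from rfl, map_zero,
      AddMonoidHom.zero_apply] at this
    exact_mod_cast this
  have h3 := h2 γ0
  rw [hy, hγ0, Int.cast_zero, mul_one, mul_one] at h3
  exact (ZMod.intCast_zmod_eq_zero_iff_dvd _ _).mp h3.symm

end shimura

end FA16
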