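import Fermat.Agent.Eis.Transfer

set_option autoImplicit false

open UpperHalfPlane hiding I
open Complex Filter Function Topology CongruenceSubgroup Matrix.SpecialLinearGroup
open scoped Manifold MatrixGroups ModularForm Pointwise ComplexConjugate OnePoint
open FAH3 FAES ModularCurve ModularCurve.Period
open P2MW.S_ModularForm_heckeT_slash_eq_self_of_mem_Gamma0.ModularForm.HeckeSlashInvariance

noncomputable section

namespace FA16

variable {N : ℕ} [NeZero N]

lemma chainOf_one (f : CuspForm (Gamma0 N) 2) : chainOf f 1 = prim f := by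
  apply eq_prim
  · have := (chainOf_zchain f).hd 0
    rwa [chainOf_zero] at this
  · exact (chainOf_zchain f).zero 1

lemma opT_prim {p : ℕ} [Fact p.Prime] (hp : p.Prime) (hpN : ¬ p ∣ N) (f : CuspForm (Gamma0 N) 2) :
    opT p (prim f) = prim (CuspForm.heckeTLin 2 hp hpN f) := by
  have h := congrFun (chainOf_heckeT hp hpN f) 1
  rw [chainOf_one, chainOf_one] at h
  rw [h]
  funext τ
  have hp0 : p ≠ 0 := hp.ne_zero
  have hp' : (p : ℂ) ≠ 0 := by exact_mod_cast hp0
  rw [opT_apply, Pi.smul_apply, ModularForm.heckeT_eq_heckeU_add, heckeU_eq_sum_zmod, Pi.add_apply,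
    Finset.sum_apply, ModularForm.slash_heckeDiagMatrix_apply _ hp0]
  simp only [ModularForm.slash_heckeMatrix_apply _ hp0]
  rw [← Finset.mul_sum]
  have e : (2 : ℤ) - 2 * ((1 : ℕ) : ℤ) - 1 = -1 := by norm_num
  rw [e, zpow_neg_one, pow_one, smul_eq_mul]
  field_simp
  ring

lemma opU_prim {p : ℕ} [NeZero p] (hpN : p ∣ N) (f : CuspForm (Gamma0 N) 2) :
    opU p (prim f) = prim (CuspForm.heckeULin 2 hpN f) := by
  have h := congrFun (chainOf_heckeU hpN f) 1
  rw [chainOf_one, chainOf_one] at h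
  rw [h]
  funext τ
  have hp0 : p ≠ 0 := NeZero.ne p
  have hp' : (p : ℂ) ≠ 0 := by exact_mod_cast hp0
  rw [Pi.smul_apply, heckeU_eq_sum_zmod, Finset.sum_apply]
  simp only [ModularForm.slash_heckeMatrix_apply _ hp0]
  rw [← Finset.mul_sum, pow_one, smul_eq_mul]
  unfold opU
  field_simp

/-- integer translation invariance -/
def Per1 (Φ : ℍ → ℂ) : Prop := ∀ w : ℍ, Φ ((1 : ℝ) +ᵥ w) = Φ w

lemma Per1.nat {Φ : ℍ → ℂ} (h : Per1 Φ) (m : ℕ) {w w' : ℍ} (e : (w' : ℂ) = w + m) : Φ w' = Φ w := by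
  induction m generalizing w' with
  | zero =>
    congr 1
    ext
    simpa using e
  | succ m ih =>
    have h1 : w' = (1 : ℝ) +ᵥ (((m : ℝ) +ᵥ w : ℍ)) := by
      ext
      rw [e]
      simp
      ring
    rw [h1, h, ih (w' := (m : ℝ) +ᵥ w)]
    simp [add_comm]

lemma per1_prim (f : CuspForm (Gamma0 N) 2) : Per1 (prim f) := by
  intro w
  have hT : (ModularGroup.T : SL(2, ℤ)) ∈ Gamma0 N := by
    rw [Gamma0_mem]
    simp [ModularGroup.T]
  have h1 := periodMap_apply f ⟨ModularGroup.T, hT⟩ w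
  have h2 := (mem_parabolicHoms_iff (R := ℂ)).mp (periodMap_mem_parabolicHoms f) ⟨ModularGroup.T, hT⟩
    (by simp [ModularGroup.T, Matrix.trace_fin_two])
  rw [h2] at h1
  rw [← UpperHalfPlane.modular_T_smul]
  exact (sub_eq_zero.mp h1.symm)

lemma refl_heckeDiag {p : ℕ} (hp : p ≠ 0) (τ : ℍ) :
    refl (ModularForm.heckeDiagMatrix p • τ) = ModularForm.heckeDiagMatrix p • refl τ := by
  ext
  rw [coe_refl, ModularForm.coe_heckeDiagMatrix_smul hp, ModularForm.coe_heckeDiagMatrix_smul hp,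
    coe_refl]
  simp

lemma Per1.refl_heckeMatrix {Φ : ℍ → ℂ} (h : Per1 Φ) {p : ℕ} [NeZero p] (j : ZMod p) (τ : ℍ) :
    Φ (ModularForm.heckeMatrix p (-j).val • refl τ) = Φ (refl (ModularForm.heckeMatrix p j.val • τ)) := by
  have hp : p ≠ 0 := NeZero.ne p
  have hp' : (p : ℂ) ≠ 0 := by exact_mod_cast hp
  by_cases hj : j = 0
  · subst hj
    refine h.nat 0 ?_
    rw [coe_refl, ModularForm.coe_heckeMatrix_smul hp, ModularForm.coe_heckeMatrix_smul hp, coe_refl]
    simp
    ring
  · refine h.nat 1 ?_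
    rw [coe_refl, ModularForm.coe_heckeMatrix_smul hp, ModularForm.coe_heckeMatrix_smul hp, coe_refl,
      ZMod.neg_val, if_neg hj, Nat.cast_sub j.val_le]
    generalize j.val = m
    simp only [map_div₀, map_add, Complex.conj_natCast, Nat.cast_one]
    field_simp
    ring

lemma opT_refl {Φ : ℍ → ℂ} (h : Per1 Φ) {p : ℕ} [Fact p.Prime] (τ : ℍ) :
    opT p (fun w => Φ (refl w)) τ = opT p Φ (refl τ) := by
  have hp : p ≠ 0 := (Fact.out : p.Prime).ne_zero
  rw [opT_apply, opT_apply, refl_heckeDiag hp]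
  congr 1
  rw [← Equiv.sum_comp (Equiv.neg (ZMod p)) (fun j => Φ (ModularForm.heckeMatrix p j.val • refl τ))]
  exact Finset.sum_congr rfl fun j _ => (h.refl_heckeMatrix j τ).symm

lemma opU_refl {Φ : ℍ → ℂ} (h : Per1 Φ) {p : ℕ} [NeZero p] (τ : ℍ) :
    opU p (fun w => Φ (refl w)) τ = opU p Φ (refl τ) := by
  unfold opU
  rw [← Equiv.sum_comp (Equiv.neg (ZMod p)) (fun j => Φ (ModularForm.heckeMatrix p j.val • refl τ))]
  exact Finset.sum_congr rfl fun j _ => (h.refl_heckeMatrix j τ).symm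

/-- the function on `ℍ` whose periods are `periodHomPair (f, g)` -/
def bigPhi (f g : CuspForm (Gamma0 N) 2) : ℍ → ℂ :=
  fun τ => (prim f τ + prim f (refl τ)) + (prim g τ - prim g (refl τ))

lemma isPer_bigPhi (f g : CuspForm (Gamma0 N) 2) :
    IsPer (bigPhi f g) (fun γ => periodHomPair N (f, g) (Additive.ofMul γ)) := by
  intro γ τ
  rw [periodHomPair_apply]
  simp only [AddMonoidHom.add_apply, AddMonoidHom.sub_apply, charInvolution_apply, toMul_ofMul]
  rw [periodMap_apply f γ τ, periodMap_apply g γ τ, periodMap_apply f _ (refl τ),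
    periodMap_apply g _ (refl τ), jConjGamma0_coe, ← refl_smul]
  unfold bigPhi
  ring

lemma opT_bigPhi {p : ℕ} [Fact p.Prime] (hp : p.Prime) (hpN : ¬ p ∣ N)
    (f g : CuspForm (Gamma0 N) 2) :
    opT p (bigPhi f g) = bigPhi (CuspForm.heckeTLin 2 hp hpN f) (CuspForm.heckeTLin 2 hp hpN g) := by
  funext τ
  have h1 : opT p (bigPhi f g) τ = (opT p (prim f) τ + opT p (fun w => prim f (refl w)) τ) +
      (opT p (prim g) τ - opT p (fun w => prim g (refl w)) τ) := by
    unfold opT bigPhi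
    simp only [Finset.sum_add_distrib, Finset.sum_sub_distrib]
  rw [h1, opT_refl (per1_prim f), opT_refl (per1_prim g), opT_prim hp hpN, opT_prim hp hpN]
  rfl

lemma opU_bigPhi {p : ℕ} [NeZero p] (hpN : p ∣ N) (f g : CuspForm (Gamma0 N) 2) :
    opU p (bigPhi f g) = bigPhi (CuspForm.heckeULin 2 hpN f) (CuspForm.heckeULin 2 hpN g) := by
  funext τ
  have h1 : opU p (bigPhi f g) τ = (opU p (prim f) τ + opU p (fun w => prim f (refl w)) τ) +
      (opU p (prim g) τ - opU p (fun w => prim g (refl w)) τ) := by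
    unfold opU bigPhi
    simp only [Finset.sum_add_distrib, Finset.sum_sub_distrib]
  rw [h1, opU_refl (per1_prim f), opU_refl (per1_prim g), opU_prim hpN, opU_prim hpN]
  rfl

/-- **Hecke compatibility of the period pair** (`T_p`). -/
theorem trfT_periodHomPair {p : ℕ} [Fact p.Prime] (hp : p.Prime) (hpN : ¬ p ∣ N)
    (f g : CuspForm (Gamma0 N) 2) (γ : Gamma0 N) :
    trfT hpN (fun γ => periodHomPair N (f, g) (Additive.ofMul γ)) γ =
      periodHomPair N (CuspForm.heckeTLin 2 hp hpN f, CuspForm.heckeTLin 2 hp hpN g)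
        (Additive.ofMul γ) := by
  have h1 := (isPer_bigPhi f g).opT hpN
  rw [opT_bigPhi hp hpN] at h1
  exact congrFun (h1.unique (isPer_bigPhi _ _)) γ

/-- **Hecke compatibility of the period pair** (`U_p`). -/
theorem trfU_periodHomPair {p : ℕ} [NeZero p] (hpN : p ∣ N)
    (f g : CuspForm (Gamma0 N) 2) (γ : Gamma0 N) :
    trfU hpN (fun γ => periodHomPair N (f, g) (Additive.ofMul γ)) γ =
      periodHomPair N (CuspForm.heckeULin 2 hpN f, CuspForm.heckeULin 2 hpN g)
        (Additive.ofMul γ) := by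
  have h1 := (isPer_bigPhi f g).opU hpN
  rw [opU_bigPhi hpN] at h1
  exact congrFun (h1.unique (isPer_bigPhi _ _)) γ

end FA16
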