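/-
S16, reduction package (abstract part): 
* `FA16.card_quot_of` : counting `T ⧸ φ(ker ε)`;
* `FA16.exists_dual` : a non degenerate pairing of f.g. free `ℤ`-modules has finite cokernel;
* `FA16.abstract_dual` : a ring hom `T → ℤ/m` is realised by a "form" `f ∈ L`.
-/
import Mathlib

set_option autoImplicit false

namespace FA16

/-- Counting lemma. -/
theorem card_quot_of {A T : Type*} [CommRing A] [CommRing T] (φ : A →+* T)
    (hφ : Function.Surjective φ) (ε : A →+* ℤ) (hε : Function.Surjective ε) (n : ℕ)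
    (LB : ∀ P, φ P = 0 → (n : ℤ) ∣ ε P) (UB : ∃ P, φ P = 0 ∧ ε P = n) :
    Nat.card (T ⧸ Ideal.map φ (RingHom.ker ε)) = n := by
  classical
  -- the character `χ : T → ZMod n`
  let ψ : A →+* ZMod n := (Int.castRingHom (ZMod n)).comp ε
  have hψ : ∀ a, φ a = 0 → ψ a = 0 := by
    intro a ha
    have := LB a ha
    simpa [ψ, ZMod.intCast_zmod_eq_zero_iff_dvd] using this
  let χ : T →+* ZMod n := RingHom.liftOfSurjective φ hφ ⟨ψ, fun a ha => hψ a ha⟩
  have hχ : ∀ a, χ (φ a) = ψ a := by
    intro a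
    exact RingHom.liftOfRightInverse_comp_apply φ _ _ ⟨ψ, fun a ha => hψ a ha⟩ a
  have hχs : Function.Surjective χ := by
    intro z
    obtain ⟨y, hy⟩ := ZMod.intCast_surjective z
    obtain ⟨a, ha⟩ := hε y
    exact ⟨φ a, by rw [hχ]; simp [ψ, ha, hy]⟩
  have hker : Ideal.map φ (RingHom.ker ε) = RingHom.ker χ := by
    apply le_antisymm
    · rw [Ideal.map_le_iff_le_comap]
      intro a ha
      rw [Ideal.mem_comap, RingHom.mem_ker, hχ]
      have : ε a = 0 := ha
      simp [ψ, this]
    · intro t ht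
      obtain ⟨a, rfl⟩ := hφ t
      rw [RingHom.mem_ker, hχ] at ht
      have h1 : (n : ℤ) ∣ ε a := by
        have : ((ε a : ℤ) : ZMod n) = 0 := by simpa [ψ] using ht
        exact (ZMod.intCast_zmod_eq_zero_iff_dvd _ _).1 this
      obtain ⟨c, hc⟩ := h1
      obtain ⟨P0, hP0, hP0'⟩ := UB
      obtain ⟨C, hC⟩ := hε c
      have h2 : φ a = φ (a - C * P0) := by
        rw [map_sub, map_mul, hP0, mul_zero, sub_zero]
      rw [h2]
      apply Ideal.mem_map_of_mem
      rw [RingHom.mem_ker, map_sub, map_mul, hP0', hC, hc]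
      ring
  rw [hker]
  rw [Nat.card_congr (RingHom.quotientKerEquivOfSurjective hχs).toEquiv, Nat.card_zmod]

/-- A pairing of f.g. free `ℤ`-modules which is non degenerate on both sides has
finite cokernel. -/
theorem exists_dual {T L : Type*} [AddCommGroup T] [AddCommGroup L]
    [Module.Free ℤ T] [Module.Finite ℤ T] [Module.Free ℤ L] [Module.Finite ℤ L]
    (B : T →ₗ[ℤ] L →ₗ[ℤ] ℤ) (h1 : Function.Injective B) (h2 : Function.Injective B.flip)
    (lam : T →ₗ[ℤ] ℤ) : ∃ D : ℤ, D ≠ 0 ∧ ∃ f, ∀ t, B t f = D * lam t := by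
  have e1 : Module.finrank ℤ (T →ₗ[ℤ] ℤ) = Module.finrank ℤ T := by
    rw [Module.finrank_linearMap]; simp
  have e2 : Module.finrank ℤ (L →ₗ[ℤ] ℤ) = Module.finrank ℤ L := by
    rw [Module.finrank_linearMap]; simp
  have l1 : Module.finrank ℤ T ≤ Module.finrank ℤ L := by
    rw [← e2]; exact LinearMap.finrank_le_finrank_of_injective h1
  have l2 : Module.finrank ℤ L ≤ Module.finrank ℤ T := by
    rw [← e1]; exact LinearMap.finrank_le_finrank_of_injective h2
  have e3 : Module.finrank ℤ (LinearMap.range B.flip) = Module.finrank ℤ (T →ₗ[ℤ] ℤ) := by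
    rw [LinearMap.finrank_range_of_inj h2, e1]; omega
  have e4 := Submodule.finrank_quotient_add_finrank (LinearMap.range B.flip)
  have e5 : Module.finrank ℤ ((T →ₗ[ℤ] ℤ) ⧸ LinearMap.range B.flip) = 0 := by omega
  rw [Module.finrank_eq_zero_iff_isTorsion] at e5
  obtain ⟨D, hD⟩ := @e5 (Submodule.Quotient.mk lam)
  have hD0 : (D : ℤ) ≠ 0 := nonZeroDivisors.coe_ne_zero D
  refine ⟨D, hD0, ?_⟩
  have h3 : (D : ℤ) • lam ∈ LinearMap.range B.flip := by
    rw [← Submodule.Quotient.mk_eq_zero, Submodule.Quotient.mk_smul]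
    exact hD
  obtain ⟨f, hf⟩ := h3
  refine ⟨f, fun t => ?_⟩
  have := LinearMap.congr_fun hf t
  simpa using this

section Abstract

variable {T L : Type*} [CommRing T] [AddCommGroup L]
  (act : T →+* Module.End ℤ L)
  (a : ℕ → L →ₗ[ℤ] ℤ) (τ : ℕ → T) (e : ℕ → ℤ)

/-- Key lemma: `a_k ∈ T · a_1`. -/
theorem key_dvd
    (H1 : ∀ ℓ, ℓ.Prime → ∀ k f, a k (act (τ ℓ) f) =
      a (ℓ * k) f + e ℓ * (if ℓ ∣ k then a (k / ℓ) f else 0))
    (M : ℤ) : ∀ k, 0 < k → ∀ g : L, (∀ s : T, M ∣ a 1 (act s g)) → M ∣ a k g := by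
  intro k
  induction k using Nat.strong_induction_on with
  | _ k ih =>
    intro hk g hg
    rcases Nat.lt_or_ge 1 k with hk1 | hk1
    · have hl : (Nat.minFac k).Prime := Nat.minFac_prime (by omega)
      obtain ⟨k', hk'⟩ := Nat.minFac_dvd k
      set ℓ := Nat.minFac k with hℓ
      have hk'0 : 0 < k' := by
        rcases Nat.eq_zero_or_pos k' with h | h
        · subst h; omega
        · exact h
      have hk'k : k' < k := by
        rw [hk']
        exact (Nat.lt_mul_iff_one_lt_left hk'0).2 hl.one_lt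
      have h1 := H1 ℓ hl k' g
      have h2 : M ∣ a k' (act (τ ℓ) g) := by
        apply ih k' hk'k hk'0
        intro s
        have := hg (s * τ ℓ)
        rwa [map_mul] at this
      have h3 : M ∣ e ℓ * (if ℓ ∣ k' then a (k' / ℓ) g else 0) := by
        apply Dvd.dvd.mul_left
        split_ifs with h
        · apply ih (k' / ℓ) (lt_of_le_of_lt (Nat.div_le_self _ _) hk'k)
            (Nat.div_pos (Nat.le_of_dvd hk'0 h) hl.pos) g hg
        · exact dvd_zero _
      rw [hk']
      have : a (ℓ * k') g = a k' (act (τ ℓ) g) - e ℓ * (if ℓ ∣ k' then a (k' / ℓ) g else 0) := by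
        rw [h1]; ring
      rw [this]
      exact dvd_sub h2 h3
    · have : k = 1 := by omega
      subst this
      simpa using hg 1

theorem abstract_dual [Module.Free ℤ T] [Module.Finite ℤ T] [Module.Free ℤ L] [Module.Finite ℤ L]
    (hact : Function.Injective act)
    (H1 : ∀ ℓ, ℓ.Prime → ∀ k f, a k (act (τ ℓ) f) =
      a (ℓ * k) f + e ℓ * (if ℓ ∣ k then a (k / ℓ) f else 0))
    (H2 : ∀ f, (∀ k, 0 < k → a k f = 0) → f = 0)
    (H3 : ∀ (D : ℤ), D ≠ 0 → ∀ f, (∀ k, 0 < k → D ∣ a k f) → ∃ f', f = D • f')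
    (m : ℕ) (χ : T →+* ZMod m) (c : ℕ → ZMod m) (hc1 : c 1 = 1)
    (hc : ∀ ℓ, ℓ.Prime → ∀ k, 0 < k →
      c (ℓ * k) + (e ℓ : ZMod m) * (if ℓ ∣ k then c (k / ℓ) else 0) = χ (τ ℓ) * c k) :
    ∃ f : L, ∀ k, 0 < k → ((a k f : ℤ) : ZMod m) = c k := by
  classical
  have KL := key_dvd act a τ e H1
  -- the pairing
  let B : T →ₗ[ℤ] L →ₗ[ℤ] ℤ := LinearMap.mk₂ ℤ (fun t f => a 1 (act t f))
    (by intro t t' f; simp) (by intro z t f; simp) (by intro t f f'; simp)
    (by intro z t f; simp)
  have hB : ∀ t f, B t f = a 1 (act t f) := fun t f => rfl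
  have hz : ∀ g : L, (∀ s : T, a 1 (act s g) = 0) → g = 0 := by
    intro g hg
    apply H2
    intro k hk
    have := KL 0 k hk g (fun s => by rw [hg s])
    simpa using this
  have h2 : Function.Injective B.flip := by
    rw [injective_iff_map_eq_zero]
    intro f hf
    apply hz
    intro s
    have := LinearMap.congr_fun hf s
    simpa [hB] using this
  have h1 : Function.Injective B := by
    rw [injective_iff_map_eq_zero]
    intro t ht
    apply hact
    rw [map_zero]
    ext f
    apply hz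
    intro s
    have := LinearMap.congr_fun ht (act s f)
    rw [hB] at this
    have h3 : act s (act t f) = act t (act s f) := by
      have : act (s * t) f = act (t * s) f := by rw [mul_comm]
      simpa [map_mul] using this
    rw [h3, this]; rfl
  -- lift of `χ`
  obtain ⟨lam, hlam⟩ := Module.projective_lifting_property
    (Int.castAddHom (ZMod m)).toIntLinearMap χ.toAddMonoidHom.toIntLinearMap
    (by intro z; exact ZMod.intCast_surjective z)
  have hlam' : ∀ t, ((lam t : ℤ) : ZMod m) = χ t := fun t => LinearMap.congr_fun hlam t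
  obtain ⟨D, hD, f0, hf0⟩ := exists_dual B h1 h2 lam
  obtain ⟨f, hf⟩ := H3 D hD f0 (fun k hk => KL D k hk f0 (fun s => by
    rw [← hB, hf0]; exact Dvd.intro _ rfl))
  have hf1 : ∀ t, a 1 (act t f) = lam t := by
    intro t
    have := hf0 t
    rw [hB, hf, map_smul, map_smul, smul_eq_mul] at this
    exact mul_left_cancel₀ hD this
  -- `f` is an eigenvector modulo `m`
  have heig : ∀ t k, 0 < k → ((a k (act t f) : ℤ) : ZMod m) = χ t * ((a k f : ℤ) : ZMod m) := by
    intro t k hk
    have := KL m k hk (act t f - lam t • f) (by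
      intro s
      rw [map_sub, map_sub, map_smul, map_smul, hf1]
      have : act s (act t f) = act (s * t) f := by rw [map_mul]; rfl
      rw [this, hf1, ← ZMod.intCast_zmod_eq_zero_iff_dvd, smul_eq_mul]
      push_cast
      rw [hlam', hlam', hlam', map_mul]; ring)
    rw [← ZMod.intCast_zmod_eq_zero_iff_dvd, map_sub, map_smul, smul_eq_mul] at this
    push_cast at this
    rw [hlam'] at this
    exact sub_eq_zero.1 this
  refine ⟨f, ?_⟩
  intro k
  induction k using Nat.strong_induction_on with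
  | _ k ih =>
    intro hk
    rcases Nat.lt_or_ge 1 k with hk1 | hk1
    · have hl : (Nat.minFac k).Prime := Nat.minFac_prime (by omega)
      obtain ⟨k', hk'⟩ := Nat.minFac_dvd k
      set ℓ := Nat.minFac k with hℓ
      have hk'0 : 0 < k' := by
        rcases Nat.eq_zero_or_pos k' with h | h
        · subst h; omega
        · exact h
      have hk'k : k' < k := by
        rw [hk']
        exact (Nat.lt_mul_iff_one_lt_left hk'0).2 hl.one_lt
      have h1 := H1 ℓ hl k' f
      have h2 := heig (τ ℓ) k' hk'0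
      have h3 := hc ℓ hl k' hk'0
      rw [h1, ih k' hk'k hk'0, ← h3] at h2
      rw [hk']
      push_cast at h2
      have h4 : (if ℓ ∣ k' then ((a (k' / ℓ) f : ℤ) : ZMod m) else 0)
          = (if ℓ ∣ k' then c (k' / ℓ) else 0) := by
        split_ifs with h
        · exact ih (k' / ℓ) (lt_of_le_of_lt (Nat.div_le_self _ _) hk'k)
            (Nat.div_pos (Nat.le_of_dvd hk'0 h) hl.pos)
        · rfl
      rw [h4] at h2
      exact add_right_cancel h2
    · have : k = 1 := by omega
      subst this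
      have := hf1 1
      rw [map_one] at this
      have h5 : a 1 f = lam 1 := this
      rw [h5, hlam', map_one, hc1]

end Abstract

end FA16
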