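/-
S16, reduction package (concrete part).  Main export: `FA16.card_eq`.
-/
import Mathlib
import Fermat.Prelude.Def_CuspForm_HeckeLocal
import Fermat.Prelude.Def_CuspForm_HeckeEvalForms
import Fermat.Prelude.Def_HeckeGalois_EichlerShimura
import Fermat.Prelude.Def_ModularCurve_ModularUnit
import Fermat.Agent.H7.QCoeff
import Fermat.Agent.IntStr.Main
import Fermat.Agent.Eis.RedAbs

set_option autoImplicit false

open ModularCurve CuspForm ModularFormClass CongruenceSubgroup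

namespace FA16

/-! ### The arithmetic function `σ'` -/

/-- Sum of the divisors of `k` prime to `p`. -/
def sigP (p k : ℕ) : ℤ := ∑ d ∈ k.divisors with ¬ p ∣ d, (d : ℤ)

theorem sigP_one (p : ℕ) (hp : p.Prime) : sigP p 1 = 1 := by
  have : (Nat.divisors 1).filter (fun d => ¬ p ∣ d) = {1} := by
    ext d
    simp only [Nat.divisors_one, Finset.mem_filter, Finset.mem_singleton]
    constructor
    · exact fun h => h.1
    · rintro rfl
      exact ⟨rfl, fun h => hp.one_lt.ne' (Nat.dvd_one.1 h)⟩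
  rw [sigP, this]; simp

theorem sigP_self_mul (p : ℕ) (hp : p.Prime) (k : ℕ) (hk : 0 < k) :
    sigP p (p * k) = sigP p k := by
  have : (Nat.divisors (p * k)).filter (fun d => ¬ p ∣ d)
      = (Nat.divisors k).filter (fun d => ¬ p ∣ d) := by
    ext d
    simp only [Finset.mem_filter, Nat.mem_divisors]
    constructor
    · rintro ⟨⟨h1, _⟩, h3⟩
      refine ⟨⟨?_, hk.ne'⟩, h3⟩
      exact (Nat.Coprime.dvd_mul_left (((Nat.Prime.coprime_iff_not_dvd hp).2 h3).symm)).1 h1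
    · rintro ⟨⟨h1, _⟩, h3⟩
      exact ⟨⟨Dvd.dvd.mul_left h1 p, (Nat.mul_pos hp.pos hk).ne'⟩, h3⟩
  rw [sigP, sigP, this]

theorem sigP_prime_mul (p : ℕ) (hp : p.Prime) (l : ℕ) (hl : l.Prime) (hlp : ¬ l ∣ p)
    (k : ℕ) (hk : 0 < k) :
    sigP p (l * k) + (l : ℤ) * (if l ∣ k then sigP p (k / l) else 0) = (1 + (l : ℤ)) * sigP p k := by
  classical
  have hpl : ¬ p ∣ l := by
    intro h
    rcases (Nat.dvd_prime hl).1 h with h | h
    · exact hp.one_lt.ne' h
    · exact hlp (h ▸ dvd_rfl)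
  set D : ℕ → Finset ℕ := fun k => (Nat.divisors k).filter (fun d => ¬ p ∣ d) with hD
  have hinj : Function.Injective (fun d : ℕ => l * d) := fun a b h =>
    Nat.eq_of_mul_eq_mul_left hl.pos h
  have himg : ∀ k, ∑ d ∈ (D k).image (fun d => l * d), (d : ℤ) = (l : ℤ) * sigP p k := by
    intro k
    rw [Finset.sum_image (fun a _ b _ h => hinj h), sigP, Finset.mul_sum]
    apply Finset.sum_congr rfl
    intro d _
    push_cast; ring
  have hU : D (l * k) = D k ∪ (D k).image (fun d => l * d) := by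
    ext d
    simp only [hD, Finset.mem_filter, Nat.mem_divisors, Finset.mem_union, Finset.mem_image]
    constructor
    · rintro ⟨⟨h1, _⟩, h3⟩
      by_cases hld : l ∣ d
      · right
        obtain ⟨d', rfl⟩ := hld
        refine ⟨d', ⟨⟨Nat.dvd_of_mul_dvd_mul_left hl.pos h1, hk.ne'⟩, ?_⟩, rfl⟩
        exact fun h => h3 (Dvd.dvd.mul_left h l)
      · left
        refine ⟨⟨?_, hk.ne'⟩, h3⟩
        exact (Nat.Coprime.dvd_mul_left (((Nat.Prime.coprime_iff_not_dvd hl).2 hld).symm)).1 h1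
    · rintro (⟨⟨h1, _⟩, h3⟩ | ⟨d', ⟨⟨h1, _⟩, h3⟩, rfl⟩)
      · exact ⟨⟨Dvd.dvd.mul_left h1 l, (Nat.mul_pos hl.pos hk).ne'⟩, h3⟩
      · refine ⟨⟨Nat.mul_dvd_mul_left l h1, (Nat.mul_pos hl.pos hk).ne'⟩, ?_⟩
        intro h
        rcases (Nat.Prime.dvd_mul hp).1 h with h | h
        · exact hpl h
        · exact h3 h
  have hI : D k ∩ (D k).image (fun d => l * d)
      = if l ∣ k then (D (k / l)).image (fun d => l * d) else ∅ := by
    split_ifs with hlk
    · ext d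
      simp only [hD, Finset.mem_filter, Nat.mem_divisors, Finset.mem_inter, Finset.mem_image]
      constructor
      · rintro ⟨⟨⟨h1, _⟩, _⟩, ⟨d', ⟨⟨_, _⟩, h6⟩, rfl⟩⟩
        refine ⟨d', ⟨⟨?_, ?_⟩, h6⟩, rfl⟩
        · exact (Nat.dvd_div_iff_mul_dvd hlk).2 h1
        · exact (Nat.div_pos (Nat.le_of_dvd hk hlk) hl.pos).ne'
      · rintro ⟨d', ⟨⟨h1, _⟩, h3⟩, rfl⟩
        have h4 : l * d' ∣ k := (Nat.dvd_div_iff_mul_dvd hlk).1 h1
        refine ⟨⟨⟨h4, hk.ne'⟩, ?_⟩, ⟨d', ⟨⟨dvd_trans (Dvd.intro_left l rfl) h4, hk.ne'⟩, h3⟩, rfl⟩⟩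
        intro h
        rcases (Nat.Prime.dvd_mul hp).1 h with h | h
        · exact hpl h
        · exact h3 h
    · ext d
      simp only [hD, Finset.mem_filter, Nat.mem_divisors, Finset.mem_inter, Finset.mem_image,
        Finset.notMem_empty, iff_false]
      rintro ⟨⟨⟨h1, _⟩, _⟩, ⟨d', _, rfl⟩⟩
      exact hlk (dvd_trans (Dvd.intro d' rfl) h1)
  have key := Finset.sum_union_inter (s₁ := D k) (s₂ := (D k).image (fun d => l * d))
    (f := fun d : ℕ => (d : ℤ))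
  rw [← hU, hI, himg] at key
  have e1 : sigP p (l * k) = ∑ d ∈ D (l * k), (d : ℤ) := rfl
  have e2 : sigP p k = ∑ d ∈ D k, (d : ℤ) := rfl
  rw [e1, e2]
  rw [e2] at key
  split_ifs at key ⊢ with hlk
  · rw [himg] at key
    rw [key]; ring
  · rw [Finset.sum_empty] at key
    rw [mul_zero, key]; ring

/-! ### Integral coefficients -/

section Coeff

variable (N : ℕ) [NeZero N]

/-- The integral `q`-coefficient. -/
noncomputable def aZfun (k : ℕ) (f : ↥(intLattice N 2)) : ℤ :=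
  Classical.choose ((Fermat.Agent.H7.mem_intLattice_iff f.1).1 f.2 k)

omit [NeZero N] in
theorem aZfun_spec (k : ℕ) (f : ↥(intLattice N 2)) :
    qCoeff (f.1 : CuspForm (Gamma0 N) 2) k = (aZfun N k f : ℂ) :=
  Classical.choose_spec ((Fermat.Agent.H7.mem_intLattice_iff f.1).1 f.2 k)

/-- The integral `q`-coefficient as a linear form. -/
noncomputable def aZ (k : ℕ) : ↥(intLattice N 2) →ₗ[ℤ] ℤ where
  toFun := aZfun N k
  map_add' f g := by
    apply Int.cast_injective (α := ℂ)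
    push_cast
    rw [← aZfun_spec, ← aZfun_spec, ← aZfun_spec]
    exact Fermat.Agent.H7.qCoeff_add f.1 g.1 k
  map_smul' c f := by
    apply Int.cast_injective (α := ℂ)
    simp only [RingHom.id_apply, smul_eq_mul]
    push_cast
    rw [← aZfun_spec, ← aZfun_spec]
    have : ((c • f : ↥(intLattice N 2)) : CuspForm (Gamma0 N) 2) = (c : ℂ) • f.1 := by
      rw [Int.cast_smul_eq_zsmul]; rfl
    rw [this]
    exact Fermat.Agent.H7.qCoeff_smul _ f.1 k

omit [NeZero N] in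
theorem aZ_spec (k : ℕ) (f : ↥(intLattice N 2)) :
    qCoeff (f.1 : CuspForm (Gamma0 N) 2) k = (aZ N k f : ℂ) := aZfun_spec N k f

theorem eq_zero_of_aZ (f : ↥(intLattice N 2)) (h : ∀ k, 0 < k → aZ N k f = 0) : f = 0 := by
  apply Subtype.ext
  apply Fermat.Agent.H7.eq_zero_of_qCoeff_eq_zero
  intro n
  rcases Nat.eq_zero_or_pos n with rfl | hn
  · exact Fermat.Agent.H7.qCoeff_at_zero _
  · rw [aZ_spec, h n hn]; simp

omit [NeZero N] in
theorem saturated (D : ℤ) (hD : D ≠ 0) (f : ↥(intLattice N 2))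
    (h : ∀ k, 0 < k → D ∣ aZ N k f) : ∃ f' : ↥(intLattice N 2), f = D • f' := by
  have hDC : (D : ℂ) ≠ 0 := by exact_mod_cast hD
  have hmem : ((D : ℂ)⁻¹ • f.1 : CuspForm (Gamma0 N) 2) ∈ intLattice N 2 := by
    rw [Fermat.Agent.H7.mem_intLattice_iff]
    intro n
    rcases Nat.eq_zero_or_pos n with rfl | hn
    · exact ⟨0, by rw [Fermat.Agent.H7.qCoeff_at_zero]; simp⟩
    · obtain ⟨c, hc⟩ := h n hn
      refine ⟨c, ?_⟩
      rw [Fermat.Agent.H7.qCoeff_smul, aZ_spec, hc]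
      push_cast
      field_simp
  refine ⟨⟨_, hmem⟩, ?_⟩
  apply Subtype.ext
  have : ((D • (⟨_, hmem⟩ : ↥(intLattice N 2)) : ↥(intLattice N 2)) : CuspForm (Gamma0 N) 2)
      = (D : ℂ) • ((D : ℂ)⁻¹ • f.1) := by
    rw [Int.cast_smul_eq_zsmul]; rfl
  rw [this, smul_smul, mul_inv_cancel₀ hDC, one_smul]

end Coeff

/-! ### The Hecke algebra -/

section Hecke

variable (N : ℕ) [NeZero N]

theorem heckeEvalForms_surjective : Function.Surjective (heckeEvalForms N 2) := by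
  rintro ⟨t, ht⟩
  suffices h : ∃ P, ((heckeEvalForms N 2 P : heckeAlgebra N 2 ∅) :
      Module.End ℂ (CuspForm (Gamma0 N) 2)) = t by
    obtain ⟨P, hP⟩ := h
    exact ⟨P, Subtype.ext hP⟩
  unfold heckeAlgebra at ht
  induction ht using Algebra.adjoin_induction with
  | mem x hx =>
    rcases hx with ⟨ℓ, hℓ, hℓN, -, rfl⟩ | ⟨q, hqN, hq, -, rfl⟩
    · refine ⟨heckeGen ⟨ℓ, hℓ⟩, ?_⟩
      rw [heckeEvalForms_heckeGen_of_not_dvd (ℓ := ⟨ℓ, hℓ⟩) hℓN]
      rfl
    · refine ⟨heckeGen ⟨q, hq⟩, ?_⟩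
      rw [heckeEvalForms_heckeGen_of_dvd (q := ⟨q, hq⟩) hqN]
      rfl
  | algebraMap r =>
    refine ⟨MvPolynomial.C r, ?_⟩
    rw [heckeEvalForms_C]
    rfl
  | add x y _ _ hx hy =>
    obtain ⟨P, hP⟩ := hx
    obtain ⟨Q, hQ⟩ := hy
    exact ⟨P + Q, by rw [map_add, ← hP, ← hQ]; rfl⟩
  | mul x y _ _ hx hy =>
    obtain ⟨P, hP⟩ := hx
    obtain ⟨Q, hQ⟩ := hy
    exact ⟨P * Q, by rw [map_mul, ← hP, ← hQ]; rfl⟩

/-- The map `ℤ[T_ℓ] → 𝕋` of the statement. -/
noncomputable def phi : HeckeAlg →+* ↥(heckeLatticeAlgebra N ∅) :=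
  (latticeRestrictHom N ∅).toRingHom.comp (heckeEvalForms N 2)

theorem phi_surjective : Function.Surjective (phi N) :=
  (latticeRestrictHom_surjective N ∅).comp (heckeEvalForms_surjective N)

theorem phi_eq_zero_iff (P : HeckeAlg) : phi N P = 0 ↔ heckeEvalForms N 2 P = 0 := by
  have hb := latticeRestrictHom_bijective N ∅ (FA_IS_hasIntegralStructure N 2)
  constructor
  · intro h
    apply hb.1
    rw [map_zero]
    exact h
  · intro h
    show latticeRestrictHom N ∅ (heckeEvalForms N 2 P) = 0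
    rw [h, map_zero]

/-- The action of `𝕋` on the lattice. -/
noncomputable def actT : ↥(heckeLatticeAlgebra N ∅) →+* Module.End ℤ ↥(intLattice N 2) :=
  (heckeLatticeAlgebra N ∅).val.toRingHom

theorem actT_injective : Function.Injective (actT N) := Subtype.val_injective

theorem actT_phi_coe (P : HeckeAlg) (f : ↥(intLattice N 2)) :
    ((actT N (phi N P) f : ↥(intLattice N 2)) : CuspForm (Gamma0 N) 2)
      = (heckeEvalForms N 2 P : heckeAlgebra N 2 ∅).1 f.1 := rfl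

/-- The generators. -/
noncomputable def tauT (ℓ : ℕ) : ↥(heckeLatticeAlgebra N ∅) :=
  if h : ℓ.Prime then phi N (heckeGen ⟨ℓ, h⟩) else 0

/-- The "nebentypus" factor. -/
def eT (ℓ : ℕ) : ℤ := if ℓ ∣ N then 0 else ℓ

theorem aZ_tauT (ℓ : ℕ) (hℓ : ℓ.Prime) (k : ℕ) (f : ↥(intLattice N 2)) :
    aZ N k (actT N (tauT N ℓ) f) =
      aZ N (ℓ * k) f + eT N ℓ * (if ℓ ∣ k then aZ N (k / ℓ) f else 0) := by
  apply Int.cast_injective (α := ℂ)
  rw [← aZ_spec, tauT, dif_pos hℓ, actT_phi_coe]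
  by_cases h : ℓ ∣ N
  · rw [heckeEvalForms_heckeGen_of_dvd (q := ⟨ℓ, hℓ⟩) h]
    have := Fermat.Agent.H7.qCoeff_heckeULin (k := 2) hℓ h f.1 k
    rw [eT, if_pos h]
    push_cast
    rw [zero_mul, add_zero, ← aZ_spec]
    exact this
  · rw [heckeEvalForms_heckeGen_of_not_dvd (ℓ := ⟨ℓ, hℓ⟩) h]
    have := Fermat.Agent.H7.qCoeff_heckeTLin (k := 2) hℓ h f.1 k
    rw [eT, if_neg h]
    push_cast
    rw [← aZ_spec]
    refine this.trans ?_
    congr 1
    split_ifs with hk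
    · rw [← aZ_spec]; norm_num
    · simp

end Hecke

/-! ### The main reduction -/

theorem card_eq (p : ℕ) [Fact p.Prime] (n : ℕ)
    (LB : ∀ P : HeckeAlg, heckeEvalForms p 2 P = 0 →
      (n : ℤ) ∣ MvPolynomial.aeval (eisensteinSystem p) P)
    (UB : ∀ M : ℕ, M ≠ 0 → (∃ f : CuspForm (Gamma0 p) 2, ∀ k : ℕ, 0 < k →
      ∃ z : ℤ, qCoeff f k = (z : ℂ) ∧ (M : ℤ) ∣ z - sigP p k) → M ∣ n) :
    Nat.card (↥(heckeLatticeAlgebra p ∅) ⧸
        Ideal.map ((latticeRestrictHom p ∅).toRingHom.comp (heckeEvalForms p 2))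
          (eisensteinIdeal p)) = n := by
  classical
  have hp : p.Prime := Fact.out
  set ε : HeckeAlg →+* ℤ := (MvPolynomial.aeval (R := ℤ) (eisensteinSystem p)).toRingHom with hε
  have hεs : Function.Surjective ε := fun z => ⟨MvPolynomial.C z, by simp [hε]⟩
  have hI : eisensteinIdeal p = RingHom.ker ε := rfl
  rw [hI]
  apply card_quot_of (phi p) (phi_surjective p) ε hεs n
  · intro P hP
    exact LB P ((phi_eq_zero_iff p P).1 hP)
  · -- the ideal `ε (ker φ)`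
    set J : Ideal ℤ := Ideal.map ε (RingHom.ker (phi p)) with hJ
    obtain ⟨g, hg⟩ := (IsPrincipalIdealRing.principal J).principal
    have hgJ : ∀ z : ℤ, g ∣ z → ∃ P, phi p P = 0 ∧ ε P = z := by
      intro z hz
      have : z ∈ J := by
        rw [hg]; exact Submodule.mem_span_singleton.2 (by
          obtain ⟨c, hc⟩ := hz
          exact ⟨c, by rw [hc, smul_eq_mul, mul_comm]⟩)
      rw [hJ, Ideal.mem_map_iff_of_surjective ε hεs] at this
      obtain ⟨P, hP, hP'⟩ := this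
      exact ⟨P, hP, hP'⟩
    have hJg : ∀ P, phi p P = 0 → g ∣ ε P := by
      intro P hP
      have : ε P ∈ J := Ideal.mem_map_of_mem ε hP
      rw [hg] at this
      obtain ⟨c, hc⟩ := Submodule.mem_span_singleton.1 this
      exact ⟨c, by rw [← hc, smul_eq_mul, mul_comm]⟩
    apply hgJ
    set m : ℕ := g.natAbs with hm
    have hmg : ∀ z : ℤ, g ∣ z ↔ (m : ℤ) ∣ z := fun z => by rw [hm, Int.natAbs_dvd]
    -- the character `χ : 𝕋 → ZMod m`
    let ψ : HeckeAlg →+* ZMod m := (Int.castRingHom (ZMod m)).comp ε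
    have hψ : ∀ a, phi p a = 0 → ψ a = 0 := by
      intro a ha
      have := (hmg _).1 (hJg a ha)
      simpa [ψ, ZMod.intCast_zmod_eq_zero_iff_dvd] using this
    let χ : ↥(heckeLatticeAlgebra p ∅) →+* ZMod m :=
      RingHom.liftOfSurjective (phi p) (phi_surjective p) ⟨ψ, fun a ha => hψ a ha⟩
    have hχ : ∀ a, χ (phi p a) = ψ a := by
      intro a
      exact RingHom.liftOfRightInverse_comp_apply (phi p) _ _ ⟨ψ, fun a ha => hψ a ha⟩ a
    have := intLattice.moduleFinite p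
    have := intLattice.moduleFree p
    obtain ⟨f, hf⟩ := abstract_dual (actT p) (aZ p) (tauT p) (eT p) (actT_injective p)
      (aZ_tauT p) (eq_zero_of_aZ p) (saturated p) m χ (fun k => (sigP p k : ZMod m))
      (by rw [sigP_one p hp]; simp)
      (by
        intro ℓ hℓ k hk
        rw [tauT, dif_pos hℓ, hχ]
        have e1 : ψ (heckeGen ⟨ℓ, hℓ⟩) = ((eisensteinSystem p ⟨ℓ, hℓ⟩ : ℤ) : ZMod m) := by
          have e0 : ε (heckeGen ⟨ℓ, hℓ⟩) = eisensteinSystem p ⟨ℓ, hℓ⟩ :=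
            aeval_heckeGen (eisensteinSystem p) (⟨ℓ, hℓ⟩ : Nat.Primes)
          show ((ε (heckeGen ⟨ℓ, hℓ⟩) : ℤ) : ZMod m) = _
          rw [e0]
        rw [e1]
        by_cases h : ℓ ∣ p
        · have hℓp : ℓ = p := (Nat.prime_dvd_prime_iff_eq hℓ hp).1 h
          rw [eisensteinSystem_of_dvd (ℓ := ⟨ℓ, hℓ⟩) h, eT, if_pos h]
          subst hℓp
          rw [sigP_self_mul ℓ hp k hk]
          simp
        · rw [eisensteinSystem_of_not_dvd (ℓ := ⟨ℓ, hℓ⟩) h, eT, if_neg h]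
          have := sigP_prime_mul p hp ℓ hℓ h k hk
          have h2 := congrArg (fun z : ℤ => (z : ZMod m)) this
          push_cast at h2 ⊢
          exact h2)
    have hfM : ∀ M : ℕ, (M ∣ m) → ∃ f : CuspForm (Gamma0 p) 2, ∀ k : ℕ, 0 < k →
        ∃ z : ℤ, qCoeff f k = (z : ℂ) ∧ (M : ℤ) ∣ z - sigP p k := by
      intro M hM
      refine ⟨f.1, fun k hk => ⟨aZ p k f, aZ_spec p k f, ?_⟩⟩
      have h1 : (m : ℤ) ∣ aZ p k f - sigP p k := by
        rw [← ZMod.intCast_zmod_eq_zero_iff_dvd]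
        push_cast
        rw [hf k hk, sub_self]
      exact dvd_trans (by exact_mod_cast hM) h1
    rw [hmg]
    rcases Nat.eq_zero_or_pos m with hm0 | hm0
    · have h1 := UB (n + 1) (Nat.succ_ne_zero n) (hfM (n + 1) (by rw [hm0]; exact dvd_zero _))
      have h0 : n = 0 := Nat.eq_zero_of_dvd_of_lt h1 (Nat.lt_succ_self n)
      rw [h0, hm0]
    · exact_mod_cast UB m hm0.ne' (hfM m dvd_rfl)

end FA16
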