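import Fermat.Agent.Eis.LamOrd
import Fermat.Agent.IntStr.LevelOne
import Fermat.Agent.IntStr.Nice

/-! The integral Sturm bound in level one, for a valuation on `ℂ`. -/

open UpperHalfPlane ModularForm EisensteinSeries
open scoped Manifold MatrixGroups

namespace FA16

open FA_IS_L1

/-- division by a power series `q + ...` with integral coefficients -/
lemma coeff_mem_of_mul (S : AddSubgroup ℂ) (D : PowerSeries ℤ) (hD0 : D.coeff 0 = 0)
    (hD1 : D.coeff 1 = 1) (H : PowerSeries ℂ) :
    ∀ n : ℕ, (∀ m ≤ n + 1, ((D.map (Int.castRingHom ℂ)) * H).coeff m ∈ S) → H.coeff n ∈ S := by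
  intro n
  induction n using Nat.strong_induction_on with
  | _ n ih =>
    intro hA
    have h1 := hA (n + 1) le_rfl
    rw [PowerSeries.coeff_mul, ← Finset.add_sum_erase _ _
      (Finset.HasAntidiagonal.mem_antidiagonal.mpr (by ring) :
        (1, n) ∈ Finset.HasAntidiagonal.antidiagonal (n + 1))] at h1
    simp only [PowerSeries.coeff_map, hD1, eq_intCast, Int.cast_one, one_mul] at h1
    have h2 : ∑ p ∈ (Finset.HasAntidiagonal.antidiagonal (n + 1)).erase (1, n),
        ((D.coeff p.1 : ℤ) : ℂ) * H.coeff p.2 ∈ S := by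
      refine S.sum_mem fun p hp => ?_
      rw [Finset.mem_erase, Finset.HasAntidiagonal.mem_antidiagonal] at hp
      rw [← zsmul_eq_mul]
      by_cases h0 : p.1 = 0
      · rw [h0, hD0, zero_smul]; exact S.zero_mem
      · refine S.zsmul_mem (ih p.2 ?_ fun m hm => hA m (by omega)) _
        have : p.1 ≠ 1 := by
          intro h3
          apply hp.1
          ext
          · exact h3
          · simp only; omega
        omega
    have := S.sub_mem h1 h2
    simpa using this

variable {Γ₀ : Type*} [LinearOrderedCommGroupWithZero Γ₀] {v : Valuation ℂ Γ₀}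

lemma sD_coeff_zero : sD.coeff 0 = 0 := by
  have h := CuspFormClass.qExpansion_coeff_zero CuspForm.discriminant one_pos
    one_mem_strictPeriods_SL
  rw [CuspForm.coe_discriminant, qExp_disc, PowerSeries.coeff_map, eq_intCast] at h
  exact_mod_cast h

lemma sD_coeff_one : sD.coeff 1 = 1 := by
  have h := discriminant_qExpansion_coeff_one
  rw [qExp_disc, PowerSeries.coeff_map, eq_intCast] at h
  exact_mod_cast h

theorem sturm_val_aux (hZ : ∀ z : ℤ, v (z : ℂ) ≤ 1) (K : ℕ) :
    ∀ k : ℤ, k < K → ∀ F : ModularForm 𝒮ℒ k, VInt v (qExpansion 1 F) →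
    (∀ n : ℕ, 12 * (n : ℤ) ≤ k → v ((qExpansion 1 F).coeff n) < 1) → VSmall v (qExpansion 1 F) := by
  induction K with
  | zero =>
    intro k hk F _ _
    rw [ModularFormClass.levelOne_neg_weight_eq_zero (by simpa using hk) F, qExpansion_zero]
    intro n; simp
  | succ K ih =>
    intro k hk F hint hlt
    rcases lt_or_eq_of_le (Int.lt_add_one_iff.mp (by exact_mod_cast hk) : k ≤ K) with h | rfl
    · exact ih k h F hint hlt
    rcases Nat.even_or_odd K with hk2 | hk2
    · by_cases hk4 : 4 ≤ K
      · obtain ⟨F0, hF0⟩ := exists_good K hk4 hk2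
        obtain ⟨⟨⟨f0, rfl⟩, hf0int⟩, hf0⟩ := hF0
        set c : ℂ := (qExpansion 1 F).coeff 0 with hcdef
        have hc : v c < 1 := hlt 0 (by simp)
        have hf0V : VInt v (qExpansion 1 f0) := fun n => by
          obtain ⟨z, hz⟩ := hf0int n
          rw [hz]; exact hZ z
        have hG : qExpansion 1 (⇑(F - c • f0 : ModularForm 𝒮ℒ K)) =
            qExpansion 1 F - c • qExpansion 1 f0 := by
          rw [FunLike.coe_sub, ModularForm.qExpansion_sub one_pos one_mem_strictPeriods_SL,
            FunLike.coe_smul, ModularForm.qExpansion_smul one_pos one_mem_strictPeriods_SL]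
        have hcusp : (qExpansion 1 (⇑(F - c • f0 : ModularForm 𝒮ℒ K))).coeff 0 = 0 := by
          rw [hG, map_sub, PowerSeries.coeff_smul, hf0, smul_eq_mul, mul_one, sub_self]
        have hfac := qExpansion_eq_qExpansion_discriminant_mul (F - c • f0) hcusp
        set H : ModularForm 𝒮ℒ ((K : ℤ) - 12) :=
          CuspForm.discriminantEquiv (toCuspForm (F - c • f0) hcusp) with hH
        rw [qExp_disc, hG] at hfac
        have hHint : VInt v (qExpansion 1 H) := fun n => by
          refine coeff_mem_of_mul v.integer.toAddSubgroup sD sD_coeff_zero sD_coeff_one _ n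
            fun m _ => ?_
          rw [← hfac]
          exact (hint.sub (hf0V.smul hc.le)) m
        have hHlt : ∀ n : ℕ, 12 * (n : ℤ) ≤ (K : ℤ) - 12 → v ((qExpansion 1 H).coeff n) < 1 := by
          intro n hn
          have := coeff_mem_of_mul (v.ltAddSubgroup 1) sD sD_coeff_zero sD_coeff_one
            (qExpansion 1 H) n fun m hm => by
              rw [← hfac, map_sub]
              refine AddSubgroup.sub_mem _ ?_ ?_
              · exact hlt m (by have : (m : ℤ) ≤ n + 1 := by exact_mod_cast hm
                                omega)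
              · exact VSmall.smul hc hf0V m
          exact this
        have hHs := ih _ (by omega) H hHint hHlt
        have hF : qExpansion 1 F = qExpansion 1 H * PowerSeries.map (Int.castRingHom ℂ) sD
            + c • qExpansion 1 f0 := by
          rw [mul_comm, ← hfac]; ring
        rw [hF]
        exact (hHs.mul_left (VInt.map_int hZ _)).add (VSmall.smul hc hf0V)
      · have : K = 0 ∨ K = 2 := by
          obtain ⟨j, rfl⟩ := hk2
          omega
        rcases this with rfl | rfl
        · obtain ⟨c, hc⟩ := ModularFormClass.levelOne_weight_zero_const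
            (F := ModularForm 𝒮ℒ ((0 : ℕ) : ℤ)) F
          have h1 : (⇑F : ℍ → ℂ) = c • (1 : ℍ → ℂ) := by
            rw [hc]; funext z; simp
          have h2 : qExpansion 1 F = c • (1 : PowerSeries ℂ) := by
            rw [h1, FA_IS.Nice.one.qExpansion_smul one_pos, qExpansion_one]
          have h3 := hlt 0 (by simp)
          rw [h2] at h3 ⊢
          have h4 : v c < 1 := by simpa using h3
          exact VSmall.smul h4 VInt.one
        · have : F = 0 := rank_zero_iff_forall_zero.mp levelOne_weight_two_rank_zero F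
          rw [this]
          have h0 : (⇑(0 : ModularForm 𝒮ℒ ((2 : ℕ) : ℤ)) : ℍ → ℂ) = 0 := rfl
          rw [h0, qExpansion_zero]
          intro n; simp
    · have : F = 0 := levelOne_odd_weight_eq_zero (by exact_mod_cast hk2) F
      rw [this]
      have h0 : (⇑(0 : ModularForm 𝒮ℒ (K : ℤ)) : ℍ → ℂ) = 0 := rfl
      rw [h0, qExpansion_zero]
      intro n; simp

/-- integral Sturm bound in level one -/
theorem sturm_val (hZ : ∀ z : ℤ, v (z : ℂ) ≤ 1) {k : ℤ} (F : ModularForm 𝒮ℒ k)
    (hint : VInt v (qExpansion 1 F))
    (hlt : ∀ n : ℕ, 12 * (n : ℤ) ≤ k → v ((qExpansion 1 F).coeff n) < 1) :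
    VSmall v (qExpansion 1 F) :=
  sturm_val_aux hZ (k.toNat + 1) k (by have := Int.self_le_toNat k; push_cast; omega) F hint hlt

end FA16
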