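import Fermat.Agent.ES.Inj
import Fermat.Agent.H3.Hecke

set_option autoImplicit false

open UpperHalfPlane hiding I
open Complex Filter Function Topology CongruenceSubgroup Matrix.SpecialLinearGroup
open scoped Manifold MatrixGroups ModularForm Pointwise ComplexConjugate OnePoint
open FAH3 FAES ModularCurve ModularCurve.Period
open P2MW.S_ModularForm_heckeT_slash_eq_self_of_mem_Gamma0.ModularForm.HeckeSlashInvariance

noncomputable section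

namespace FA16

variable {N : ℕ}

/-- `Φ` has the period function `ψ`. -/
def IsPer (Φ : ℍ → ℂ) (ψ : Gamma0 N → ℂ) : Prop :=
  ∀ (γ : Gamma0 N) (τ : ℍ), Φ ((γ : SL(2, ℤ)) • τ) - Φ τ = ψ γ

lemma IsPer.unique {Φ : ℍ → ℂ} {ψ ψ' : Gamma0 N → ℂ} (h : IsPer Φ ψ) (h' : IsPer Φ ψ') : ψ = ψ' := by
  funext γ
  rw [← h γ UpperHalfPlane.I, h' γ UpperHalfPlane.I]

lemma dvd_of_Gamma0 (γ : Gamma0 N) : (N : ℤ) ∣ (γ : SL(2, ℤ)) 1 0 :=
  (ZMod.intCast_zmod_eq_zero_iff_dvd _ _).mp (Gamma0_mem.mp γ.2)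

lemma SL_smul_eq (γ : SL(2, ℤ)) (τ : ℍ) : γ • τ = (mapGL ℝ γ) • τ := rfl

section T

variable {p : ℕ} [Fact p.Prime] (hpN : ¬ p ∣ N)

/-- the element `γ_x` with `α_x γ = γ_x α_{σ x}` -/
def gT (γ : Gamma0 N) (x : OnePoint (ZMod p)) : Gamma0 N :=
  ⟨Classical.choose (heckeRep_mul hpN (γ : SL(2, ℤ)) (dvd_of_Gamma0 γ) x),
    Gamma0_mem.mpr ((ZMod.intCast_zmod_eq_zero_iff_dvd _ _).mpr
      (Classical.choose_spec (heckeRep_mul hpN (γ : SL(2, ℤ)) (dvd_of_Gamma0 γ) x)).1)⟩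

lemma gT_spec (γ : Gamma0 N) (x : OnePoint (ZMod p)) :
    heckeRep p x * mapGL ℝ (γ : SL(2, ℤ)) =
      mapGL ℝ (gT hpN γ x : SL(2, ℤ)) * heckeRep p (redMatrix p (γ : SL(2, ℤ)) • x) :=
  (Classical.choose_spec (heckeRep_mul hpN (γ : SL(2, ℤ)) (dvd_of_Gamma0 γ) x)).2

/-- the transfer operator `τ_p` on functions on `Γ₀(N)` -/
def trfT {A : Type*} [AddCommMonoid A] (ψ : Gamma0 N → A) (γ : Gamma0 N) : A :=
  ∑ x : OnePoint (ZMod p), ψ (gT hpN γ x)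

variable (p) in
/-- the unnormalised weight zero Hecke operator on functions on `ℍ` -/
def opT (Φ : ℍ → ℂ) (τ : ℍ) : ℂ := ∑ x : OnePoint (ZMod p), Φ (heckeRep p x • τ)

lemma IsPer.opT {Φ : ℍ → ℂ} {ψ : Gamma0 N → ℂ} (h : IsPer Φ ψ) :
    IsPer (opT p Φ) (trfT hpN ψ) := by
  intro γ τ
  have h1 : ∀ x : OnePoint (ZMod p), Φ (heckeRep p x • ((γ : SL(2, ℤ)) • τ)) =
      Φ (heckeRep p (redMatrix p (γ : SL(2, ℤ)) • x) • τ) + ψ (gT hpN γ x) := by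
    intro x
    rw [SL_smul_eq, ← mul_smul, gT_spec hpN, mul_smul, ← SL_smul_eq, ← h (gT hpN γ x)]
    ring
  have h2 : ∑ x : OnePoint (ZMod p), Φ (heckeRep p (redMatrix p (γ : SL(2, ℤ)) • x) • τ) =
      ∑ x : OnePoint (ZMod p), Φ (heckeRep p x • τ) :=
    Equiv.sum_comp (MulAction.toPerm (redMatrix p (γ : SL(2, ℤ)))) (fun x => Φ (heckeRep p x • τ))
  unfold FA16.opT trfT
  rw [Finset.sum_congr rfl fun x _ => h1 x, Finset.sum_add_distrib, h2]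
  ring

lemma opT_apply (Φ : ℍ → ℂ) (τ : ℍ) :
    opT p Φ τ = Φ (ModularForm.heckeDiagMatrix p • τ) +
      ∑ j : ZMod p, Φ (ModularForm.heckeMatrix p j.val • τ) :=
  Fintype.sum_option (fun x : OnePoint (ZMod p) => Φ (heckeRep p x • τ))

end T

section U

variable {p : ℕ} [NeZero p] (hpN : p ∣ N)

include hpN in
omit [NeZero p] in
lemma dvd_of_Gamma0' (γ : Gamma0 N) : (p : ℤ) ∣ (γ : SL(2, ℤ)) 1 0 :=
  (Int.natCast_dvd_natCast.mpr hpN).trans (dvd_of_Gamma0 γ)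

/-- the element `γ_x` with `α_x γ = γ_x α_{σ x}` -/
def gU (γ : Gamma0 N) (x : ZMod p) : Gamma0 N :=
  ⟨Classical.choose (heckeMatrix_mul_of_dvd (γ : SL(2, ℤ)) (dvd_of_Gamma0' hpN γ) x), by
    rw [Gamma0_mem,
      (Classical.choose_spec (heckeMatrix_mul_of_dvd (γ : SL(2, ℤ)) (dvd_of_Gamma0' hpN γ) x)).1]
    push_cast
    rw [Gamma0_mem.mp γ.2, mul_zero]⟩

lemma gU_spec (γ : Gamma0 N) (x : ZMod p) :
    ModularForm.heckeMatrix p x.val * mapGL ℝ (γ : SL(2, ℤ)) =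
      mapGL ℝ (gU hpN γ x : SL(2, ℤ)) * ModularForm.heckeMatrix p
        (affinePerm (γ : SL(2, ℤ))
          ((ZMod.intCast_zmod_eq_zero_iff_dvd _ _).mpr (dvd_of_Gamma0' hpN γ)) x).val :=
  (Classical.choose_spec (heckeMatrix_mul_of_dvd (γ : SL(2, ℤ)) (dvd_of_Gamma0' hpN γ) x)).2

/-- the transfer operator `τ_p`, `p ∣ N`, on functions on `Γ₀(N)` -/
def trfU {A : Type*} [AddCommMonoid A] (ψ : Gamma0 N → A) (γ : Gamma0 N) : A :=
  ∑ x : ZMod p, ψ (gU hpN γ x)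

variable (p) in
/-- the unnormalised weight zero `U` operator on functions on `ℍ` -/
def opU (Φ : ℍ → ℂ) (τ : ℍ) : ℂ := ∑ x : ZMod p, Φ (ModularForm.heckeMatrix p x.val • τ)

lemma IsPer.opU {Φ : ℍ → ℂ} {ψ : Gamma0 N → ℂ} (h : IsPer Φ ψ) :
    IsPer (opU p Φ) (trfU hpN ψ) := by
  intro γ τ
  set σ := affinePerm (γ : SL(2, ℤ))
    ((ZMod.intCast_zmod_eq_zero_iff_dvd _ _).mpr (dvd_of_Gamma0' hpN γ)) with hσ
  have h1 : ∀ x : ZMod p, Φ (ModularForm.heckeMatrix p x.val • ((γ : SL(2, ℤ)) • τ)) =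
      Φ (ModularForm.heckeMatrix p (σ x).val • τ) + ψ (gU hpN γ x) := by
    intro x
    rw [SL_smul_eq, ← mul_smul, gU_spec hpN, mul_smul, ← SL_smul_eq, ← h (gU hpN γ x)]
    ring
  have h2 : ∑ x : ZMod p, Φ (ModularForm.heckeMatrix p (σ x).val • τ) =
      ∑ x : ZMod p, Φ (ModularForm.heckeMatrix p x.val • τ) :=
    Equiv.sum_comp σ (fun x => Φ (ModularForm.heckeMatrix p x.val • τ))
  unfold FA16.opU trfU
  rw [Finset.sum_congr rfl fun x _ => h1 x, Finset.sum_add_distrib, h2]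
  ring

end U

end FA16
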