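import Mathlib

/-! S16, package UB: the purely arithmetic case distinction. -/

set_option autoImplicit false

namespace FA16

lemma fact12_le {l k : ℕ} (hl : l.Prime) (h : ¬ l ^ (k + 1) ∣ 12) : (12 : ℕ).factorization l ≤ k := by
  by_contra hc
  push Not at hc
  exact h ((hl.pow_dvd_iff_le_factorization (by norm_num)).mpr hc)

/-- If `M * gcd(p-1,12) ∤ p-1`, some prime `l` gives one of the six forbidden congruences. -/
theorem arith_cases (p M : ℕ) (hp : p.Prime) (hM : M ≠ 0)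
    (hnot : ¬ M * Nat.gcd (p - 1) 12 ∣ p - 1) :
    ∃ l c u m : ℕ, l.Prime ∧ c ≠ 0 ∧ c * u = p - 1 ∧ ¬ l ∣ u ∧ c * m ∣ 24 * M ∧
      ((5 ≤ l ∧ m = l) ∨ (l = 3 ∧ m = 3 ∧ p % 3 = 1) ∨ (l = 3 ∧ m = 9) ∨
        (l = 2 ∧ m = 4 ∧ p % 4 = 1) ∨ (l = 2 ∧ m = 8 ∧ Odd p) ∨ (l = 2 ∧ m = 16 ∧ p = 2)) := by
  have hp1 : p - 1 ≠ 0 := by have := hp.two_le; omega
  have hg : Nat.gcd (p - 1) 12 ≠ 0 := Nat.gcd_ne_zero_right (by norm_num)
  rw [← Nat.factorization_prime_le_iff_dvd (Nat.mul_ne_zero hM hg) hp1] at hnot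
  push Not at hnot
  obtain ⟨l, hl, hlt⟩ := hnot
  rw [Nat.factorization_mul hM hg, Nat.factorization_gcd hp1 (by norm_num), Finsupp.add_apply,
    Finsupp.inf_apply] at hlt
  set α := (p - 1).factorization l with hα
  set β := M.factorization l with hβ
  set γ := (12 : ℕ).factorization l with hγ
  have hc : l ^ α * ((p - 1) / l ^ α) = p - 1 := Nat.ordProj_mul_ordCompl_eq_self (p - 1) l
  have hu : ¬ l ∣ (p - 1) / l ^ α := Nat.not_dvd_ordCompl hl hp1
  have hβM : l ^ β ∣ M := Nat.ordProj_dvd M l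
  have hαp : l ^ α ∣ p - 1 := Nat.ordProj_dvd (p - 1) l
  have hc0 : l ^ α ≠ 0 := pow_ne_zero _ hl.ne_zero
  have hdvd : ∀ k, k ≤ β → l ^ k ∣ M := fun k hk => (pow_dvd_pow l hk).trans hβM
  have hα0 : α = 0 → ¬ l ∣ p - 1 := by
    intro h0 hd
    have := (hl.pow_dvd_iff_le_factorization hp1 (k := 1)).mp (by simpa using hd)
    omega
  have hl2 := hl.two_le
  rcases (by omega : l = 2 ∨ l = 3 ∨ l = 4 ∨ 5 ≤ l) with rfl | rfl | rfl | h5
  · -- l = 2
    have hγ2 : γ ≤ 2 := fact12_le hl (by norm_num)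
    rcases (by omega : α = 0 ∨ α = 1 ∨ 2 ≤ α) with h0 | h1 | h2
    · refine ⟨2, 2 ^ α, _, 16, hl, hc0, hc, hu, ?_, Or.inr (Or.inr (Or.inr (Or.inr (Or.inr
        ⟨rfl, rfl, ?_⟩))))⟩
      · have : 2 ^ 1 ∣ M := hdvd 1 (by rw [h0] at hlt; simp at hlt; omega)
        obtain ⟨M', rfl⟩ := this
        rw [h0]
        exact ⟨3 * M', by ring⟩
      · have h := hα0 h0
        rcases hp.eq_two_or_odd with h' | h'
        · exact h'
        · exfalso
          apply h
          omega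
    · refine ⟨2, 2 ^ α, _, 8, hl, hc0, hc, hu, ?_, Or.inr (Or.inr (Or.inr (Or.inr (Or.inl
        ⟨rfl, rfl, ?_⟩))))⟩
      · have : 2 ^ 1 ∣ M := hdvd 1 (by
          have : min α γ ≤ α := min_le_left _ _
          omega)
        obtain ⟨M', rfl⟩ := this
        rw [h1]
        exact ⟨3 * M', by ring⟩
      · rw [h1] at hαp
        have := hp.two_le
        rw [Nat.odd_iff]
        omega
    · refine ⟨2, 2 ^ α, _, 4, hl, hc0, hc, hu, ?_, Or.inr (Or.inr (Or.inr (Or.inl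
        ⟨rfl, rfl, ?_⟩)))⟩
      · have : 2 ^ (α - 1) ∣ M := hdvd (α - 1) (by
          have : min α γ ≤ γ := min_le_right _ _
          omega)
        obtain ⟨M', hM'⟩ := this
        obtain ⟨a, ha⟩ : ∃ a, α = a + 1 := ⟨α - 1, by omega⟩
        rw [hM', ha]
        simp only [Nat.add_sub_cancel]
        exact ⟨3 * M', by ring⟩
      · have : 2 ^ 2 ∣ p - 1 := (pow_dvd_pow 2 h2).trans hαp
        have := hp.two_le
        omega
  · -- l = 3
    have hγ1 : γ ≤ 1 := fact12_le hl (by norm_num)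
    rcases (by omega : α = 0 ∨ 1 ≤ α) with h0 | h1
    · refine ⟨3, 3 ^ α, _, 9, hl, hc0, hc, hu, ?_, Or.inr (Or.inr (Or.inl ⟨rfl, rfl⟩))⟩
      have : 3 ^ 1 ∣ M := hdvd 1 (by rw [h0] at hlt; simp at hlt; omega)
      obtain ⟨M', rfl⟩ := this
      rw [h0]
      exact ⟨8 * M', by ring⟩
    · refine ⟨3, 3 ^ α, _, 3, hl, hc0, hc, hu, ?_, Or.inr (Or.inl ⟨rfl, rfl, ?_⟩)⟩
      · have : 3 ^ α ∣ M := hdvd α (by
          have : min α γ ≤ γ := min_le_right _ _
          omega)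
        obtain ⟨M', hM'⟩ := this
        rw [hM']
        exact ⟨8 * M', by ring⟩
      · have : 3 ^ 1 ∣ p - 1 := (pow_dvd_pow 3 h1).trans hαp
        have := hp.two_le
        omega
  · exact absurd hl (by norm_num)
  · have hγ0 : γ ≤ 0 := fact12_le hl (by
      intro h
      rw [zero_add, pow_one] at h
      have h' : l ∣ 2 ^ 2 * 3 := by norm_num; exact h
      rcases (Nat.Prime.dvd_mul hl).mp h' with h | h
      · have := Nat.le_of_dvd two_pos (hl.dvd_of_dvd_pow h)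
        omega
      · have := Nat.le_of_dvd (by norm_num) h
        omega)
    refine ⟨l, l ^ α, _, l, hl, hc0, hc, hu, ?_, Or.inl ⟨h5, rfl⟩⟩
    have : l ^ (α + 1) ∣ M := hdvd (α + 1) (by
      have : min α γ ≤ γ := min_le_right _ _
      omega)
    rw [← pow_succ]
    exact this.trans (Dvd.intro_left 24 rfl)

end FA16
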