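import Fermat.Agent.Eis.Bridge
import Fermat.Agent.Eis.UBArith
import Fermat.Agent.H7.QCoeff
import Fermat.Agent.Genus.Final
import Fermat.Agent.Eis.Red
import Fermat.Prelude.Def_ModularCurve_ModularUnit

/-! S16, package UB: a cusp form `f ≡ e mod M` forces `M ∣ n`.  Stated relative to the input
of package EXC (`ExcInput`). -/

set_option autoImplicit false

open UpperHalfPlane ModularForm CongruenceSubgroup ModularFormClass
open EisensteinSeries FA_IS ModularCurve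
open scoped MatrixGroups ModularForm ArithmeticFunction.sigma

noncomputable section

namespace FA16

/-- the input from package EXC -/
def ExcInput (N : ℕ) : Prop :=
  ∀ (h : ModularForm (Gamma0 N) 2) (l m : ℕ) (_ : l.Prime) (u : ℤ) (_ : ¬ (l : ℤ) ∣ u)
    (_ : (qExpansion 1 h).coeff 0 = u)
    (_ : ∀ n ≥ 1, ∃ c : ℤ, (qExpansion 1 h).coeff n = (m : ℂ) * c) (_ : m ∣ N + 1)
    (_ : (5 ≤ l ∧ m = l) ∨ (l = 3 ∧ m = 9) ∨ (l = 2 ∧ m = 8)), False

/-- a weight two form congruent to a unit constant modulo `m` -/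
def ConstMod (N l m : ℕ) : Prop :=
  ∃ (h : ModularForm (Gamma0 N) 2) (u : ℤ), ¬ (l : ℤ) ∣ u ∧ (qExpansion 1 h).coeff 0 = u ∧
    ∀ n ≥ 1, ∃ c : ℤ, (qExpansion 1 h).coeff n = (m : ℂ) * c

lemma exists_wpair {N : ℕ} [Fact N.Prime] (h : ModularForm (Gamma0 N) 2) (u : ℤ) (m : ℕ)
    (h0 : (qExpansion 1 h).coeff 0 = u)
    (hn : ∀ n ≥ 1, ∃ c : ℤ, (qExpansion 1 h).coeff n = (m : ℂ) * c) :
    ∃ A A' : PowerSeries ℤ, WPair N u A A' ∧ ∀ j, j ≠ 0 → (m : ℤ) ∣ PowerSeries.coeff j A := by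
  have hn' : ∀ n, ∃ c : ℤ, 1 ≤ n → (qExpansion 1 h).coeff n = (m : ℂ) * c := by
    intro n
    by_cases h1 : 1 ≤ n
    · obtain ⟨c, hc⟩ := hn n h1
      exact ⟨c, fun _ => hc⟩
    · exact ⟨0, fun h => absurd h h1⟩
  choose c hc using hn'
  let A : PowerSeries ℤ := PowerSeries.mk fun n => if n = 0 then u else m * c n
  have hA : qExpansion 1 h = PowerSeries.map (Int.castRingHom ℂ) A := by
    ext n
    rw [PowerSeries.coeff_map, PowerSeries.coeff_mk]
    by_cases hn0 : n = 0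
    · subst hn0
      simp [h0]
    · rw [if_neg hn0, hc n (Nat.one_le_iff_ne_zero.mpr hn0)]
      simp
  have hA0 : PowerSeries.coeff 0 A = u := by simp [A]
  have W := wpair_of h A hA
  rw [hA0] at W
  refine ⟨A, _, W, fun j hj => ?_⟩
  rw [PowerSeries.coeff_mk, if_neg hj]
  exact Dvd.intro _ rfl

lemma odd_of_not_two_dvd {u : ℤ} (h : ¬ ((2 : ℕ) : ℤ) ∣ u) : Odd u := by
  rw [← Int.not_even_iff_odd, even_iff_two_dvd]
  exact_mod_cast h

/-- **No weight two form of prime level `N` is congruent to a unit constant modulo `m`**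
in the six cases. -/
theorem not_constMod {N : ℕ} [Fact N.Prime] (hN : N.Prime) (I : ExcInput N) {l m : ℕ} (hl : l.Prime)
    (h55 : ¬ (N = 5 ∧ l = 5))
    (hcase : (5 ≤ l ∧ m = l) ∨ (l = 3 ∧ m = 3 ∧ N % 3 = 1) ∨ (l = 3 ∧ m = 9) ∨
        (l = 2 ∧ m = 4 ∧ N % 4 = 1) ∨ (l = 2 ∧ m = 8 ∧ Odd N) ∨ (l = 2 ∧ m = 16 ∧ N = 2)) :
    ¬ ConstMod N l m := by
  rintro ⟨h, u, hu, h0, hn⟩
  obtain ⟨A, A', W, hm⟩ := exists_wpair h u m h0 hn
  rcases hcase with ⟨h5, rfl⟩ | ⟨rfl, rfl, h3⟩ | ⟨rfl, rfl⟩ | ⟨rfl, rfl, h4⟩ | ⟨rfl, rfl, ho⟩ |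
    ⟨rfl, rfl, rfl⟩
  · by_cases hd : m ∣ N + 1
    · exact I h m m hl u hu h0 hn hd (Or.inl ⟨h5, rfl⟩)
    · exact W.T1 hN hl h5 hu hm hd h55
  · exact W.T2 hN (by exact_mod_cast hu) (by exact_mod_cast hm) h3
  · by_cases hd : 9 ∣ N + 1
    · exact I h 3 9 hl u hu h0 hn hd (Or.inr (Or.inl ⟨rfl, rfl⟩))
    · exact W.T3 hN (by exact_mod_cast hu) (by exact_mod_cast hm) hd
  · exact W.T4 hN (odd_of_not_two_dvd hu) (by exact_mod_cast hm) h4
  · have hd := W.T5 hN ho (odd_of_not_two_dvd hu) (by exact_mod_cast hm)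
    exact I h 2 8 hl u hu h0 hn hd (Or.inr (Or.inr ⟨rfl, rfl⟩))
  · exact W.T6 (odd_of_not_two_dvd hu) (by exact_mod_cast hm)

lemma genusFormula_five : genusFormula 5 = 0 := by
  have h1 : dedekindPsi 5 = 6 := by decide +kernel
  have h2 : nuTwo 5 = 2 := by
    rw [nuTwo, Nat.card_eq_fintype_card]
    decide +kernel
  have h3 : nuThree 5 = 0 := by
    rw [nuThree, Nat.card_eq_fintype_card]
    decide +kernel
  have h4 : cuspCount 5 = 2 := by decide +kernel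
  rw [genusFormula, h1, h2, h3, h4]
  norm_num

lemma cuspForm_five_eq_zero (f : CuspForm (Gamma0 5) 2) : f = 0 := by
  have h := FAGenus.finrank_cusp_two 5
  rw [genusFormula_five] at h
  have h' : Module.finrank ℂ (CuspForm (Gamma0 5) 2) = 0 := by exact_mod_cast h
  haveI := Fermat.Agent.H7.finiteDimensional_cuspForm 5 2
  haveI := Module.finrank_zero_iff.mp h'
  exact Subsingleton.elim _ _

/-- the form `c⁻¹ (eisN - 24 f)` -/
lemma constMod_of {p : ℕ} [NeZero p] (hp : p.Prime) (f : CuspForm (Gamma0 p) 2) {M : ℕ}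
    (hf : ∀ k ≥ 1, ∃ z : ℤ, qCoeff ⇑f k = z ∧ (M : ℤ) ∣ z - sigmaPrime p k)
    {l c u m : ℕ} (hc0 : c ≠ 0) (hcu : c * u = p - 1) (hlu : ¬ l ∣ u) (hcm : c * m ∣ 24 * M) :
    ConstMod p l m := by
  have hcC : (c : ℂ) ≠ 0 := by exact_mod_cast hc0
  let h : ModularForm (Gamma0 p) 2 :=
    ((c : ℂ)⁻¹) • (eisN p - (24 : ℂ) • CuspForm.toModularFormₗ f)
  have hcoe : ⇑h = ((c : ℂ)⁻¹) • (⇑(eisN p) - (24 : ℂ) • ⇑f) := by
    ext τ
    simp [h, CuspForm.toModularFormₗ_apply]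
  have nf : Nice 1 ⇑f := Nice.of_modularForm f one_pos (one_mem_strictPeriods_GG p)
  have hq : ∀ n, (qExpansion 1 h).coeff n =
      (c : ℂ)⁻¹ * ((qExpansion 1 (eisN p)).coeff n - 24 * qCoeff ⇑f n) := by
    intro n
    rw [hcoe, ((nice_G0 p (eisN p)).sub (nf.smul _)).qExpansion_smul one_pos,
      (nice_G0 p (eisN p)).qExpansion_sub (nf.smul _) one_pos, nf.qExpansion_smul one_pos]
    simp [qCoeff]
  refine ⟨h, u, by exact_mod_cast hlu, ?_, ?_⟩
  · rw [hq, qExpansion_eisN_coeff_zero, Fermat.Agent.H7.qCoeff_at_zero]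
    have h1 : (c : ℂ) * u = (p : ℂ) - 1 := by
      have := hp.one_le
      have h2 : ((c * u : ℕ) : ℂ) = ((p - 1 : ℕ) : ℂ) := by rw [hcu]
      rw [Nat.cast_sub this] at h2
      push_cast at h2
      exact h2
    rw [mul_zero, sub_zero, ← h1]
    field_simp
    simp
  · intro n hn
    obtain ⟨z, hz, t, ht⟩ := hf n hn
    obtain ⟨w, hw⟩ := hcm
    refine ⟨-(w * t), ?_⟩
    rw [hq, qExpansion_eisN_coeff_prime p hp (by omega), hz]
    have hz' : (z : ℂ) = sigmaPrime p n + M * t := by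
      have : z = sigmaPrime p n + M * t := by linarith
      exact_mod_cast this
    have hw' : (24 : ℂ) * M = c * m * w := by exact_mod_cast hw
    rw [hz']
    field_simp
    push_cast
    linear_combination (-(t : ℂ)) * hw'

/-- **UB**, relative to `Inputs`. -/
theorem UB_of (p : ℕ) [Fact p.Prime] (I : ExcInput p) (M : ℕ) (hM : M ≠ 0)
    (hf : ∃ f : CuspForm (Gamma0 p) 2, ∀ k : ℕ, 0 < k → ∃ z : ℤ, qCoeff f k = (z : ℂ) ∧
      (M : ℤ) ∣ z - sigP p k) : M ∣ eisensteinNumerator p := by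
  have hp : p.Prime := Fact.out
  haveI : NeZero p := ⟨hp.ne_zero⟩
  obtain ⟨f, hf'⟩ := hf
  have hf : ∀ k ≥ 1, ∃ z : ℤ, qCoeff ⇑f k = z ∧ (M : ℤ) ∣ z - sigmaPrime p k := by
    intro k hk
    obtain ⟨z, hz, hd⟩ := hf' k hk
    refine ⟨z, hz, ?_⟩
    have : sigP p k = (sigmaPrime p k : ℤ) := by simp [sigP, sigmaPrime]
    rwa [this] at hd
  by_cases h5 : p = 5
  · subst h5
    obtain ⟨z, hz, hd⟩ := hf 1 le_rfl
    rw [cuspForm_five_eq_zero f, Fermat.Agent.H7.qCoeff_zero_form] at hz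
    have hz0 : z = 0 := by exact_mod_cast hz.symm
    have hs : sigmaPrime 5 1 = 1 := by decide
    rw [hz0, hs] at hd
    have : (M : ℤ) ∣ 1 := by
      have := (dvd_neg).mpr hd
      simpa using this
    have hM1 : M ∣ 1 := by exact_mod_cast this
    exact hM1.trans (one_dvd _)
  · rw [eisensteinNumerator]
    by_contra hnot
    have hnot' : ¬ M * Nat.gcd (p - 1) 12 ∣ p - 1 := by
      intro h
      apply hnot
      exact Nat.dvd_div_of_mul_dvd (by rwa [mul_comm] at h)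
    obtain ⟨l, c, u, m, hl, hc0, hcu, hlu, hcm, hcase⟩ := arith_cases p M hp hM hnot'
    exact not_constMod hp I hl (fun h => h5 h.1) hcase (constMod_of hp f hf hc0 hcu hlu hcm)

end FA16
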